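import Fermat.Agent.H18J.RatStr

set_option autoImplicit false
set_option linter.unusedSectionVars false

/-!
# Comparison with the field of quotients of modular forms and with the function field of `X₀(N)`

-/

noncomputable section

open UpperHalfPlane hiding I
open ModularForm EisensteinSeries Filter Complex Topology Function CongruenceSubgroup
open scoped MatrixGroups Manifold Real Polynomial IntermediateField

namespace Fermat.Agent.H18J

open Fermat.Agent.H02
open Fermat.Agent.H22 (GamH dChar mem_GamH' mem_GamH GamH_le_Gamma0 dChar_val GamH_mono GamH_top)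
open Fermat.Agent.H26 (cEmb cEmb_mem_extend mem_of_cEmb_mem_extend)
open Fermat.Agent.H02G (pm mem_pm le_pm neg_mem_pm mfq)
open Fermat.Agent.H18 (jfun theta theta_injective isExp_fun_unique isExp_jfun theta_jqModC
  theta_qExpand isExp_aeval jfun_surjective ratFuncAlgebra ratFuncAlgebra_tower ratFuncAlgebra_X)
open Fermat.Agent.Igusa (IsExp scl lin coe_scl coe_lin)
open ModularCurve (coeffMap qExpand jqModC laurentBaseChange coeffEmb modularFunctionFieldFull)

/-! ### Quotients of modular forms -/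

section MFQ

variable {Γ : Subgroup SL(2, ℤ)} [H02G.IsLevel Γ]

theorem isExp_one_iff {f : ℍ → ℂ} {F : LaurentSeries ℂ} :
    IsExp 1 f F ↔ ∀ z : ℍ, HasSum (fun k : ℤ => F.coeff k * qf z ^ k) (f z) := by
  have : ∀ z : ℍ, Function.Periodic.qParam ((1 : ℕ) : ℝ) (z : ℂ) = qf z := fun z => by
    rw [Nat.cast_one]; rfl
  simp only [IsExp, this]

theorem isExp_qLauFun {f : ℍ → ℂ} (hf : f ∈ modAlg Γ) : IsExp 1 f (qLauFun f) := by
  obtain ⟨n, hn⟩ := H02G.mem_lauAlg_of_mem hf
  exact isExp_one_iff.mpr hn.hasSum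

theorem theta_C (F : LaurentSeries ℂ) : theta ℂ F = F := by
  ext n
  rw [ModularCurve.coeffMap_coeff]
  rfl

theorem mem_ringS_C_iff {F : LaurentSeries ℂ} :
    F ∈ ringS ℂ Γ ↔ ∃ f ∈ modAlg Γ, F = qLauFun f := by
  constructor
  · rintro ⟨f, hf, hF⟩
    rw [theta_C] at hF
    exact ⟨f, hf, hF.unique one_pos (isExp_qLauFun hf)⟩
  · rintro ⟨f, hf, rfl⟩
    exact ⟨f, hf, by rw [theta_C]; exact isExp_qLauFun hf⟩

/-- Over `ℂ` the function field is the field of quotients of modular forms of equal weight. -/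
theorem FK_C_eq_mfq : FK ℂ Γ = mfq Γ := by
  apply le_antisymm
  · rw [FK, IntermediateField.adjoin_le_iff]
    intro F hF
    obtain ⟨f, hf, rfl⟩ := mem_ringS_C_iff.mp hF
    exact H02G.qLauFun_mem_mfq hf
  · intro x hx
    obtain ⟨a, b, ha, hb, hb0, h⟩ := H02G.exists_modAlg_of_mem_mfq hx
    have h0 : qLauFun b ≠ 0 := by
      intro h0
      apply hb0
      have h1 := isExp_qLauFun hb
      rw [h0] at h1
      have h2 : IsExp 1 (0 : ℍ → ℂ) 0 := IsExp.zero
      exact isExp_fun_unique h1 h2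
    rw [eq_div_of_mul_eq h0 h]
    exact div_mem (mem_FK_of_mem (mem_ringS_C_iff.mpr ⟨a, ha, rfl⟩))
      (mem_FK_of_mem (mem_ringS_C_iff.mpr ⟨b, hb, rfl⟩))

end MFQ

/-! ### A criterion for generation -/

section Crit

variable {K : Type*} [Field K] [Algebra K ℂ] [IsAlgClosed K] {N : ℕ} [NeZero N]
  {Γ : Subgroup SL(2, ℤ)} [IsLevel N Γ]

theorem FK_le_of_fix {G : IntermediateField K (LaurentSeries K)} (hG : jqModC K ∈ G)
    (h : ∀ γ : SL(2, ℤ), (∀ y ∈ preF (N := N) K G hG, rho K N γ y = y) → γ ∈ pm Γ) :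
    FK K Γ ≤ G := by
  intro x hx
  set E := preF (N := N) K G hG with hE
  have h1 : embF K N Γ ⟨x, hx⟩ ∈ E := by
    rw [← IsGalois.fixedField_fixingSubgroup E, IntermediateField.mem_fixedField_iff]
    intro g hg
    obtain ⟨γ, rfl⟩ := rho_surjective g
    have h2 : γ ∈ pm Γ := h γ fun y hy => (IntermediateField.mem_fixingSubgroup_iff _ _).mp hg y hy
    exact (mem_pm_iff (K := K) (N := N)).mp h2 _
  obtain ⟨y, hy, h2⟩ := mem_preF.mp h1
  rw [expM_embF] at h2
  have h3 : y = x := ModularCurve.qExpand_injective N h2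
  rwa [← h3]

end Crit

/-! ### The function field of `X₀(N)` -/

section Full

variable (N : ℕ) [NeZero N]

instance isLevel_Gamma0 : IsLevel N (Gamma0 N) where
  gamma_le := Gamma_le_Gamma0
  T_mem := by rw [Gamma0_mem]; simp [ModularGroup.T]

theorem full_le_FK (K : Type*) [Field K] [Algebra K ℂ] [Algebra ℚ K] :
    laurentBaseChange K (modularFunctionFieldFull N) ≤ FK K (Gamma0 N) := by
  intro x hx
  refine H18.laurentBaseChange_le (S := (FK K (Gamma0 N)).toSubfield) (fun c => ?_)
    (fun d _ hd => ?_) hx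
  · exact (FK K (Gamma0 N)).algebraMap_mem c
  · exact mem_FK_of_mem (jqd_mem_ringS (Gamma0_le_of_dvd hd))

theorem FK_Gamma0_of_isAlgClosed (K : Type*) [Field K] [Algebra K ℂ] [IsAlgClosed K]
    [Algebra ℚ K] :
    FK K (Gamma0 N) = laurentBaseChange K (modularFunctionFieldFull N) := by
  apply le_antisymm _ (full_le_FK N K)
  have hj : ∀ d : ℕ, ∀ _ : NeZero d, d ∣ N →
      qExpand K d (jqModC K) ∈ laurentBaseChange K (modularFunctionFieldFull N) := fun d _ hd =>
    (H18.jd (K := K) d hd).2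
  have hj1 : jqModC K ∈ laurentBaseChange K (modularFunctionFieldFull N) := by
    have := hj 1 inferInstance (one_dvd N)
    rwa [ModularCurve.qExpand_one_apply] at this
  refine FK_le_of_fix (N := N) hj1 fun γ h => le_pm ?_
  have h1 := h _ (mem_preF_of_ringS (N := N) (Γ := Gamma0 N) (jN_mem_modAlg (NeZero.pos N))
      (F := qExpand K N (jqModC K)) (by rw [theta_qExpand, theta_jqModC]; exact H18.isExp_jN)
      (hj N inferInstance dvd_rfl))
  exact mem_Gamma0_of_tr_jN (NeZero.pos N) (tr_eq_of_rho h1)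

/-- **Level `Γ₀(N)`**: the function field is the usual one. -/
theorem FK_Gamma0 (K : Type*) [Field K] [Algebra K ℂ] [Algebra ℚ K] :
    FK K (Gamma0 N) = laurentBaseChange K (modularFunctionFieldFull N) := by
  apply le_antisymm _ (full_le_FK N K)
  intro x hx
  apply mem_of_cEmb_mem_extend (L := ℂ)
  rw [← H26.laurentBaseChange_eq_extend (K := K) (L := ℂ), ← FK_Gamma0_of_isAlgClosed]
  exact cEmb_mem_FK K hx

theorem F0_top : F0 (⊤ : Subgroup (ZMod N)ˣ) = modularFunctionFieldFull N := by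
  rw [F0, GamH_top]
  apply le_antisymm
  · intro x hx
    apply mem_of_cEmb_mem_extend (L := ℂ)
    have h1 := cEmb_mem_FK ℚ (L := ℂ) hx
    rw [FK_Gamma0_of_isAlgClosed] at h1
    exact h1
  · intro x hx
    have h1 : coeffEmb ℂ x ∈ laurentBaseChange ℂ (modularFunctionFieldFull N) :=
      ModularCurve.coeffEmb_mem_laurentBaseChange ℂ hx
    have h2 := full_le_FK N ℂ h1
    rw [← GamH_top, ← extend_FK ℚ ℂ] at h2
    have h3 := mem_of_cEmb_mem_extend (K := ℚ) (L := ℂ) (z := x) h2
    rwa [GamH_top] at h3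

end Full

end Fermat.Agent.H18J
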