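import Fermat.Agent.H18J.Scale

set_option autoImplicit false
set_option linter.unusedSectionVars false

/-!
# Diamond operators on the function field of `Γ_H(N)`

-/

noncomputable section

open UpperHalfPlane hiding I
open ModularForm EisensteinSeries Filter Complex Topology Function CongruenceSubgroup
open scoped MatrixGroups Manifold Real Polynomial IntermediateField

namespace Fermat.Agent.H18J

open Fermat.Agent.H02
open Fermat.Agent.H22 (GamH dChar mem_GamH' mem_GamH GamH_le_Gamma0 dChar_val GamH_mono GamH_top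
  conj_mem_GamH)
open Fermat.Agent.H26 (cEmb cEmb_mem_extend mem_of_cEmb_mem_extend)
open Fermat.Agent.H02G (pm mem_pm le_pm neg_mem_pm mfq)
open Fermat.Agent.H18 (jfun theta theta_injective isExp_fun_unique isExp_jfun theta_jqModC
  theta_qExpand isExp_aeval jfun_surjective ratFuncAlgebra ratFuncAlgebra_tower ratFuncAlgebra_X)
open Fermat.Agent.Igusa (IsExp scl lin coe_scl coe_lin)
open ModularCurve (coeffMap qExpand jqModC laurentBaseChange coeffEmb modularFunctionFieldFull)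

variable {N : ℕ} {H : Subgroup (ZMod N)ˣ}

theorem tr_mem_modAlg_GamH (g : Gamma0 N) {f : ℍ → ℂ} (hf : f ∈ modAlg (GamH N H)) :
    tr (g : SL(2, ℤ)) f ∈ modAlg (GamH N H) := by
  refine ⟨hf.1.tr _, fun γ hγ => ?_⟩
  rw [tr_tr, show (g : SL(2, ℤ)) * γ = (g * γ * (g : SL(2, ℤ))⁻¹) * g by group, ← tr_tr,
    hf.2 _ (conj_mem_GamH N H g hγ)]

variable [NeZero N]

section Closed

variable {K : Type*} [Field K] [Algebra K ℂ] [IsAlgClosed K]

theorem rho_embF_mem (g : Gamma0 N) (x : FK K (GamH N H)) :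
    rho K N (g : SL(2, ℤ))⁻¹ (embF K N (GamH N H) x) ∈ (embF K N (GamH N H)).range := by
  obtain ⟨y, hy⟩ := exists_embF_eq (K := K) (N := N) (Γ := GamH N H)
    (rho K N (g : SL(2, ℤ))⁻¹ (embF K N (GamH N H) x)) (fun γ hγ => by
      have h1 : γ * (g : SL(2, ℤ))⁻¹ = (g : SL(2, ℤ))⁻¹ * (g * γ * (g : SL(2, ℤ))⁻¹) := by group
      rw [← AlgEquiv.mul_apply, ← map_mul, h1, map_mul, AlgEquiv.mul_apply,
        rho_embF_of_mem (conj_mem_GamH N H g hγ)])
  exact ⟨y, hy⟩

/-- The action of `Γ₀(N)` on the function field of `Γ_H(N)`, algebraically closed case. -/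
def diaA (g : Gamma0 N) : FK K (GamH N H) →ₐ[K] FK K (GamH N H) :=
  (AlgEquiv.ofInjectiveField (embF K N (GamH N H))).symm.toAlgHom.comp
    (((((rho K N (g : SL(2, ℤ))⁻¹).restrictScalars K).toAlgHom.comp
      (embF K N (GamH N H)))).codRestrict _ fun x => rho_embF_mem g x)

theorem embF_diaA (g : Gamma0 N) (x : FK K (GamH N H)) :
    embF K N (GamH N H) (diaA g x) = rho K N (g : SL(2, ℤ))⁻¹ (embF K N (GamH N H) x) := by
  have h1 := (AlgEquiv.ofInjectiveField (embF K N (GamH N H))).apply_symm_apply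
    ((((((rho K N (g : SL(2, ℤ))⁻¹).restrictScalars K).toAlgHom.comp
      (embF K N (GamH N H)))).codRestrict _ fun x => rho_embF_mem g x) x)
  exact congrArg Subtype.val h1

/-- On functions the action is `f ↦ f ∘ g`. -/
theorem diaA_of_ringS (g : Gamma0 N) {f : ℍ → ℂ} (hf : f ∈ modAlg (GamH N H))
    {F F' : LaurentSeries K} (hF : IsExp 1 f (theta K F))
    (hF' : IsExp 1 (tr (g : SL(2, ℤ)) f) (theta K F')) :
    diaA g (⟨F, mem_FK_of_mem ⟨f, hf, hF⟩⟩ : FK K (GamH N H)) =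
      ⟨F', mem_FK_of_mem ⟨_, tr_mem_modAlg_GamH g hf, hF'⟩⟩ := by
  apply (embF K N (GamH N H)).injective
  show embF K N (GamH N H) _ = embF K N (GamH N H) _
  rw [embF_diaA, embF_of_ringS hf hF, embF_of_ringS (tr_mem_modAlg_GamH g hf) hF', rho_algebraMap]
  congr 1
  apply Subtype.ext
  rw [coe_smul, inv_inv]

end Closed

/-! ### General fields of constants -/

section Gen

variable (K : Type*) [Field K] [Algebra K ℂ]

/-- The twisted norm `∏_{u ∈ H} (j^c - h_{u d})`. -/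
def nrmT (H : Subgroup (ZMod N)ˣ) (R : Type*) [CommRing R] (d : ZMod N) (c : ℕ) :
    LaurentSeries R :=
  ∏ u ∈ hFin H, (jqModC R ^ c - hS R N ((u : ZMod N) * d))

/-- The function `∏_{u ∈ H} (j^c - h_{u d})`. -/
def nrmFunT (H : Subgroup (ZMod N)ˣ) (d : ZMod N) (c : ℕ) : ℍ → ℂ :=
  ∏ u ∈ hFin H, (jfun ^ c - hfun N ((u : ZMod N) * d))

theorem coeffMap_nrmT {R S : Type*} [CommRing R] [CommRing S] (f : R →+* S) (d : ZMod N) (c : ℕ) :
    coeffMap f (nrmT H R d c) = nrmT H S d c := by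
  rw [nrmT, map_prod, nrmT]
  refine Finset.prod_congr rfl fun u _ => ?_
  rw [map_sub, coeffMap_hS, map_pow, ModularCurve.coeffMap_jqModC]

theorem tr_nrmFun_eq {γ : SL(2, ℤ)} (hγ : γ ∈ Gamma0 N) (c : ℕ) :
    tr γ (nrmFun H c) = nrmFunT H ((γ 0 0 : ℤ) : ZMod N) c := by
  rw [nrmFun, tr_prod, nrmFunT]
  refine Finset.prod_congr rfl fun u _ => ?_
  rw [tr_factor, tr_hfun hγ]

theorem isUnit_zero_zero {γ : SL(2, ℤ)} (hγ : γ ∈ Gamma0 N) :
    IsUnit ((γ 0 0 : ℤ) : ZMod N) := by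
  obtain ⟨-, h⟩ := isUnit_of_det γ (Gamma0_mem.mp hγ)
  exact IsUnit.of_mul_eq_one _ h

theorem isExp_nrmFunT (hN : N ≠ 1) {d : ZMod N} (hd : IsUnit d) (c : ℕ) :
    IsExp 1 (nrmFunT H d c) (nrmT H ℂ d c) := by
  refine isExp_prod _ fun u _ => ?_
  obtain ⟨v, rfl⟩ := hd
  have h1 : ((u : ZMod N) * v) ≠ 0 := by
    rw [← Units.val_mul]
    exact unit_ne_zero hN _
  exact IsExp.sub (isExp_jfun.pow c) (isExp_hfun h1)

/-- The action over `ℂ` as a map to Laurent series. -/
def diaC (H : Subgroup (ZMod N)ˣ) (g : Gamma0 N) : FK K (GamH N H) →+* LaurentSeries ℂ :=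
  ((FK ℂ (GamH N H)).val.toRingHom.comp (diaA (K := ℂ) g).toRingHom).comp
    (((cEmb K ℂ).comp (FK K (GamH N H)).val.toRingHom).codRestrict (FK ℂ (GamH N H)).toSubring
      fun x => cEmb_mem_FK K x.2)

theorem diaC_apply (g : Gamma0 N) (x : FK K (GamH N H)) :
    diaC K H g x = diaA (K := ℂ) g ⟨cEmb K ℂ x, cEmb_mem_FK K x.2⟩ := rfl

/-- The subfield of elements whose transform is rational over `K`. -/
def diaS (H : Subgroup (ZMod N)ˣ) (g : Gamma0 N) : Subfield (FK K (GamH N H)) :=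
  ((FK K (GamH N H)).toSubfield.map (cEmb K ℂ)).comap (diaC K H g)

variable {K} in
theorem diaC_of_ringS (g : Gamma0 N) {f : ℍ → ℂ} (hf : f ∈ modAlg (GamH N H))
    {F F' : LaurentSeries K} (hF : IsExp 1 f (theta K F))
    (hF' : IsExp 1 (tr (g : SL(2, ℤ)) f) (theta K F')) :
    diaC K H g ⟨F, mem_FK_of_mem ⟨f, hf, hF⟩⟩ = cEmb K ℂ F' := by
  rw [diaC_apply]
  have h1 : ∀ F : LaurentSeries K, theta ℂ (cEmb K ℂ F) = theta K F := fun F => theta_C _
  have := diaA_of_ringS (K := ℂ) g hf (F := cEmb K ℂ F) (F' := cEmb K ℂ F')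
    (by rw [h1]; exact hF) (by rw [h1]; exact hF')
  rw [this]

theorem diaS_eq_top (g : Gamma0 N) : diaS K H g = ⊤ := by
  rw [eq_top_iff]
  rintro ⟨x, hx⟩ -
  have key : ∀ (x : LaurentSeries K) (_ : x ∈ IntermediateField.adjoin K (gens H K)),
      ∃ h : x ∈ FK K (GamH N H), (⟨x, h⟩ : FK K (GamH N H)) ∈ diaS K H g := by
    intro x hx
    induction hx using IntermediateField.adjoin_induction with
    | mem x hx =>
      refine ⟨mem_FK_of_mem (gens_subset K hx), ?_⟩
      have base : ∀ {f : ℍ → ℂ} (hf : f ∈ modAlg (GamH N H)) {F F' : LaurentSeries K}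
          (hF : IsExp 1 f (theta K F)) (hF' : IsExp 1 (tr (g : SL(2, ℤ)) f) (theta K F')),
          (⟨F, mem_FK_of_mem ⟨f, hf, hF⟩⟩ : FK K (GamH N H)) ∈ diaS K H g := by
        intro f hf F F' hF hF'
        exact ⟨F', mem_FK_of_mem ⟨_, tr_mem_modAlg_GamH g hf, hF'⟩, (diaC_of_ringS g hf hF hF').symm⟩
      rcases hx with (rfl | rfl) | ⟨hN, c, rfl⟩
      · have h1 : IsExp 1 jfun (theta K (jqModC K)) := by rw [theta_jqModC]; exact isExp_jfun
        exact base (jfun_mem_modAlg _) h1 (F' := jqModC K) (by rw [tr_jfun]; exact h1)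
      · have h1 : IsExp 1 (jN N) (theta K (qExpand K N (jqModC K))) := by
          rw [theta_qExpand, theta_jqModC]; exact H18.isExp_jN
        exact base (modAlg_mono GamH_le_Gamma0 (jN_mem_modAlg (NeZero.pos N))) h1
          (F' := qExpand K N (jqModC K)) (by rw [tr_jN_of_mem (NeZero.pos N) g.2]; exact h1)
      · have h1 : IsExp 1 (nrmFun H c) (theta K (nrm H K c)) := by
          have : theta K (nrm H K c) = nrm H ℂ c := coeffMap_nrm _ c
          rw [this]
          exact isExp_nrmFun hN c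
        refine base (nrmFun_mem c) h1
          (F' := nrmT H K (((g : SL(2, ℤ)) 0 0 : ℤ) : ZMod N) c) ?_
        have : theta K (nrmT H K (((g : SL(2, ℤ)) 0 0 : ℤ) : ZMod N) c) =
            nrmT H ℂ (((g : SL(2, ℤ)) 0 0 : ℤ) : ZMod N) c := coeffMap_nrmT _ _ c
        rw [this, tr_nrmFun_eq g.2]
        exact isExp_nrmFunT hN (isUnit_zero_zero g.2) c
    | algebraMap c =>
      refine ⟨(FK K (GamH N H)).algebraMap_mem c, ?_⟩
      refine ⟨algebraMap K _ c, (FK K (GamH N H)).algebraMap_mem c, ?_⟩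
      rw [diaC_apply]
      have h1 : (⟨cEmb K ℂ (algebraMap K (LaurentSeries K) c), cEmb_mem_FK K
          ((FK K (GamH N H)).algebraMap_mem c)⟩ : FK ℂ (GamH N H)) =
          algebraMap ℂ _ (algebraMap K ℂ c) := Subtype.ext (H26.coeffMap_algebraMap' _ c)
      have h2 : cEmb K ℂ (algebraMap K (LaurentSeries K) c) = algebraMap ℂ _ (algebraMap K ℂ c) :=
        H26.coeffMap_algebraMap' _ c
      show cEmb K ℂ (algebraMap K (LaurentSeries K) c) = _
      rw [h1, AlgHom.commutes, h2]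
      rfl
    | add x y _ _ hx hy =>
      obtain ⟨h1, h2⟩ := hx
      obtain ⟨h3, h4⟩ := hy
      refine ⟨add_mem h1 h3, ?_⟩
      have h5 : (⟨x + y, add_mem h1 h3⟩ : FK K (GamH N H)) = ⟨x, h1⟩ + ⟨y, h3⟩ := rfl
      rw [h5]
      exact add_mem h2 h4
    | mul x y _ _ hx hy =>
      obtain ⟨h1, h2⟩ := hx
      obtain ⟨h3, h4⟩ := hy
      refine ⟨mul_mem h1 h3, ?_⟩
      have h5 : (⟨x * y, mul_mem h1 h3⟩ : FK K (GamH N H)) = ⟨x, h1⟩ * ⟨y, h3⟩ := rfl
      rw [h5]
      exact mul_mem h2 h4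
    | inv x _ hx =>
      obtain ⟨h1, h2⟩ := hx
      refine ⟨inv_mem h1, ?_⟩
      have h5 : (⟨x⁻¹, inv_mem h1⟩ : FK K (GamH N H)) = (⟨x, h1⟩)⁻¹ := rfl
      rw [h5]
      exact inv_mem h2
  obtain ⟨h1, h2⟩ := key x (by rw [← FK_eq_adjoin]; exact hx)
  exact h2

theorem exists_dia (g : Gamma0 N) (x : FK K (GamH N H)) :
    ∃ y : FK K (GamH N H), cEmb K ℂ y = diaC K H g x := by
  have h : x ∈ diaS K H g := by rw [diaS_eq_top]; trivial
  obtain ⟨y, hy, h1⟩ := h
  exact ⟨⟨y, hy⟩, h1⟩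

theorem cEmb_injective {L : Type*} [Field L] [Algebra K L] : Function.Injective (cEmb K L) :=
  H26.coeffMap_injective (algebraMap K L).injective

/-- The action of `Γ₀(N)` on the function field of `Γ_H(N)` over `K`. -/
def dia (H : Subgroup (ZMod N)ˣ) (g : Gamma0 N) : FK K (GamH N H) →ₐ[K] FK K (GamH N H) where
  toFun x := (exists_dia K g x).choose
  map_one' := by
    apply Subtype.ext
    apply cEmb_injective K (L := ℂ)
    rw [(exists_dia K g 1).choose_spec, map_one]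
    exact (map_one _).symm
  map_mul' x y := by
    apply Subtype.ext
    apply cEmb_injective K (L := ℂ)
    rw [(exists_dia K g (x * y)).choose_spec, map_mul, MulMemClass.coe_mul, map_mul,
      (exists_dia K g x).choose_spec, (exists_dia K g y).choose_spec]
  map_zero' := by
    apply Subtype.ext
    apply cEmb_injective K (L := ℂ)
    rw [(exists_dia K g 0).choose_spec, map_zero]
    exact (map_zero _).symm
  map_add' x y := by
    apply Subtype.ext
    apply cEmb_injective K (L := ℂ)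
    rw [(exists_dia K g (x + y)).choose_spec, map_add, AddMemClass.coe_add, map_add,
      (exists_dia K g x).choose_spec, (exists_dia K g y).choose_spec]
  commutes' c := by
    apply Subtype.ext
    apply cEmb_injective K (L := ℂ)
    rw [(exists_dia K g (algebraMap K _ c)).choose_spec, diaC_apply]
    have h1 : (⟨cEmb K ℂ (algebraMap K (FK K (GamH N H)) c : LaurentSeries K), cEmb_mem_FK K
        (algebraMap K (FK K (GamH N H)) c).2⟩ : FK ℂ (GamH N H)) =
        algebraMap ℂ _ (algebraMap K ℂ c) := Subtype.ext (H26.coeffMap_algebraMap' _ c)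
    rw [h1, AlgHom.commutes]
    exact (H26.coeffMap_algebraMap' _ c).symm

theorem cEmb_dia (g : Gamma0 N) (x : FK K (GamH N H)) :
    cEmb K ℂ (dia K H g x) = diaA (K := ℂ) g ⟨cEmb K ℂ x, cEmb_mem_FK K x.2⟩ :=
  (exists_dia K g x).choose_spec

variable {K} in
/-- On functions the action is `f ↦ f ∘ g`. -/
theorem dia_of_ringS (g : Gamma0 N) {f : ℍ → ℂ} (hf : f ∈ modAlg (GamH N H))
    {F F' : LaurentSeries K} (hF : IsExp 1 f (theta K F))
    (hF' : IsExp 1 (tr (g : SL(2, ℤ)) f) (theta K F')) :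
    dia K H g ⟨F, mem_FK_of_mem ⟨f, hf, hF⟩⟩ =
      ⟨F', mem_FK_of_mem ⟨_, tr_mem_modAlg_GamH g hf, hF'⟩⟩ := by
  apply Subtype.ext
  apply cEmb_injective K (L := ℂ)
  rw [cEmb_dia]
  exact diaC_of_ringS g hf hF hF'

end Gen

end Fermat.Agent.H18J
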