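import Fermat.Agent.H18J.Diam

set_option autoImplicit false
set_option linter.unusedSectionVars false

/-!
# Diamond operators on the function field of `Γ_H(N)`, II

-/

noncomputable section

open UpperHalfPlane hiding I
open ModularForm EisensteinSeries Filter Complex Topology Function CongruenceSubgroup
open scoped MatrixGroups Manifold Real Polynomial IntermediateField

namespace Fermat.Agent.H18J

open Fermat.Agent.H02
open Fermat.Agent.H22 (GamH dChar mem_GamH' mem_GamH GamH_le_Gamma0 dChar_val GamH_mono GamH_top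
  conj_mem_GamH)
open Fermat.Agent.H26 (cEmb cEmb_mem_extend mem_of_cEmb_mem_extend)
open Fermat.Agent.H02G (pm mem_pm le_pm neg_mem_pm mfq)
open Fermat.Agent.H18 (jfun theta theta_injective isExp_fun_unique isExp_jfun theta_jqModC
  theta_qExpand isExp_aeval jfun_surjective ratFuncAlgebra ratFuncAlgebra_tower ratFuncAlgebra_X)
open Fermat.Agent.Igusa (IsExp scl lin coe_scl coe_lin)
open ModularCurve (coeffMap qExpand jqModC laurentBaseChange coeffEmb modularFunctionFieldFull)

variable {N : ℕ} {H : Subgroup (ZMod N)ˣ} [NeZero N]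

section Closed

variable {K : Type*} [Field K] [Algebra K ℂ] [IsAlgClosed K]

theorem diaA_mul (g g' : Gamma0 N) (x : FK K (GamH N H)) :
    diaA (g * g') x = diaA g' (diaA g x) := by
  apply (embF K N (GamH N H)).injective
  show embF K N (GamH N H) _ = embF K N (GamH N H) _
  rw [embF_diaA, embF_diaA, embF_diaA, Subgroup.coe_mul, mul_inv_rev, map_mul,
    AlgEquiv.mul_apply]

theorem diaA_of_mem (g : Gamma0 N) (hg : dChar N g ∈ H) (x : FK K (GamH N H)) :
    diaA g x = x := by
  apply (embF K N (GamH N H)).injective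
  show embF K N (GamH N H) _ = embF K N (GamH N H) _
  rw [embF_diaA]
  exact rho_embF_of_mem (inv_mem (mem_GamH.mpr ⟨g.2, hg⟩)) _

end Closed

section Gen

variable (K : Type*) [Field K] [Algebra K ℂ]

/-! ### Group structure -/

omit [NeZero N] in
theorem theta_cEmb (F : LaurentSeries K) : theta ℂ (cEmb K ℂ F) = theta K F := theta_C _

theorem dia_C (g : Gamma0 N) (x : FK ℂ (GamH N H)) : dia ℂ H g x = diaA (K := ℂ) g x := by
  apply Subtype.ext
  have h1 := cEmb_dia ℂ g x
  have h2 : ∀ y : LaurentSeries ℂ, cEmb ℂ ℂ y = y := fun y => theta_C y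
  rw [h2] at h1
  have h3 : (⟨cEmb ℂ ℂ x, cEmb_mem_FK ℂ x.2⟩ : FK ℂ (GamH N H)) = x := Subtype.ext (h2 _)
  rw [h1, h3]

theorem dia_mul (g g' : Gamma0 N) (x : FK K (GamH N H)) :
    dia K H (g * g') x = dia K H g' (dia K H g x) := by
  apply Subtype.ext
  apply cEmb_injective K (L := ℂ)
  rw [cEmb_dia, cEmb_dia]
  have h1 : (⟨cEmb K ℂ (dia K H g x), cEmb_mem_FK K (dia K H g x).2⟩ : FK ℂ (GamH N H)) =
      diaA (K := ℂ) g ⟨cEmb K ℂ x, cEmb_mem_FK K x.2⟩ := Subtype.ext (cEmb_dia K g x)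
  rw [h1, diaA_mul]

theorem dia_of_mem (g : Gamma0 N) (hg : dChar N g ∈ H) (x : FK K (GamH N H)) :
    dia K H g x = x := by
  apply Subtype.ext
  apply cEmb_injective K (L := ℂ)
  rw [cEmb_dia]
  rw [diaA_of_mem g hg]

theorem dia_congr {g g' : Gamma0 N} (h : (dChar N g)⁻¹ * dChar N g' ∈ H)
    (x : FK K (GamH N H)) : dia K H g x = dia K H g' x := by
  have h1 : g' = g * (g⁻¹ * g') := by group
  rw [h1, dia_mul, dia_of_mem K (g⁻¹ * g') (by rw [map_mul, map_inv]; exact h)]

theorem dia_comm (g g' : Gamma0 N) (x : FK K (GamH N H)) :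
    dia K H g (dia K H g' x) = dia K H g' (dia K H g x) := by
  rw [← dia_mul, ← dia_mul]
  apply dia_congr
  rw [map_mul, map_mul, mul_comm (dChar N g'), inv_mul_cancel]
  exact one_mem _

theorem dia_one (x : FK K (GamH N H)) : dia K H 1 x = x :=
  dia_of_mem K 1 (by rw [map_one]; exact one_mem H) x

/-- The diamond automorphisms. -/
def diaE (H : Subgroup (ZMod N)ˣ) (g : Gamma0 N) : FK K (GamH N H) ≃ₐ[K] FK K (GamH N H) :=
  AlgEquiv.ofAlgHom (dia K H g) (dia K H g⁻¹)
    (AlgHom.ext fun x => by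
        rw [AlgHom.comp_apply, ← dia_mul, inv_mul_cancel, dia_one]; rfl)
    (AlgHom.ext fun x => by
        rw [AlgHom.comp_apply, ← dia_mul, mul_inv_cancel, dia_one]; rfl)

@[simp] theorem diaE_apply (g : Gamma0 N) (x : FK K (GamH N H)) : diaE K H g x = dia K H g x := rfl

/-- The diamond automorphisms as a group homomorphism. -/
def diaHom (H : Subgroup (ZMod N)ˣ) : Gamma0 N →* (FK K (GamH N H) ≃ₐ[K] FK K (GamH N H)) where
  toFun := diaE K H
  map_one' := AlgEquiv.ext fun x => by rw [diaE_apply, dia_one]; rfl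
  map_mul' g g' := AlgEquiv.ext fun x => by
    rw [diaE_apply, dia_mul, dia_comm]
    rfl

theorem dia_jK (g : Gamma0 N) : dia K H g (jK K (GamH N H)) = jK K (GamH N H) := by
  have h1 : IsExp 1 jfun (theta K (jqModC K)) := by rw [theta_jqModC]; exact isExp_jfun
  exact dia_of_ringS g (jfun_mem_modAlg _) h1 (F' := jqModC K) (by rw [tr_jfun]; exact h1)

/-! ### Compatibility with homomorphisms of the coefficients -/

section Coeff

variable {K} {L : Type*} [Field L] [Algebra L ℂ]

theorem coeffMap_mem_FK (σ : K →+* L) {x : LaurentSeries K} (hx : x ∈ FK K (GamH N H)) :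
    coeffMap σ x ∈ FK L (GamH N H) := by
  rw [FK_eq_adjoin] at hx
  induction hx using IntermediateField.adjoin_induction with
  | mem x hx =>
    apply mem_FK_of_mem
    apply gens_subset
    rw [← coeffMap_gens σ]
    exact ⟨x, hx, rfl⟩
  | algebraMap c =>
    rw [H26.coeffMap_algebraMap']
    exact (FK L (GamH N H)).algebraMap_mem _
  | add x y _ _ hx hy => rw [map_add]; exact add_mem hx hy
  | mul x y _ _ hx hy => rw [map_mul]; exact mul_mem hx hy
  | inv x _ hx => rw [map_inv₀]; exact inv_mem hx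

/-- The map on function fields induced by a homomorphism of the constants. -/
def cMap (H : Subgroup (ZMod N)ˣ) (σ : K →+* L) : FK K (GamH N H) →+* FK L (GamH N H) :=
  ((coeffMap σ).comp (FK K (GamH N H)).val.toRingHom).codRestrict (FK L (GamH N H)).toSubring
    fun x => coeffMap_mem_FK σ x.2

@[simp] theorem coe_cMap (σ : K →+* L) (x : FK K (GamH N H)) :
    (cMap H σ x : LaurentSeries L) = coeffMap σ (x : LaurentSeries K) := rfl

/-- Ring homomorphisms on the function field agreeing on constants and generators are equal. -/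
theorem ringHom_ext_gens {R : Type*} [Field R] {φ ψ : FK K (GamH N H) →+* R}
    (hc : ∀ c : K, φ (algebraMap K _ c) = ψ (algebraMap K _ c))
    (hg : ∀ x (hx : x ∈ gens H K), φ ⟨x, mem_FK_of_mem (gens_subset K hx)⟩ =
      ψ ⟨x, mem_FK_of_mem (gens_subset K hx)⟩) : φ = ψ := by
  ext ⟨x, hx⟩
  have key : ∀ (x : LaurentSeries K) (_ : x ∈ IntermediateField.adjoin K (gens H K)),
      ∃ h : x ∈ FK K (GamH N H), φ ⟨x, h⟩ = ψ ⟨x, h⟩ := by
    intro x hx
    induction hx using IntermediateField.adjoin_induction with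
    | mem x hx => exact ⟨_, hg x hx⟩
    | algebraMap c => exact ⟨(FK K (GamH N H)).algebraMap_mem c, hc c⟩
    | add x y _ _ hx hy =>
      obtain ⟨h1, h2⟩ := hx
      obtain ⟨h3, h4⟩ := hy
      refine ⟨add_mem h1 h3, ?_⟩
      have h5 : (⟨x + y, add_mem h1 h3⟩ : FK K (GamH N H)) = ⟨x, h1⟩ + ⟨y, h3⟩ := rfl
      rw [h5, map_add, map_add, h2, h4]
    | mul x y _ _ hx hy =>
      obtain ⟨h1, h2⟩ := hx
      obtain ⟨h3, h4⟩ := hy
      refine ⟨mul_mem h1 h3, ?_⟩
      have h5 : (⟨x * y, mul_mem h1 h3⟩ : FK K (GamH N H)) = ⟨x, h1⟩ * ⟨y, h3⟩ := rfl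
      rw [h5, map_mul, map_mul, h2, h4]
    | inv x _ hx =>
      obtain ⟨h1, h2⟩ := hx
      refine ⟨inv_mem h1, ?_⟩
      have h5 : (⟨x⁻¹, inv_mem h1⟩ : FK K (GamH N H)) = (⟨x, h1⟩)⁻¹ := rfl
      rw [h5, map_inv₀, map_inv₀, h2]
  obtain ⟨h1, h2⟩ := key x (by rw [← FK_eq_adjoin]; exact hx)
  exact h2

theorem dia_jN (g : Gamma0 N) (h : qExpand K N (jqModC K) ∈ FK K (GamH N H)) :
    (dia K H g ⟨qExpand K N (jqModC K), h⟩ : LaurentSeries K) = qExpand K N (jqModC K) := by
  have h1 : IsExp 1 (jN N) (theta K (qExpand K N (jqModC K))) := by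
    rw [theta_qExpand, theta_jqModC]; exact H18.isExp_jN
  exact congrArg Subtype.val (dia_of_ringS g (modAlg_mono GamH_le_Gamma0
    (jN_mem_modAlg (NeZero.pos N))) h1 (F' := qExpand K N (jqModC K))
    (by rw [tr_jN_of_mem (NeZero.pos N) g.2]; exact h1))

theorem dia_j (g : Gamma0 N) (h : jqModC K ∈ FK K (GamH N H)) :
    (dia K H g ⟨jqModC K, h⟩ : LaurentSeries K) = jqModC K := by
  have h1 : IsExp 1 jfun (theta K (jqModC K)) := by rw [theta_jqModC]; exact isExp_jfun
  exact congrArg Subtype.val (dia_of_ringS g (jfun_mem_modAlg _) h1 (F' := jqModC K)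
    (by rw [tr_jfun]; exact h1))

theorem dia_nrm (g : Gamma0 N) (hN : N ≠ 1) (c : ℕ) (h : nrm H K c ∈ FK K (GamH N H)) :
    (dia K H g ⟨nrm H K c, h⟩ : LaurentSeries K) =
      nrmT H K (((g : SL(2, ℤ)) 0 0 : ℤ) : ZMod N) c := by
  have h1 : IsExp 1 (nrmFun H c) (theta K (nrm H K c)) := by
    have : theta K (nrm H K c) = nrm H ℂ c := coeffMap_nrm _ c
    rw [this]
    exact isExp_nrmFun hN c
  refine congrArg Subtype.val (dia_of_ringS g (nrmFun_mem c) h1
    (F' := nrmT H K (((g : SL(2, ℤ)) 0 0 : ℤ) : ZMod N) c) ?_)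
  have : theta K (nrmT H K (((g : SL(2, ℤ)) 0 0 : ℤ) : ZMod N) c) =
      nrmT H ℂ (((g : SL(2, ℤ)) 0 0 : ℤ) : ZMod N) c := coeffMap_nrmT _ _ c
  rw [this, tr_nrmFun_eq g.2]
  exact isExp_nrmFunT hN (isUnit_zero_zero g.2) c

/-- **Diamonds commute with homomorphisms of the constants**, in particular with the Galois action
on the coefficients. -/
theorem cMap_dia (σ : K →+* L) (g : Gamma0 N) (x : FK K (GamH N H)) :
    cMap H σ (dia K H g x) = dia L H g (cMap H σ x) := by
  apply Subtype.ext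
  have h1 : ((FK L (GamH N H)).val.toRingHom.comp ((cMap H σ).comp (dia K H g).toRingHom)) =
      ((FK L (GamH N H)).val.toRingHom.comp ((dia L H g).toRingHom.comp (cMap H σ))) := by
    apply ringHom_ext_gens
    · intro c
      show coeffMap σ (dia K H g (algebraMap K _ c) : LaurentSeries K) =
        (dia L H g (cMap H σ (algebraMap K _ c)) : LaurentSeries L)
      have h2 : cMap H σ (algebraMap K _ c) = algebraMap L _ (σ c) :=
        Subtype.ext (H26.coeffMap_algebraMap' σ c)
      rw [h2, AlgHom.commutes, AlgHom.commutes]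
      exact H26.coeffMap_algebraMap' σ c
    · rintro x ((rfl | rfl) | ⟨hN, c, rfl⟩)
      · show coeffMap σ (dia K H g ⟨jqModC K, _⟩ : LaurentSeries K) =
          (dia L H g (cMap H σ ⟨jqModC K, _⟩) : LaurentSeries L)
        have h2 : cMap H σ ⟨jqModC K, mem_FK_of_mem jq_mem_ringS⟩ =
            (⟨jqModC L, mem_FK_of_mem jq_mem_ringS⟩ : FK L (GamH N H)) :=
          Subtype.ext (ModularCurve.coeffMap_jqModC σ)
        rw [h2, dia_j, dia_j, ModularCurve.coeffMap_jqModC]
      · show coeffMap σ (dia K H g ⟨qExpand K N (jqModC K), _⟩ : LaurentSeries K) =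
          (dia L H g (cMap H σ ⟨qExpand K N (jqModC K), _⟩) : LaurentSeries L)
        have h3 : coeffMap σ (qExpand K N (jqModC K)) = qExpand L N (jqModC L) := by
          rw [ModularCurve.coeffMap_qExpand, ModularCurve.coeffMap_jqModC]
        have h2 : cMap H σ ⟨qExpand K N (jqModC K),
              mem_FK_of_mem (jqd_mem_ringS GamH_le_Gamma0)⟩ =
            (⟨qExpand L N (jqModC L), mem_FK_of_mem (jqd_mem_ringS GamH_le_Gamma0)⟩ :
              FK L (GamH N H)) := Subtype.ext h3
        rw [h2, dia_jN, dia_jN, h3]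
      · show coeffMap σ (dia K H g ⟨nrm H K c, _⟩ : LaurentSeries K) =
          (dia L H g (cMap H σ ⟨nrm H K c, _⟩) : LaurentSeries L)
        have h2 : cMap H σ ⟨nrm H K c, mem_FK_of_mem (nrm_mem_ringS K hN c)⟩ =
            (⟨nrm H L c, mem_FK_of_mem (nrm_mem_ringS L hN c)⟩ : FK L (GamH N H)) :=
          Subtype.ext (coeffMap_nrm σ c)
        rw [h2, dia_nrm g hN, dia_nrm g hN, coeffMap_nrmT]
  exact RingHom.congr_fun h1 x

end Coeff

end Gen

end Fermat.Agent.H18J
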