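import Fermat.Agent.H18J.Diam2

set_option autoImplicit false
set_option linter.unusedSectionVars false

/-!
# Diamond operators: change of level, fixed fields

-/

noncomputable section

open UpperHalfPlane hiding I
open ModularForm EisensteinSeries Filter Complex Topology Function CongruenceSubgroup
open scoped MatrixGroups Manifold Real Polynomial IntermediateField

namespace Fermat.Agent.H18J

open Fermat.Agent.H02
open Fermat.Agent.H22 (GamH dChar mem_GamH' mem_GamH GamH_le_Gamma0 dChar_val GamH_mono GamH_top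
  conj_mem_GamH degSL)
open Fermat.Agent.H26 (cEmb cEmb_mem_extend mem_of_cEmb_mem_extend)
open Fermat.Agent.H02G (pm mem_pm le_pm neg_mem_pm mfq)
open Fermat.Agent.H18 (jfun theta theta_injective isExp_fun_unique isExp_jfun theta_jqModC
  theta_qExpand isExp_aeval jfun_surjective ratFuncAlgebra ratFuncAlgebra_tower ratFuncAlgebra_X)
open Fermat.Agent.Igusa (IsExp scl lin coe_scl coe_lin)
open ModularCurve (coeffMap qExpand jqModC laurentBaseChange coeffEmb modularFunctionFieldFull)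

variable {N : ℕ} {H : Subgroup (ZMod N)ˣ} [NeZero N]

/-- Every slow growth function for `Γ_H(N)` has an expansion over `ℂ`. -/
theorem exists_exp_C {f : ℍ → ℂ} (hf : f ∈ modAlg (GamH N H)) :
    ∃ F : LaurentSeries ℂ, IsExp 1 f (theta ℂ F) :=
  ⟨qLauFun f, by rw [theta_C]; exact isExp_qLauFun hf⟩

/-- Over `ℂ` the action of `g` is given by `(f₁/f₂) ↦ (f₁∘g)/(f₂∘g)`. -/
theorem exists_rep_dia_C (g : Gamma0 N) (x : FK ℂ (GamH N H)) :
    ∃ (a b : ℍ → ℂ) (_ : a ∈ modAlg (GamH N H)) (_ : b ∈ modAlg (GamH N H))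
      (A B A' B' : LaurentSeries ℂ), IsExp 1 a A ∧ IsExp 1 b B ∧
      IsExp 1 (tr (g : SL(2, ℤ)) a) A' ∧ IsExp 1 (tr (g : SL(2, ℤ)) b) B' ∧
      (x : LaurentSeries ℂ) = A / B ∧ (dia ℂ H g x : LaurentSeries ℂ) = A' / B' := by
  obtain ⟨x, hx⟩ := x
  obtain ⟨F, ⟨a, ha, hF⟩, G, ⟨b, hb, hG⟩, rfl⟩ := mem_FK_iff.mp hx
  obtain ⟨F', hF'⟩ := exists_exp_C (tr_mem_modAlg_GamH g ha)
  obtain ⟨G', hG'⟩ := exists_exp_C (tr_mem_modAlg_GamH g hb)
  have h1 : (⟨F / G, hx⟩ : FK ℂ (GamH N H)) = (⟨F, mem_FK_of_mem ⟨a, ha, hF⟩⟩ :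
      FK ℂ (GamH N H)) / ⟨G, mem_FK_of_mem ⟨b, hb, hG⟩⟩ := rfl
  refine ⟨a, b, ha, hb, F, G, F', G', ?_, ?_, ?_, ?_, rfl, ?_⟩
  · rwa [theta_C] at hF
  · rwa [theta_C] at hG
  · rwa [theta_C] at hF'
  · rwa [theta_C] at hG'
  · rw [h1, map_div₀, dia_of_ringS g ha hF hF', dia_of_ringS g hb hG hG']
    rfl

/-- Uniqueness: the value of `dia` over `ℂ` can be computed with any representation. -/
theorem dia_C_eq (g : Gamma0 N) {x : FK ℂ (GamH N H)} {a b : ℍ → ℂ}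
    (ha : a ∈ modAlg (GamH N H)) (hb : b ∈ modAlg (GamH N H)) {A B A' B' : LaurentSeries ℂ}
    (hA : IsExp 1 a A) (hB : IsExp 1 b B) (hA' : IsExp 1 (tr (g : SL(2, ℤ)) a) A')
    (hB' : IsExp 1 (tr (g : SL(2, ℤ)) b) B') (hx : (x : LaurentSeries ℂ) = A / B) :
    (dia ℂ H g x : LaurentSeries ℂ) = A' / B' := by
  have hA0 := hA
  have hB0 := hB
  have hA0' := hA'
  have hB0' := hB'
  rw [← theta_C A] at hA0
  rw [← theta_C B] at hB0
  rw [← theta_C A'] at hA0'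
  rw [← theta_C B'] at hB0'
  have h1 : x = (⟨A, mem_FK_of_mem ⟨a, ha, hA0⟩⟩ :
      FK ℂ (GamH N H)) / ⟨B, mem_FK_of_mem ⟨b, hb, hB0⟩⟩ := Subtype.ext hx
  rw [h1, map_div₀, dia_of_ringS g ha hA0 hA0', dia_of_ringS g hb hB0 hB0']
  rfl

section Level

variable (K : Type*) [Field K] [Algebra K ℂ] {M : ℕ} [NeZero M] {H' : Subgroup (ZMod M)ˣ}

theorem cEmb_dia' (g : Gamma0 N) (x : FK K (GamH N H)) :
    cEmb K ℂ (dia K H g x) = dia ℂ H g ⟨cEmb K ℂ x, cEmb_mem_FK K x.2⟩ := by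
  rw [cEmb_dia, dia_C]

/-- Diamonds and change of level. -/
theorem dia_incF (h : GamH M H' ≤ GamH N H) (g : Gamma0 M) (g' : Gamma0 N)
    (hg : (g : SL(2, ℤ)) = g') (x : FK K (GamH N H)) :
    incF K h (dia K H g' x) = dia K H' g (incF K h x) := by
  apply Subtype.ext
  apply cEmb_injective K (L := ℂ)
  rw [coe_incF, cEmb_dia', cEmb_dia']
  obtain ⟨a, b, ha, hb, A, B, A', B', hA, hB, hA', hB', h1, h2⟩ :=
    exists_rep_dia_C g' (⟨cEmb K ℂ x, cEmb_mem_FK K x.2⟩ : FK ℂ (GamH N H))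
  rw [h2]
  rw [← hg] at hA' hB'
  have h3 : cEmb K ℂ (x : LaurentSeries K) = A / B := h1
  have h4 : cEmb K ℂ (incF K h x : LaurentSeries K) = A / B := by rw [coe_incF, h3]
  have h5 : ((⟨cEmb K ℂ (incF K h x), cEmb_mem_FK K (incF K h x).2⟩ : FK ℂ (GamH M H')) :
    LaurentSeries ℂ) = A / B := h4
  exact (dia_C_eq g (modAlg_mono h ha) (modAlg_mono h hb) hA hB hA' hB' h5).symm

omit [NeZero N] [NeZero M] in
theorem cEmb_qExpand {ℓ : ℕ} [NeZero ℓ] (x : LaurentSeries K) :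
    cEmb K ℂ (qExpand K ℓ x) = qExpand ℂ ℓ (cEmb K ℂ x) :=
  ModularCurve.coeffMap_qExpand _ _ _

/-- Diamonds and `q ↦ q^ℓ`. -/
theorem dia_qeF {ℓ : ℕ} [NeZero ℓ] (h : ScaleLe ℓ (GamH N H) (GamH M H')) (g : Gamma0 M)
    (hd : (ℓ : ℤ) ∣ (g : SL(2, ℤ)) 1 0) (g' : Gamma0 N) (hg : degSL ℓ (g : SL(2, ℤ)) hd = g')
    (x : FK K (GamH N H)) :
    qeF K ℓ h (dia K H g' x) = dia K H' g (qeF K ℓ h x) := by
  apply Subtype.ext
  apply cEmb_injective K (L := ℂ)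
  rw [coe_qeF, cEmb_dia', cEmb_qExpand, cEmb_dia']
  obtain ⟨a, b, ha, hb, A, B, A', B', hA, hB, hA', hB', h1, h2⟩ :=
    exists_rep_dia_C g' (⟨cEmb K ℂ x, cEmb_mem_FK K x.2⟩ : FK ℂ (GamH N H))
  rw [h2, map_div₀]
  have hcomp : ∀ f : ℍ → ℂ, tr (g : SL(2, ℤ)) (fun z => f (scl ℓ z)) =
      fun z => tr (g' : SL(2, ℤ)) f (scl ℓ z) := by
    intro f
    ext z
    rw [tr_apply, scl_smul _ hd, hg, tr_apply]
  refine (dia_C_eq g (comp_scl_mem h ha) (comp_scl_mem h hb) (hA.comp_scl ℓ) (hB.comp_scl ℓ)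
    ?_ ?_ ?_).symm
  · rw [hcomp]; exact hA'.comp_scl ℓ
  · rw [hcomp]; exact hB'.comp_scl ℓ
  · show cEmb K ℂ (qExpand K ℓ (x : LaurentSeries K)) = _
    rw [cEmb_qExpand]
    change cEmb K ℂ (x : LaurentSeries K) = A / B at h1
    rw [h1, map_div₀]

/-! ### Fixed fields -/

/-- **The function field of `Γ_H(N)` is the fixed field of `H` on that of `Γ_{H'}(N)`.** -/
theorem mem_FK_of_dia_eq {H' : Subgroup (ZMod N)ˣ} (x : FK K (GamH N H')) (hx : ∀ g : Gamma0 N, dChar N g ∈ H → dia K H' g x = x) :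
    (x : LaurentSeries K) ∈ FK K (GamH N H) := by
  apply mem_of_cEmb_mem_extend (L := ℂ)
  rw [extend_FK]
  set y : FK ℂ (GamH N H') := ⟨cEmb K ℂ x, cEmb_mem_FK K x.2⟩ with hy
  obtain ⟨z, hz⟩ := exists_embF_eq (K := ℂ) (N := N) (Γ := GamH N H) (embF ℂ N (GamH N H') y)
    (fun γ hγ => by
      obtain ⟨h0, h1⟩ := mem_GamH.mp hγ
      have h2 := hx ⟨γ, h0⟩⁻¹ (by rw [map_inv]; exact inv_mem h1)
      have h3 : diaA (K := ℂ) ⟨γ, h0⟩⁻¹ y = y := by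
        apply Subtype.ext
        rw [hy, ← cEmb_dia, h2]
      have h4 := embF_diaA (K := ℂ) (H := H') ⟨γ, h0⟩⁻¹ y
      rw [h3] at h4
      have h5 : (((⟨γ, h0⟩⁻¹ : Gamma0 N) : SL(2, ℤ)))⁻¹ = γ := inv_inv γ
      rw [h5] at h4
      exact h4.symm)
  have h1 := expM_embF (K := ℂ) (N := N) z
  rw [hz, expM_embF] at h1
  have h2 := ModularCurve.qExpand_injective N h1
  show cEmb K ℂ (x : LaurentSeries K) ∈ _
  have h3 : (y : LaurentSeries ℂ) = cEmb K ℂ x := rfl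
  rw [← h3, h2]
  exact z.2

end Level

end Fermat.Agent.H18J
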