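import Fermat.Agent.H02_EisChar

set_option autoImplicit false

/-!
# Eisenstein series of weight 12 on `Γ₁(N)` with rational `q`-expansion

`Gm N m = ∑_{(c,d), c ≡ m mod N} (c τ + d)^{-12}`.
-/

noncomputable section

open UpperHalfPlane Filter Function Complex Manifold CongruenceSubgroup EisensteinSeries
  ModularForm Matrix Topology
open scoped MatrixGroups Real Nat

namespace Fermat.Agent.H18J

open Fermat.Agent.H02

/-- indicator of a residue class -/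
def ind1 (N : ℕ) (m : ZMod N) (x : ℤ) : ℤ := if (x : ZMod N) = m then 1 else 0

/-- the coefficient function -/
def ind (N : ℕ) (m : ZMod N) (v : Fin 2 → ℤ) : ℂ := ((ind1 N m (v 0) : ℤ) : ℂ)

theorem ind1_abs_le (N : ℕ) (m : ZMod N) (x : ℤ) : |ind1 N m x| ≤ 1 := by
  rw [ind1]; split_ifs <;> simp

theorem norm_ind_le (N : ℕ) (m : ZMod N) (v : Fin 2 → ℤ) : ‖ind N m v‖ ≤ 1 := by
  rw [ind, Complex.norm_intCast]
  exact_mod_cast ind1_abs_le N m (v 0)

/-- `∑_{(c,d), c ≡ m mod N} (c τ + d)^{-12}` -/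
def Gm (N : ℕ) (m : ZMod N) : ℍ → ℂ := Fa 12 (ind N m)

/-- the normalising constant -/
def C12 : ℂ := (-2 * π * Complex.I) ^ 12 / (11 ! : ℕ)

theorem C12_ne_zero : C12 ≠ 0 := by
  rw [C12]
  refine div_ne_zero (pow_ne_zero _ ?_) (by exact_mod_cast Nat.factorial_ne_zero 11)
  simp [Real.pi_ne_zero, Complex.I_ne_zero]

/-- weights -/
def wt (N : ℕ) (m : ZMod N) (x : ℤ) : ℤ := ind1 N m x + ind1 N m (-x)

/-- the coefficients -/
def gcoef (N : ℕ) (m : ZMod N) (r : ℕ) : ℤ :=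
  ∑ d ∈ r.divisorsAntidiagonal, wt N m d.1 * (d.2 : ℤ) ^ 11

theorem gcoef_zero (N : ℕ) (m : ZMod N) : gcoef N m 0 = 0 := by simp [gcoef]

theorem wt_abs_le (N : ℕ) (m : ZMod N) (x : ℤ) : |wt N m x| ≤ 2 := by
  rw [wt]
  exact (abs_add_le _ _).trans (by have := ind1_abs_le N m x; have := ind1_abs_le N m (-x); omega)

section

variable {N : ℕ} {m : ZMod N}

/-- the row sums -/
def Srow (τ : ℍ) (x : ℤ) : ℂ := ∑' y : ℤ, eisSummand 12 ![x, y] τ

theorem Srow_neg (τ : ℍ) (x : ℤ) : Srow τ (-x) = Srow τ x := by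
  rw [Srow, Srow, ← tsum_comp_neg]
  refine tsum_congr fun y => ?_
  simp only [eisSummand, Matrix.cons_val_zero, Matrix.cons_val_one]
  rw [show ((-x : ℤ) : ℂ) * τ + ((-y : ℤ) : ℂ) = -((x : ℂ) * τ + y) by push_cast; ring]
  exact Even.neg_zpow (by decide) _

theorem Srow_pnat (τ : ℍ) (n : ℕ+) :
    Srow τ n = C12 * ∑' k : ℕ+, (k : ℂ) ^ 11 * cexp (2 * π * Complex.I * τ) ^ (n * k : ℕ) := by
  have H := EisensteinSeries.qExpansion_identity_pnat (k := 11) (by norm_num)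
    ⟨n * τ, by simpa using τ.2⟩
  rw [Srow, C12]
  convert! H using 1
  · refine tsum_congr fun y => ?_
    simp only [eisSummand, Matrix.cons_val_zero, Matrix.cons_val_one]
    rw [_root_.zpow_neg, one_div]
    rfl
  · congr 1
    refine tsum_congr fun k => ?_
    rw [pow_mul, ← Complex.exp_nat_mul _ (n : ℕ)]
    congr 3
    ring

theorem summable_prod (τ : ℍ) :
    Summable fun x : ℤ × ℤ => ((ind1 N m x.1 : ℤ) : ℂ) * eisSummand 12 ![x.1, x.2] τ := by
  refine Summable.of_norm_bounded (g := fun x : ℤ × ℤ => ‖eisSummand 12 ![x.1, x.2] τ‖) ?_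
    fun x => ?_
  · exact (summable_prod_eisSummand (k := 12) (by norm_num) τ).norm
  · rw [norm_mul, Complex.norm_intCast]
    have := ind1_abs_le N m x.1
    have h : (|((ind1 N m x.1 : ℤ) : ℝ)|) ≤ 1 := by exact_mod_cast this
    exact mul_le_of_le_one_left (norm_nonneg _) h

theorem row_mul (τ : ℍ) (x : ℤ) :
    ∑' y : ℤ, ((ind1 N m x : ℤ) : ℂ) * eisSummand 12 ![x, y] τ =
      ((ind1 N m x : ℤ) : ℂ) * Srow τ x := by
  rw [Srow]
  exact _root_.tsum_mul_left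

theorem Gm_eq_tsum (τ : ℍ) : Gm N m τ = ∑' x : ℤ, ((ind1 N m x : ℤ) : ℂ) * Srow τ x := by
  rw [Gm, Fa, ← (finTwoArrowEquiv ℤ).symm.tsum_eq]
  have h1 := (summable_prod (N := N) (m := m) τ).tsum_prod
  refine Eq.trans ?_ (h1.trans (tsum_congr fun x => ?_))
  · refine tsum_congr fun x => ?_
    simp only [finTwoArrowEquiv_symm_apply, ind, Matrix.cons_val_zero]
  · exact row_mul τ x

theorem summable_row (τ : ℍ) : Summable fun x : ℤ => ((ind1 N m x : ℤ) : ℂ) * Srow τ x := by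
  have h1 := (summable_prod (N := N) (m := m) τ).prod
  exact h1.congr fun x => row_mul τ x

theorem ind1_zero (hm : m ≠ 0) : ind1 N m 0 = 0 := by
  rw [ind1, Int.cast_zero, if_neg (Ne.symm hm)]

theorem Gm_eq_tsum_pnat (hm : m ≠ 0) (τ : ℍ) :
    Gm N m τ = ∑' n : ℕ+, ((wt N m n : ℤ) : ℂ) * Srow τ n := by
  rw [Gm_eq_tsum, tsum_int_eq_zero_add_tsum_pnat (summable_row τ), ind1_zero hm, Int.cast_zero,
    zero_mul, zero_add, ← Summable.tsum_add]
  · refine tsum_congr fun n => ?_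
    rw [Srow_neg, ← add_mul, wt, Int.cast_add]
  · exact ((summable_int_iff_summable_nat_and_neg.mp (summable_row τ)).1).comp_injective
      PNat.coe_injective
  · exact ((summable_int_iff_summable_nat_and_neg.mp (summable_row τ)).2).comp_injective
      PNat.coe_injective

theorem norm_exp_lt_one (τ : ℍ) : ‖cexp (2 * π * Complex.I * τ)‖ < 1 :=
  norm_exp_two_pi_I_lt_one τ

theorem summable_double (τ : ℍ) : Summable fun c : ℕ+ × ℕ+ =>
    ((wt N m c.1 : ℤ) : ℂ) * ((c.2 : ℂ) ^ 11 * cexp (2 * π * Complex.I * τ) ^ (c.1 * c.2 : ℕ)) := by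
  refine Summable.of_norm_bounded (g := fun c : ℕ+ × ℕ+ =>
    2 * ‖(c.2 : ℂ) ^ 11 * cexp (2 * π * Complex.I * τ) ^ (c.1 * c.2 : ℕ)‖) ?_ fun c => ?_
  · exact (summable_prod_mul_pow 11 (norm_exp_lt_one τ)).norm.mul_left 2
  · rw [norm_mul, Complex.norm_intCast]
    have := wt_abs_le N m c.1
    have h : (|((wt N m c.1 : ℤ) : ℝ)|) ≤ 2 := by exact_mod_cast this
    exact mul_le_mul_of_nonneg_right h (norm_nonneg _)

theorem Gm_eq_double (hm : m ≠ 0) (τ : ℍ) :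
    Gm N m τ = C12 * ∑' c : ℕ+ × ℕ+, ((wt N m c.1 : ℤ) : ℂ) *
      ((c.2 : ℂ) ^ 11 * cexp (2 * π * Complex.I * τ) ^ (c.1 * c.2 : ℕ)) := by
  rw [Gm_eq_tsum_pnat hm, (summable_double τ).tsum_prod, ← tsum_mul_left]
  refine tsum_congr fun n => ?_
  rw [Srow_pnat, mul_left_comm]
  congr 1
  exact tsum_mul_left.symm

theorem hasSum_double (τ : ℍ) : HasSum (fun r : ℕ =>
    ((gcoef N m r : ℤ) : ℂ) * cexp (2 * π * Complex.I * τ) ^ r)
    (∑' c : ℕ+ × ℕ+, ((wt N m c.1 : ℤ) : ℂ) *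
      ((c.2 : ℂ) ^ 11 * cexp (2 * π * Complex.I * τ) ^ (c.1 * c.2 : ℕ))) := by
  have h1 := (summable_double (N := N) (m := m) τ).hasSum
  rw [← sigmaAntidiagonalEquivProd.hasSum_iff] at h1
  have h2 := h1.sigma (g := fun r : ℕ+ => ((gcoef N m r : ℤ) : ℂ) *
    cexp (2 * π * Complex.I * τ) ^ (r : ℕ)) fun r => ?_
  · rwa [← Function.Injective.hasSum_iff PNat.coe_injective]
    intro r hr
    have : r = 0 := by
      by_contra h0
      exact hr ⟨⟨r, Nat.pos_of_ne_zero h0⟩, rfl⟩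
    rw [this, gcoef_zero, Int.cast_zero, zero_mul]
  · have h3 := hasSum_fintype (fun c : (r : ℕ).divisorsAntidiagonal =>
      (fun c : ℕ+ × ℕ+ => ((wt N m c.1 : ℤ) : ℂ) *
        ((c.2 : ℂ) ^ 11 * cexp (2 * π * Complex.I * τ) ^ (c.1 * c.2 : ℕ)))
          (sigmaAntidiagonalEquivProd ⟨r, c⟩))
    convert! h3 using 1
    rw [gcoef, Int.cast_sum, Finset.sum_mul, ← Finset.sum_attach]
    refine Finset.sum_congr rfl fun c _ => ?_
    have h4 : (c.1.1 * c.1.2 : ℕ) = r := (Nat.mem_divisorsAntidiagonal.mp c.2).1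
    simp only [sigmaAntidiagonalEquivProd, divisorsAntidiagonalFactors, Equiv.coe_fn_mk,
      PNat.mk_coe]
    rw [h4]
    push_cast
    ring

/-- The `q`-expansion of `Gm N m`. -/
theorem hasSum_Gm (hm : m ≠ 0) (τ : ℍ) : HasSum (fun r : ℕ =>
    ((gcoef N m r : ℤ) : ℂ) * cexp (2 * π * Complex.I * τ) ^ r) (C12⁻¹ * Gm N m τ) := by
  rw [Gm_eq_double hm, inv_mul_cancel_left₀ C12_ne_zero]
  exact hasSum_double τ

end

end Fermat.Agent.H18J
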