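import Fermat.Agent.H18J.Eis
import Fermat.Agent.H02_ModAlg
import Fermat.Agent.Igusa.Orders

set_option autoImplicit false

/-!
# The functions `h_m` on `X₁(N)` with integral `q`-expansion
-/

noncomputable section

open UpperHalfPlane hiding I
open ModularForm EisensteinSeries Filter Complex Topology Function CongruenceSubgroup Matrix
open scoped MatrixGroups Manifold Real

namespace Fermat.Agent.H18J

open Fermat.Agent.H02
open Fermat.Agent.Igusa (IsExp dS dSinv isExp_dl_inv isExp_ofPowerSeries dl)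
open ModularCurve (coeffMap)

variable {N : ℕ} {m : ZMod N}

theorem vecMul_inv_zero (δ : SL(2, ℤ)) (v : Fin 2 → ℤ) :
    (v ᵥ* ((δ⁻¹ : SL(2, ℤ)) : Matrix (Fin 2) (Fin 2) ℤ)) 0 = v 0 * δ 1 1 - v 1 * δ 1 0 := by
  rw [Matrix.SpecialLinearGroup.coe_inv, Matrix.adjugate_fin_two]
  simp [Matrix.vecMul, dotProduct, Fin.sum_univ_two]
  ring

theorem ind_slash {δ : SL(2, ℤ)} (hδ : δ ∈ Gamma0 N) (v : Fin 2 → ℤ) :
    ind N m (v ᵥ* ((δ⁻¹ : SL(2, ℤ)) : Matrix (Fin 2) (Fin 2) ℤ)) =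
      ind N (m * ((δ 0 0 : ℤ) : ZMod N)) v := by
  rw [Gamma0_mem] at hδ
  have hdet : ((δ 0 0 : ℤ) : ZMod N) * ((δ 1 1 : ℤ) : ZMod N) = 1 := by
    have := δ.det_coe
    rw [Matrix.det_fin_two] at this
    have h := congrArg (fun x : ℤ => (x : ZMod N)) this
    push_cast at h
    rw [hδ, mul_zero, sub_zero] at h
    exact h
  rw [ind, ind, vecMul_inv_zero, ind1, ind1]
  push_cast
  rw [hδ, mul_zero, sub_zero]
  congr 1
  apply propext
  constructor
  · intro h
    rw [← h, mul_assoc, mul_comm ((δ 1 1 : ℤ) : ZMod N), hdet, mul_one]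
  · intro h
    rw [h, mul_assoc, hdet, mul_one]

theorem Gm_slash {δ : SL(2, ℤ)} (hδ : δ ∈ Gamma0 N) (m : ZMod N) :
    Gm N m ∣[(12 : ℤ)] δ = Gm N (m * ((δ 0 0 : ℤ) : ZMod N)) := by
  rw [Gm, Fa_slash]
  congr 1
  funext v
  exact ind_slash hδ v

/-- The function `C12⁻¹ * Gm N m / Δ`. -/
def hfun (N : ℕ) (m : ZMod N) : ℍ → ℂ := fun τ => C12⁻¹ * Gm N m τ * (dl τ)⁻¹

theorem mdiff_Gm (m : ZMod N) : MDiff (Gm N m) := mdiff_Fa (by norm_num) (norm_ind_le N m)

theorem mdiff_hfun (m : ZMod N) : MDiff (hfun N m) :=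
  (mdifferentiable_const.mul (mdiff_Gm m)).mul Igusa.mdiff_dl_inv

theorem tr_hfun_mul (δ : SL(2, ℤ)) (m : ZMod N) :
    tr δ (hfun N m) = fun τ => C12⁻¹ * (Gm N m ∣[(12 : ℤ)] δ) τ * (dl τ)⁻¹ := by
  ext τ
  rw [tr_apply, hfun, SL_slash_apply, Igusa.dl_smul]
  have h1 := denom_ne_zero δ τ
  rw [_root_.mul_inv, _root_.zpow_neg]
  have h2 : (denom δ τ ^ (12 : ℤ)) = denom δ τ ^ 12 := by norm_cast
  rw [h2]
  ring

theorem tr_hfun {δ : SL(2, ℤ)} (hδ : δ ∈ Gamma0 N) (m : ZMod N) :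
    tr δ (hfun N m) = hfun N (m * ((δ 0 0 : ℤ) : ZMod N)) := by
  rw [tr_hfun_mul, Gm_slash hδ]
  rfl

theorem Gm_slash_periodic (m : ZMod N) (δ : SL(2, ℤ)) (z : ℍ) :
    (Gm N m ∣[(12 : ℤ)] δ) ((ModularGroup.T ^ (N : ℤ) : SL(2, ℤ)) • z) =
      (Gm N m ∣[(12 : ℤ)] δ) z := by
  rw [← slash_T_zpow 12 (Gm N m ∣[(12 : ℤ)] δ), ← SlashAction.slash_mul]
  have h1 : δ * ModularGroup.T ^ (N : ℤ) = (δ * ModularGroup.T ^ (N : ℤ) * δ⁻¹) * δ := by group
  have h2 : (ModularGroup.T ^ (N : ℤ)) ∈ CongruenceSubgroup.Gamma N := by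
    simpa using ModularGroup_T_pow_mem_Gamma (N : ℤ) (N : ℤ) dvd_rfl
  have h3 : δ * ModularGroup.T ^ (N : ℤ) * δ⁻¹ ∈ CongruenceSubgroup.Gamma N :=
    (Gamma_normal N).conj_mem _ h2 δ
  rw [Gamma_mem] at h3
  rw [h1, SlashAction.slash_mul, Gm_slash (conj_T_mem_Gamma0 δ), h3.1, mul_one]

theorem isBounded_Gm_slash [NeZero N] (m : ZMod N) (δ : SL(2, ℤ)) :
    IsBoundedAtImInfty (Gm N m ∣[(12 : ℤ)] δ) := by
  have h := Gm_slash_periodic m δ
  rw [Gm, Fa_slash] at h ⊢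
  exact isBoundedAtImInfty_Fa (by norm_num) (fun v => norm_ind_le N m _) (NeZero.pos N) h

theorem isSlow_hfun [NeZero N] (m : ZMod N) : IsSlow (hfun N m) :=
  ⟨mdiff_hfun m, fun δ => ⟨1, by
    have h1 : tr δ (hfun N m) * ModularForm.discriminant ^ 1 =
        (fun _ => C12⁻¹) * (Gm N m ∣[(12 : ℤ)] δ) := by
      rw [tr_hfun_mul]
      ext τ
      have := Igusa.dl_ne_zero τ
      simp only [Pi.mul_apply, pow_one]
      show _ * dl τ = _
      field_simp
    rw [h1]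
    exact (Filter.const_boundedAtFilter _ _).mul (isBounded_Gm_slash m δ)⟩⟩

/-! ### Expansions -/

/-- The Laurent series of `h_m` over any ring. -/
def hS (R : Type*) [CommRing R] (N : ℕ) (m : ZMod N) : LaurentSeries R :=
  HahnSeries.ofPowerSeries ℤ R ((PowerSeries.mk (gcoef N m)).map (Int.castRingHom R)) * dSinv R

theorem coeffMap_dSinv {R S : Type*} [CommRing R] [CommRing S] (f : R →+* S) :
    coeffMap f (dSinv R) = dSinv S := by
  rw [dSinv, map_mul, ModularCurve.coeffMap_single, map_one, ModularCurve.coeffMap_ofPowerSeries,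
    dSinv]
  congr 2
  ext n
  simp

theorem coeffMap_hS {R S : Type*} [CommRing R] [CommRing S] (f : R →+* S) (m : ZMod N) :
    coeffMap f (hS R N m) = hS S N m := by
  rw [hS, map_mul, coeffMap_dSinv, ModularCurve.coeffMap_ofPowerSeries, hS]
  congr 2
  ext n
  simp

theorem isExp_hfun (hm : m ≠ 0) : IsExp 1 (hfun N m) (hS ℂ N m) := by
  refine IsExp.mul (isExp_ofPowerSeries fun τ => ?_) isExp_dl_inv
  have h := hasSum_Gm hm τ
  convert! h using 2 with r
  rw [PowerSeries.coeff_map, PowerSeries.coeff_mk, Function.Periodic.qParam]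
  simp only [eq_intCast, Nat.cast_one, ofReal_one, div_one]

/-! ### The leading term -/

theorem wt_ne_zero {x : ℤ} (h : wt N m x ≠ 0) : (x : ZMod N) = m ∨ (x : ZMod N) = -m := by
  by_contra hc
  push Not at hc
  apply h
  rw [wt, ind1, ind1, if_neg hc.1, if_neg, add_zero]
  push_cast
  intro h2
  exact hc.2 (by rw [← h2, neg_neg])

theorem wt_eq_zero_of_lt {r : ℕ} (hr : r < m.valMinAbs.natAbs) [NeZero N] :
    wt N m r = 0 := by
  by_contra h
  rcases wt_ne_zero h with h | h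
  · have := ZMod.natAbs_min_of_le_div_two N m.valMinAbs r (by
      rw [ZMod.coe_valMinAbs, h]) (ZMod.natAbs_valMinAbs_le m)
    simp at this
    omega
  · have := ZMod.natAbs_min_of_le_div_two N m.valMinAbs (-r) (by
      rw [ZMod.coe_valMinAbs]; push_cast at h ⊢; rw [h, neg_neg]) (ZMod.natAbs_valMinAbs_le m)
    simp at this
    omega

theorem gcoef_eq_zero_of_lt {r : ℕ} (hr : r < m.valMinAbs.natAbs) [NeZero N] :
    gcoef N m r = 0 := by
  rw [gcoef]
  refine Finset.sum_eq_zero fun d hd => ?_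
  rw [Nat.mem_divisorsAntidiagonal] at hd
  have h1 : 0 < d.1 := Nat.pos_of_ne_zero fun h => hd.2 (by rw [← hd.1, h, zero_mul])
  have h2 : d.1 ≤ r := Nat.le_of_dvd (Nat.pos_of_ne_zero hd.2) ⟨d.2, hd.1.symm⟩
  rw [wt_eq_zero_of_lt (lt_of_le_of_lt h2 hr), zero_mul]

theorem gcoef_lead (hm : m ≠ 0) [NeZero N] :
    gcoef N m m.valMinAbs.natAbs = wt N m m.valMinAbs.natAbs := by
  set r := m.valMinAbs.natAbs with hr
  have hr0 : 0 < r := by
    rw [hr, Int.natAbs_pos]
    intro h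
    apply hm
    rw [← ZMod.coe_valMinAbs m, h, Int.cast_zero]
  rw [gcoef, Finset.sum_eq_single (r, 1)]
  · simp
  · rintro ⟨a, b⟩ hd hne
    rw [Nat.mem_divisorsAntidiagonal] at hd
    obtain ⟨hd, hd'⟩ := hd
    simp only at hd
    have h1 : 0 < a := Nat.pos_of_ne_zero fun h => hd' (by rw [← hd, h, zero_mul])
    have h2 : a ≤ r := Nat.le_of_dvd hr0 ⟨b, hd.symm⟩
    have h3 : a ≠ r := by
      rintro rfl
      apply hne
      have : b = 1 := by
        have := Nat.eq_of_mul_eq_mul_left h1 (hd.trans (mul_one _).symm)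
        exact this
      rw [this]
    rw [wt_eq_zero_of_lt (lt_of_le_of_ne h2 h3), zero_mul]
  · intro h
    exact absurd (Nat.mem_divisorsAntidiagonal.mpr ⟨mul_one r, hr0.ne'⟩) h

theorem wt_lead (hm : m ≠ -m) [NeZero N] : wt N m m.valMinAbs.natAbs = 1 := by
  rw [wt, ind1, ind1]
  rcases Int.natAbs_eq m.valMinAbs with h | h
  · have h1 : ((m.valMinAbs.natAbs : ℤ) : ZMod N) = m := by
      rw [← h, ZMod.coe_valMinAbs]
    rw [h1, if_pos rfl, Int.cast_neg, h1, if_neg (fun h => hm h.symm)]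
    rfl
  · have h1 : ((-(m.valMinAbs.natAbs : ℤ) : ℤ) : ZMod N) = m := by
      rw [← h, ZMod.coe_valMinAbs]
    have h2 : ((m.valMinAbs.natAbs : ℤ) : ZMod N) = -m := by
      rw [← neg_eq_iff_eq_neg, ← Int.cast_neg, h1]
    rw [h1, if_pos rfl, h2, if_neg (fun h => hm h.symm)]
    rfl

theorem natAbs_pos (hm : m ≠ 0) : 0 < m.valMinAbs.natAbs := by
  rw [Int.natAbs_pos]
  intro h
  apply hm
  rw [← ZMod.coe_valMinAbs m, h, Int.cast_zero]

theorem hS_coeff_of_lt (R : Type*) [CommRing R] [NeZero N] {n : ℤ}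
    (hn : n < m.valMinAbs.natAbs - 1) : (hS R N m).coeff n = 0 := by
  rw [hS, dSinv, ← mul_assoc, mul_comm _ (HahnSeries.single (-1) (1 : R)), mul_assoc,
    HahnSeries.coeff_single_mul, one_mul, ← map_mul, sub_neg_eq_add]
  rcases lt_or_ge (n + 1) 0 with h | h
  · exact ModularCurve.ofPowerSeries_coeff_of_neg _ h
  · obtain ⟨k, hk⟩ := Int.eq_ofNat_of_zero_le h
    rw [hk, HahnSeries.ofPowerSeries_apply_coeff, PowerSeries.coeff_mul]
    refine Finset.sum_eq_zero fun p hp => ?_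
    rw [Finset.HasAntidiagonal.mem_antidiagonal] at hp
    rw [PowerSeries.coeff_map, PowerSeries.coeff_mk, gcoef_eq_zero_of_lt (by omega), map_zero,
      zero_mul]

theorem hS_coeff_lead (R : Type*) [CommRing R] [NeZero N] (hm : m ≠ -m) :
    (hS R N m).coeff (m.valMinAbs.natAbs - 1) = 1 := by
  have hm0 : m ≠ 0 := by rintro rfl; exact hm neg_zero.symm
  rw [hS, dSinv, ← mul_assoc, mul_comm _ (HahnSeries.single (-1) (1 : R)), mul_assoc,
    HahnSeries.coeff_single_mul, one_mul, ← map_mul, sub_neg_eq_add, sub_add_cancel,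
    HahnSeries.ofPowerSeries_apply_coeff, PowerSeries.coeff_mul,
    Finset.sum_eq_single (m.valMinAbs.natAbs, 0)]
  · rw [PowerSeries.coeff_map, PowerSeries.coeff_mk, gcoef_lead hm0, wt_lead hm,
      PowerSeries.coeff_map, PowerSeries.coeff_zero_eq_constantCoeff,
      ModularCurve.constantCoeff_dedekindEtaUnitInv]
    simp
  · rintro ⟨a, b⟩ hp hne
    rw [Finset.HasAntidiagonal.mem_antidiagonal] at hp
    simp only at hp
    have h1 : a < m.valMinAbs.natAbs := by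
      rcases Nat.lt_or_ge a m.valMinAbs.natAbs with h | h
      · exact h
      · exfalso
        apply hne
        rw [Prod.mk.injEq]
        omega
    rw [PowerSeries.coeff_map, PowerSeries.coeff_mk, gcoef_eq_zero_of_lt h1, map_zero, zero_mul]
  · intro h
    exact absurd (Finset.HasAntidiagonal.mem_antidiagonal.mpr (add_zero _)) h

/-- The series `h_m` and `h_{m'}` are different unless `m = ± m'`. -/
theorem hS_injective (R : Type*) [CommRing R] [Nontrivial R] [NeZero N] {m m' : ZMod N}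
    (hm : m ≠ -m) (hm' : m' ≠ -m') (h : hS R N m = hS R N m') : m = m' ∨ m = -m' := by
  have h1 : m.valMinAbs.natAbs = m'.valMinAbs.natAbs := by
    rcases lt_trichotomy m.valMinAbs.natAbs m'.valMinAbs.natAbs with h2 | h2 | h2
    · exfalso
      have h3 := hS_coeff_lead R hm
      rw [h, hS_coeff_of_lt R (by omega)] at h3
      exact zero_ne_one h3
    · exact h2
    · exfalso
      have h3 := hS_coeff_lead R hm'
      rw [← h, hS_coeff_of_lt R (by omega)] at h3
      exact zero_ne_one h3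
  rcases Int.natAbs_eq_natAbs_iff.mp h1 with h2 | h2
  · left
    rw [← ZMod.coe_valMinAbs m, h2, ZMod.coe_valMinAbs]
  · right
    rw [← ZMod.coe_valMinAbs m, h2, Int.cast_neg, ZMod.coe_valMinAbs]

theorem Gm_neg (m : ZMod N) : Gm N (-m) = Gm N m := by
  ext τ
  rw [Gm, Gm, Fa, Fa, ← (Equiv.neg (Fin 2 → ℤ)).tsum_eq]
  refine tsum_congr fun v => ?_
  simp only [Equiv.neg_apply]
  congr 1
  · rw [ind, ind, ind1, ind1]
    simp [neg_inj]
  · simp only [eisSummand, Pi.neg_apply]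
    rw [show ((-v 0 : ℤ) : ℂ) * τ + ((-v 1 : ℤ) : ℂ) = -((v 0 : ℂ) * τ + v 1) by push_cast; ring]
    exact Even.neg_zpow (by decide) _

theorem hfun_neg (m : ZMod N) : hfun N (-m) = hfun N m := by
  funext τ
  simp only [hfun, Gm_neg]

end Fermat.Agent.H18J
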