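import Fermat.Agent.H18_FunAlg
import Fermat.Agent.H02_JQ
import Fermat.Agent.Descent.Aut

set_option autoImplicit false

/-!
# Expansions of modular functions of level `Γ(N)` in `q^{1/N}`, rationality over subfields of `ℂ`

-/

noncomputable section

open UpperHalfPlane hiding I
open ModularForm EisensteinSeries Filter Complex Topology Function CongruenceSubgroup
open scoped MatrixGroups Manifold Real Polynomial

namespace Fermat.Agent.H18J

open Fermat.Agent.H02
open Fermat.Agent.H18 (jfun theta theta_injective isExp_fun_unique isExp_jfun theta_jqModC)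
open Fermat.Agent.Igusa (IsExp scl lin coe_scl coe_lin)
open Fermat.Agent.IntStr (aff coe_aff)
open ModularCurve (coeffMap qExpand jqModC)

local notation "Δ" => ModularForm.discriminant

theorem scl_eq_aff (N : ℕ) [NeZero N] (z : ℍ) : scl N z = aff N 1 0 z := by
  ext
  rw [coe_scl, coe_aff (NeZero.pos N) one_pos]
  simp

theorem scl_lin (N : ℕ) [NeZero N] (z : ℍ) : scl N (lin N 0 z) = z := by
  ext
  rw [coe_scl, coe_lin]
  have : (N : ℂ) ≠ 0 := by exact_mod_cast NeZero.ne N
  field_simp
  simp

theorem scl_T (N : ℕ) [NeZero N] (z : ℍ) :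
    scl N (ModularGroup.T • z) = (ModularGroup.T ^ N : SL(2, ℤ)) • scl N z := by
  have h := ModularGroup.coe_T_zpow_smul_eq (z := scl N z) (n := (N : ℤ))
  rw [zpow_natCast] at h
  ext
  rw [h, coe_scl, coe_scl, UpperHalfPlane.modular_T_smul, UpperHalfPlane.coe_vadd]
  push_cast
  ring

theorem isLau_scl {N : ℕ} [NeZero N] {f : ℍ → ℂ} (hf : IsSlow f)
    (hT : tr (ModularGroup.T ^ N) f = f) : ∃ n, IsLau n (fun z => f (scl N z)) := by
  obtain ⟨n, hn⟩ := hf.bdd 1
  rw [tr_one] at hn
  refine ⟨N * n, ?_, ?_, ?_⟩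
  · have := Fermat.Agent.IntStr.mdiff_comp_aff hf.holo (NeZero.pos N) one_pos 0
    simpa only [scl_eq_aff] using this
  · apply periodic_of_T
    ext z
    rw [tr_apply, scl_T]
    exact congrFun hT _
  · have h1 : (fun z => f (scl N z)) * Δ ^ (N * n) =
        (fun z => (f * Δ ^ n) (aff N 1 0 z)) *
          (Fermat.Agent.IntStr.Hc N N 1 0) ^ n := by
      ext z
      have hD := discriminant_ne_zero (aff N 1 0 z)
      simp only [Pi.mul_apply, Pi.pow_apply, Fermat.Agent.IntStr.Hc, scl_eq_aff]
      push_cast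
      rw [one_pow, one_mul, div_pow, ← pow_mul]
      field_simp
    have h2 := Fermat.Agent.IntStr.isBounded_Hc (N := N) (NeZero.pos N) one_pos 0 (mul_one N)
    have h3 : ∀ k : ℕ, IsBoundedAtImInfty ((Fermat.Agent.IntStr.Hc N N 1 0) ^ k) := by
      intro k
      induction k with
      | zero => rw [pow_zero]; exact Filter.const_boundedAtFilter _ (1 : ℂ)
      | succ k ih => rw [pow_succ]; exact ih.mul h2
    rw [h1]
    exact Filter.BoundedAtFilter.mul
      (hn.comp_tendsto (Fermat.Agent.IntStr.tendsto_aff (NeZero.pos N) one_pos 0)) (h3 n)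

/-- Slow functions invariant under `T^N` have a Laurent expansion in `q^{1/N}`. -/
theorem exists_isExp {N : ℕ} [NeZero N] {f : ℍ → ℂ} (hf : IsSlow f)
    (hT : tr (ModularGroup.T ^ N) f = f) : ∃ F : LaurentSeries ℂ, IsExp N f F := by
  obtain ⟨n, hn⟩ := isLau_scl (N := N) hf hT
  refine ⟨qLauFun (fun z => f (scl N z)), fun τ => ?_⟩
  have h := hn.hasSum (lin N 0 τ)
  simp only [scl_lin] at h
  have h2 : qf (lin N 0 τ) = Function.Periodic.qParam (N : ℝ) (τ : ℂ) := by
    have := Igusa.qParam_lin N 0 τ
    rw [zpow_zero, Units.val_one, one_mul, Nat.cast_one] at this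
    exact this
  rwa [h2] at h

theorem T_pow_mem_Gamma (N : ℕ) : ModularGroup.T ^ N ∈ CongruenceSubgroup.Gamma N := by
  have h1 : (ModularGroup.T ^ (N : ℤ)) ∈ CongruenceSubgroup.Gamma N := by
    simpa using ModularGroup_T_pow_mem_Gamma (N : ℤ) (N : ℤ) dvd_rfl
  rwa [zpow_natCast] at h1

theorem exists_isExp_of_mem {N : ℕ} [NeZero N] {f : ℍ → ℂ}
    (hf : f ∈ modAlg (CongruenceSubgroup.Gamma N)) : ∃ F : LaurentSeries ℂ, IsExp N f F :=
  exists_isExp hf.1 (hf.2 _ (T_pow_mem_Gamma N))

/-! ### A retraction of `ℂ((q))` onto `K((q))` -/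

section Retract

variable (K : Type*) [Field K] [Algebra K ℂ]

/-- a `K`-linear retraction `ℂ → K` -/
def ret : ℂ →ₗ[K] K :=
  ((Algebra.linearMap K ℂ).exists_leftInverse_of_injective
    (LinearMap.ker_eq_bot.mpr (algebraMap K ℂ).injective)).choose

theorem ret_algebraMap (a : K) : ret K (algebraMap K ℂ a) = a :=
  LinearMap.congr_fun ((Algebra.linearMap K ℂ).exists_leftInverse_of_injective
    (LinearMap.ker_eq_bot.mpr (algebraMap K ℂ).injective)).choose_spec a

theorem ret_one : ret K 1 = 1 := by rw [← map_one (algebraMap K ℂ), ret_algebraMap]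

/-- the coefficientwise retraction -/
def retL (z : LaurentSeries ℂ) : LaurentSeries K where
  coeff n := ret K (z.coeff n)
  isPWO_support' := z.isPWO_support.mono fun n hn h => hn (by
    show ret K (z.coeff n) = 0
    rw [show z.coeff n = 0 from h, map_zero])

theorem retL_coeff (z : LaurentSeries ℂ) (n : ℤ) : (retL K z).coeff n = ret K (z.coeff n) := rfl

theorem retL_add (z w : LaurentSeries ℂ) : retL K (z + w) = retL K z + retL K w := by
  ext n
  simp [retL_coeff]

theorem retL_zero : retL K 0 = 0 := by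
  ext n
  simp [retL_coeff]

theorem retL_sum {ι : Type*} (s : Finset ι) (f : ι → LaurentSeries ℂ) :
    retL K (∑ i ∈ s, f i) = ∑ i ∈ s, retL K (f i) := by
  classical
  induction s using Finset.induction_on with
  | empty => simp [retL_zero]
  | insert a s ha ih => rw [Finset.sum_insert ha, Finset.sum_insert ha, retL_add, ih]

theorem retL_C_mul_theta (c : ℂ) (z : LaurentSeries K) :
    retL K (algebraMap ℂ (LaurentSeries ℂ) c * theta K z) =
      algebraMap K (LaurentSeries K) (ret K c) * z := by
  ext n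
  rw [retL_coeff, ModularCurve.algebraMap_laurentSeries_eq_single,
    ModularCurve.algebraMap_laurentSeries_eq_single, HahnSeries.coeff_single_mul,
    HahnSeries.coeff_single_mul, sub_zero, ModularCurve.coeffMap_coeff, mul_comm c,
    ← Algebra.smul_def, map_smul, smul_eq_mul, mul_comm]

theorem retL_theta (z : LaurentSeries K) : retL K (theta K z) = z := by
  have := retL_C_mul_theta K 1 z
  rwa [map_one, one_mul, ret_one, map_one, one_mul] at this

/-- coefficientwise retraction of polynomials -/
def retP (P : ℂ[X]) : K[X] := ∑ i ∈ Finset.range (P.natDegree + 1),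
  Polynomial.monomial i (ret K (P.coeff i))

theorem retP_coeff (P : ℂ[X]) (i : ℕ) : (retP K P).coeff i = ret K (P.coeff i) := by
  rw [retP, Polynomial.finsetSum_coeff]
  simp only [Polynomial.coeff_monomial]
  rw [Finset.sum_ite_eq' (Finset.range (P.natDegree + 1)) i]
  split_ifs with h
  · rfl
  · rw [Finset.mem_range, not_lt] at h
    rw [Polynomial.coeff_eq_zero_of_natDegree_lt (by omega), map_zero]

theorem retP_one : retP K 1 = 1 := by
  ext i
  rw [retP_coeff, Polynomial.coeff_one, Polynomial.coeff_one]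
  split_ifs
  · exact ret_one K
  · exact map_zero _

theorem retL_aeval_mul (P : ℂ[X]) (J z : LaurentSeries K) :
    retL K (Polynomial.aeval (theta K J) P * theta K z) =
      Polynomial.aeval J (retP K P) * z := by
  rw [Polynomial.aeval_eq_sum_range, Finset.sum_mul, retL_sum, retP, map_sum, Finset.sum_mul]
  refine Finset.sum_congr rfl fun i _ => ?_
  rw [Algebra.smul_def, mul_assoc, ← map_pow, ← map_mul, retL_C_mul_theta,
    Polynomial.aeval_monomial, mul_assoc]

end Retract

end Fermat.Agent.H18J
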