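import Fermat.Agent.H18J.Rat
import Fermat.Agent.H18J.Eis2
import Fermat.Agent.H18_Orbits

set_option autoImplicit false
set_option linter.unusedSectionVars false

/-!
# The function field `FK K Γ ⊆ K((q))` for `Γ(N) ≤ Γ`, `T ∈ Γ`

-/

noncomputable section

open UpperHalfPlane hiding I
open ModularForm EisensteinSeries Filter Complex Topology Function CongruenceSubgroup
open scoped MatrixGroups Manifold Real Polynomial

namespace Fermat.Agent.H18J

open Fermat.Agent.H02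
open Fermat.Agent.H18 (jfun theta theta_injective isExp_fun_unique isExp_jfun theta_jqModC
  theta_qExpand isExp_aeval jfun_surjective ratFuncAlgebra ratFuncAlgebra_tower ratFuncAlgebra_X
)
open Fermat.Agent.Igusa (IsExp scl lin coe_scl coe_lin)
open ModularCurve (coeffMap qExpand jqModC)

section Def

variable (K : Type*) [Field K] [Algebra K ℂ] (Γ : Subgroup SL(2, ℤ))

/-- `q`-expansions over `K` of holomorphic modular functions for `Γ`. -/
def ringS : Subalgebra K (LaurentSeries K) where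
  carrier := {F | ∃ f ∈ modAlg Γ, IsExp 1 f (theta K F)}
  mul_mem' := by
    rintro F G ⟨f, hf, hF⟩ ⟨g, hg, hG⟩
    exact ⟨f * g, mul_mem hf hg, by rw [map_mul]; exact hF.mul hG⟩
  add_mem' := by
    rintro F G ⟨f, hf, hF⟩ ⟨g, hg, hG⟩
    exact ⟨f + g, add_mem hf hg, by rw [map_add]; exact hF.add hG⟩
  algebraMap_mem' := by
    intro r
    refine ⟨fun _ => algebraMap K ℂ r, (modAlg Γ).algebraMap_mem (algebraMap K ℂ r), ?_⟩
    have : theta K (algebraMap K (LaurentSeries K) r) = HahnSeries.C (algebraMap K ℂ r) := by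
      rw [ModularCurve.algebraMap_laurentSeries_eq_single]
      exact ModularCurve.coeffMap_single _ _ _
    rw [this]
    exact IsExp.const _

/-- **The field of modular functions for `Γ` with `q`-expansion over `K`.** -/
def FK : IntermediateField K (LaurentSeries K) :=
  IntermediateField.adjoin K (ringS K Γ : Set (LaurentSeries K))

variable {K Γ}

theorem mem_FK_of_mem {x : LaurentSeries K} (hx : x ∈ ringS K Γ) : x ∈ FK K Γ :=
  IntermediateField.subset_adjoin _ _ hx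

theorem mem_FK_iff {x : LaurentSeries K} :
    x ∈ FK K Γ ↔ ∃ F ∈ ringS K Γ, ∃ G ∈ ringS K Γ, x = F / G := by
  rw [FK, IntermediateField.mem_adjoin_iff_div, Algebra.adjoin_eq]

theorem ringS_mono {Γ' : Subgroup SL(2, ℤ)} (h : Γ ≤ Γ') : ringS K Γ' ≤ ringS K Γ := by
  rintro F ⟨f, hf, hF⟩
  exact ⟨f, modAlg_mono h hf, hF⟩

theorem FK_mono {Γ' : Subgroup SL(2, ℤ)} (h : Γ ≤ Γ') : FK K Γ' ≤ FK K Γ :=
  IntermediateField.adjoin.mono _ _ _ (ringS_mono h)

theorem jq_mem_ringS : jqModC K ∈ ringS K Γ :=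
  ⟨jfun, jfun_mem_modAlg _, by rw [theta_jqModC]; exact isExp_jfun⟩

theorem jqd_mem_ringS {d : ℕ} [NeZero d] (hd : Γ ≤ Gamma0 d) :
    qExpand K d (jqModC K) ∈ ringS K Γ :=
  ⟨jN d, modAlg_mono hd (jN_mem_modAlg (NeZero.pos d)), by
    rw [theta_qExpand, theta_jqModC]; exact H18.isExp_jN⟩

variable (K Γ) in
/-- `j` as an element of the function field. -/
def jK : FK K Γ := ⟨jqModC K, mem_FK_of_mem jq_mem_ringS⟩

@[simp] theorem coe_jK : (jK K Γ : LaurentSeries K) = jqModC K := rfl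

end Def

/-- `Γ` contains `Γ(N)` and `T`. -/
class IsLevel (N : ℕ) (Γ : Subgroup SL(2, ℤ)) : Prop where
  gamma_le : CongruenceSubgroup.Gamma N ≤ Γ
  T_mem : ModularGroup.T ∈ Γ

section Emb

theorem qExpand_algebraMap' (K : Type*) [Field K] (n : ℕ) [NeZero n] (c : K) :
    qExpand K n (algebraMap K (LaurentSeries K) c) = algebraMap K (LaurentSeries K) c := by
  rw [ModularCurve.algebraMap_laurentSeries_eq_single, ModularCurve.qExpand_single, mul_zero]

/-- `f(q) ↦ f(q^n)` as an algebra homomorphism. -/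
def qX (K : Type*) [Field K] (n : ℕ) [NeZero n] : LaurentSeries K →ₐ[K] LaurentSeries K :=
  { qExpand K n with commutes' := qExpand_algebraMap' K n }

@[simp] theorem qX_apply (K : Type*) [Field K] (n : ℕ) [NeZero n] (x : LaurentSeries K) :
    qX K n x = qExpand K n x := rfl

variable {K : Type*} [Field K] [Algebra K ℂ] {N : ℕ} [NeZero N] {Γ : Subgroup SL(2, ℤ)}

theorem modAlg_le_of_level [IsLevel N Γ] : modAlg Γ ≤ modAlg (CongruenceSubgroup.Gamma N) :=
  modAlg_mono (IsLevel.gamma_le)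

theorem mem_bigAlg_of_ringS [IsAlgClosed K] [IsLevel N Γ] {f : ℍ → ℂ} (hf : f ∈ modAlg Γ)
    {F : LaurentSeries K} (hF : IsExp 1 f (theta K F)) : f ∈ bigAlg K N :=
  mem_bigAlg (modAlg_le_of_level hf) (F := qExpand K N F) (by
    rw [theta_qExpand]
    exact (Igusa.isExp_qExpand_iff N).mpr hF)

theorem expM_of_ringS [IsAlgClosed K] [IsLevel N Γ] {f : ℍ → ℂ} (hf : f ∈ modAlg Γ)
    {F : LaurentSeries K} (hF : IsExp 1 f (theta K F)) :
    expM K N (algebraMap (bigAlg K N) (MF K N) ⟨f, mem_bigAlg_of_ringS (N := N) hf hF⟩) =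
      qExpand K N F := by
  rw [expM_algebraMap]
  apply expK_eq
  rw [theta_qExpand]
  exact (Igusa.isExp_qExpand_iff N).mpr hF

theorem qExpand_mem_range [IsAlgClosed K] [IsLevel N Γ] {x : LaurentSeries K} (hx : x ∈ FK K Γ) :
    qX K N x ∈ (expM K N).range := by
  obtain ⟨F, ⟨f, hf, hF⟩, G, ⟨g, hg, hG⟩, rfl⟩ := mem_FK_iff.mp hx
  rw [map_div₀]
  show _ ∈ (expM K N).fieldRange
  refine div_mem ⟨_, expM_of_ringS (N := N) hf hF⟩ ⟨_, expM_of_ringS (N := N) hg hG⟩

variable (K N Γ) in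
/-- The embedding of the function field in the field of level `Γ(N)`. -/
def embF [IsAlgClosed K] [IsLevel N Γ] : FK K Γ →ₐ[K] MF K N :=
  (AlgEquiv.ofInjectiveField (expM K N)).symm.toAlgHom.comp
    (((qX K N).comp (FK K Γ).val).codRestrict _ fun x => qExpand_mem_range x.2)

theorem expM_embF [IsAlgClosed K] [IsLevel N Γ] (x : FK K Γ) :
    expM K N (embF K N Γ x) = qExpand K N (x : LaurentSeries K) := by
  have h1 := (AlgEquiv.ofInjectiveField (expM K N)).apply_symm_apply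
    ((((qX K N).comp (FK K Γ).val).codRestrict _ fun x => qExpand_mem_range x.2) x)
  exact congrArg Subtype.val h1

theorem embF_of_ringS [IsAlgClosed K] [IsLevel N Γ] {f : ℍ → ℂ} (hf : f ∈ modAlg Γ)
    {F : LaurentSeries K} (hF : IsExp 1 f (theta K F)) :
    embF K N Γ ⟨F, mem_FK_of_mem ⟨f, hf, hF⟩⟩ =
      algebraMap (bigAlg K N) (MF K N) ⟨f, mem_bigAlg_of_ringS hf hF⟩ := by
  apply (expM K N).injective
  show expM K N _ = expM K N _
  rw [expM_embF, expM_of_ringS hf hF]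

theorem embF_jK [IsAlgClosed K] [IsLevel N Γ] : embF K N Γ (jK K Γ) = jM K N :=
  embF_of_ringS (jfun_mem_modAlg Γ) (by rw [theta_jqModC]; exact isExp_jfun)

/-- Elements of `FK K Γ` are fixed by `Γ`. -/
theorem rho_embF_of_mem [IsAlgClosed K] [IsLevel N Γ] {γ : SL(2, ℤ)} (hγ : γ ∈ Γ) (x : FK K Γ) :
    rho K N γ (embF K N Γ x) = embF K N Γ x := by
  obtain ⟨x, hx⟩ := x
  obtain ⟨F, ⟨f, hf, hF⟩, G, ⟨g, hg, hG⟩, rfl⟩ := mem_FK_iff.mp hx
  have h1 : (⟨F / G, hx⟩ : FK K Γ) = (⟨F, mem_FK_of_mem ⟨f, hf, hF⟩⟩ : FK K Γ) /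
      ⟨G, mem_FK_of_mem ⟨g, hg, hG⟩⟩ := rfl
  rw [h1, map_div₀, map_div₀, embF_of_ringS hf hF, embF_of_ringS hg hG, rho_algebraMap,
    rho_algebraMap]
  congr 2
  · exact Subtype.ext (hf.2 _ (inv_mem hγ))
  · exact Subtype.ext (hg.2 _ (inv_mem hγ))

/-- `T`-invariant functions of level `Γ(N)` have an expansion in `q`. -/
theorem exists_ringS {a : bigAlg K N} (hT : tr ModularGroup.T (a : ℍ → ℂ) = a) :
    ∃ F : LaurentSeries K, IsExp 1 (a : ℍ → ℂ) (theta K F) ∧ qExpand K N F = expK K N a := by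
  obtain ⟨G, hG⟩ := exists_isExp (N := 1) (isSlow_of_mem a.2) (by rw [pow_one]; exact hT)
  have h1 : IsExp N (a : ℍ → ℂ) (qExpand ℂ N G) := (Igusa.isExp_qExpand_iff N).mpr hG
  have h2 := (isExp_expK a).unique (NeZero.pos N) h1
  obtain ⟨F, hF⟩ := exists_theta_eq (K := K) (z := G) fun n => by
    rw [← ModularCurve.qExpand_coeff_mul N, ← h2]
    exact ⟨_, rfl⟩
  refine ⟨F, hF.symm ▸ hG, theta_injective ?_⟩
  rw [theta_qExpand, hF, h2]

/-- for every nonzero `b` there are `b'` and a nonzero polynomial in `j` with `b b' = P(j)` -/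
theorem exists_mul_eq (b : bigAlg K N) (hb : b ≠ 0) : ∃ (b' : bigAlg K N) (P : K[X]),
    P ≠ 0 ∧ b * b' = Polynomial.aeval (jF K N) P := by
  classical
  have := Fintype.ofFinite (Gfin K N)
  have hinv : ∀ γ : SL(2, ℤ), γ • (∏ g : Gfin K N, g • b) = ∏ g : Gfin K N, g • b := by
    intro γ
    rw [Finset.smul_prod']
    refine Fintype.prod_equiv (Equiv.mulLeft (toGfin K N γ)) _ _ fun g => ?_
    rw [Equiv.coe_mulLeft, mul_smul]
    rfl
  obtain ⟨P, hP⟩ := exists_poly hinv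
  refine ⟨∏ g ∈ Finset.univ.erase (1 : Gfin K N), g • b, P, ?_, ?_⟩
  · rintro rfl
    rw [map_zero, Finset.prod_eq_zero_iff] at hP
    obtain ⟨g, -, hg⟩ := hP
    exact hb ((smul_eq_zero_iff_eq g).mp hg)
  · rw [← hP, ← Finset.mul_prod_erase Finset.univ _ (Finset.mem_univ (1 : Gfin K N)), one_smul]

theorem rho_jM (γ : SL(2, ℤ)) : rho K N γ (jM K N) = jM K N := by
  rw [jM, rho_algebraMap, smul_jF]

/-- **The fixed field of `Γ` is `FK K Γ`.** -/
theorem exists_embF_eq [IsAlgClosed K] [IsLevel N Γ] (y : MF K N)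
    (hy : ∀ γ ∈ Γ, rho K N γ y = y) : ∃ x : FK K Γ, embF K N Γ x = y := by
  obtain ⟨a, b, hb, rfl⟩ := IsFractionRing.div_surjective (A := bigAlg K N) y
  have hb0 : b ≠ 0 := nonZeroDivisors.ne_zero hb
  obtain ⟨b', P, hP, hbP⟩ := exists_mul_eq b hb0
  have hinj := IsFractionRing.injective (bigAlg K N) (MF K N)
  have hPj : (Polynomial.aeval (jF K N) P) ≠ 0 := fun h =>
    hP ((transcendental_iff.mp transcendental_jF) P h)
  have hb'0 : b' ≠ 0 := by
    rintro rfl
    rw [mul_zero] at hbP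
    exact hPj hbP.symm
  have e1 : algebraMap (bigAlg K N) (MF K N) b ≠ 0 := by
    rwa [Ne, map_eq_zero_iff _ hinj]
  have e2 : algebraMap (bigAlg K N) (MF K N) b' ≠ 0 := by
    rwa [Ne, map_eq_zero_iff _ hinj]
  have h1 : algebraMap (bigAlg K N) (MF K N) a / algebraMap _ _ b =
      algebraMap (bigAlg K N) (MF K N) (a * b') /
        algebraMap _ _ (Polynomial.aeval (jF K N) P) := by
    rw [← hbP, map_mul, map_mul]
    field_simp
  set c := a * b' with hc
  have hcinv : ∀ γ ∈ Γ, γ • c = c := by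
    intro γ hγ
    have h2 := hy γ hγ
    rw [h1, map_div₀, rho_algebraMap, rho_algebraMap] at h2
    have h3 : γ • (Polynomial.aeval (jF K N) P) = Polynomial.aeval (jF K N) P := by
      have := Polynomial.aeval_algHom_apply
        (MulSemiringAction.toAlgAut SL(2, ℤ) K (bigAlg K N) γ).toAlgHom (jF K N) P
      rw [show (MulSemiringAction.toAlgAut SL(2, ℤ) K (bigAlg K N) γ).toAlgHom (jF K N) = jF K N
        from smul_jF γ] at this
      exact this.symm
    rw [h3, div_left_inj' (by rwa [Ne, map_eq_zero_iff _ hinj])] at h2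
    exact hinj h2
  have hcΓ : (c : ℍ → ℂ) ∈ modAlg Γ := ⟨isSlow_of_mem c.2, fun γ hγ => by
    have := congrArg Subtype.val (hcinv γ⁻¹ (inv_mem hγ))
    rwa [coe_smul, inv_inv] at this⟩
  obtain ⟨F, hF, -⟩ := exists_ringS (a := c) (hcΓ.2 _ (IsLevel.T_mem N))
  refine ⟨⟨F, mem_FK_of_mem ⟨c, hcΓ, hF⟩⟩ / Polynomial.aeval (jK K Γ) P, ?_⟩
  rw [h1, map_div₀, embF_of_ringS hcΓ hF]
  congr 1
  rw [← Polynomial.aeval_algHom_apply, embF_jK, jM, Polynomial.aeval_algebraMap_apply]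

end Emb

end Fermat.Agent.H18J
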