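import Fermat.Agent.H18J.IntB

set_option autoImplicit false
set_option linter.all false

/-!
# All expansions are fractions of `A`-integral series; integrality criterion

-/

noncomputable section

open UpperHalfPlane hiding I
open ModularForm EisensteinSeries Filter Complex Topology Function CongruenceSubgroup
open scoped MatrixGroups Manifold Real Polynomial IntermediateField
open IsLocalRing (residue ResidueField)

namespace Fermat.Agent.H18J

open Fermat.Agent.H02
open Fermat.Agent.H02G (pm mem_pm le_pm neg_mem_pm mfq)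
open Fermat.Agent.Q (intL mem_intL redL redL_coeff redL_eq_zero_iff C_mem_intL redL_C)
open Fermat.Agent.H18 (jfun theta theta_injective isExp_fun_unique isExp_jfun theta_jqModC
  theta_qExpand isExp_aeval jfun_surjective ratFuncAlgebra ratFuncAlgebra_tower ratFuncAlgebra_X
  exists_unit_zr exists_exp_aff)
open Fermat.Agent.Igusa (IsExp scl lin coe_scl coe_lin twist twist_coeff)
open Fermat.Agent.IntStr (aff coe_aff)
open ModularCurve (coeffMap qExpand jqModC coeffMap_qExpand)

section Fr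

variable {K : Type*} [Field K] (A : ValuationSubring K)

/-- fractions of `A`-integral series -/
def fracL : Subfield (LaurentSeries K) := Subfield.closure (intL A : Set (LaurentSeries K))

variable {A}

theorem intL_le_fracL {x : LaurentSeries K} (hx : x ∈ intL A) : x ∈ fracL A :=
  Subfield.subset_closure hx

theorem mem_fracL {z : LaurentSeries K} : z ∈ fracL A ↔ ∃ P ∈ intL A, ∃ Q ∈ intL A, P / Q = z := by
  rw [fracL, Subfield.mem_closure_iff, Subring.closure_eq]

theorem C_mem_fracL (c : K) : (HahnSeries.C c : LaurentSeries K) ∈ fracL A := by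
  rcases A.mem_or_inv_mem c with h | h
  · exact intL_le_fracL (C_mem_intL h)
  · have h1 := inv_mem (intL_le_fracL (C_mem_intL h))
    rwa [← map_inv₀, inv_inv] at h1

theorem mem_intL_of_integral' [MulArchimedean A.ValueGroup] {Y : LaurentSeries K}
    (hY : Y ∈ fracL A) {P : A[X][X]} (hP : P.Monic) {φ : A[X] →+* LaurentSeries K}
    (hφ : ∀ p, φ p ∈ intL A) (h : P.eval₂ φ Y = 0) : Y ∈ intL A := by
  obtain ⟨U, hU, V, hV, rfl⟩ := mem_fracL.mp hY
  by_cases hV0 : V = 0
  · rw [hV0, div_zero]; exact zero_mem _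
  refine Q.mem_intL_of_integral hV0 hV (by rw [mul_div_cancel₀ _ hV0]; exact hU) ?_
  refine ⟨P.map (φ.codRestrict (intL A) hφ), hP.map _, ?_⟩
  rw [Polynomial.eval₂_map]
  exact h

end Fr

section Twist

variable {K : Type*} [Field K] {A : ValuationSubring K}

theorem twist_mem_intL {u : Kˣ} (hu : (u : K) ∈ A) (hu' : ((u⁻¹ : Kˣ) : K) ∈ A)
    {x : LaurentSeries K} (hx : x ∈ intL A) : twist u x ∈ intL A := by
  rw [mem_intL] at hx ⊢
  intro n
  rw [twist_coeff]
  refine mul_mem (hx n) ?_
  have h : ∀ m : ℕ, ((u ^ m : Kˣ) : K) ∈ A := fun m => by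
    rw [Units.val_pow_eq_pow_val]; exact pow_mem hu m
  have h' : ∀ m : ℕ, (((u⁻¹) ^ m : Kˣ) : K) ∈ A := fun m => by
    rw [Units.val_pow_eq_pow_val]; exact pow_mem hu' m
  obtain ⟨m, rfl | rfl⟩ := n.eq_nat_or_neg
  · rw [zpow_natCast]; exact h m
  · rw [zpow_neg, zpow_natCast, ← inv_pow]; exact h' m

theorem mem_of_pow_eq_one {x : K} {n : ℕ} (hn : 0 < n) (h : x ^ n = 1) : x ∈ A := by
  rcases A.mem_or_inv_mem x with h1 | h1
  · exact h1
  · have h2 : x = (x⁻¹) ^ (n - 1) := by
      have hx : x ≠ 0 := by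
        rintro rfl
        rw [zero_pow hn.ne'] at h
        exact zero_ne_one h
      rw [inv_pow]
      apply eq_inv_of_mul_eq_one_left
      rw [mul_comm, ← pow_succ, Nat.sub_add_cancel hn, h]
    rw [h2]
    exact pow_mem h1 _

end Twist

section Gen

variable {K : Type*} [Field K] [Algebra K ℂ] {N : ℕ} [NeZero N]

theorem mem_pm_Gamma_of {γ : SL(2, ℤ)} (hj : ∀ δ : SL(2, ℤ), δ * γ * δ⁻¹ ∈ Gamma0 N)
    (hh : (1 : ZMod N) ≠ 0 → tr γ (hfun N 1) = hfun N 1) :
    γ ∈ pm (CongruenceSubgroup.Gamma N) := by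
  have hg0 : γ ∈ Gamma0 N := by simpa using hj 1
  have hS : ∀ {γ : SL(2, ℤ)}, (∀ δ : SL(2, ℤ), δ * γ * δ⁻¹ ∈ Gamma0 N) →
      ((γ 0 1 : ℤ) : ZMod N) = 0 := by
    intro γ h
    have h1 := h ModularGroup.S
    rw [Gamma0_mem] at h1
    have h2 : (ModularGroup.S * γ * ModularGroup.S⁻¹ : SL(2, ℤ)) 1 0 = -γ 0 1 := by
      simp [Matrix.SpecialLinearGroup.coe_mul, Matrix.mul_apply, Fin.sum_univ_two,
        ModularGroup.S, Matrix.SpecialLinearGroup.coe_inv, Matrix.adjugate_fin_two,
        Matrix.vecMul, dotProduct]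
    rw [h2, Int.cast_neg, neg_eq_zero] at h1
    exact h1
  have h10 := Gamma0_mem.mp hg0
  have h01 := hS hj
  have h2 : ((((ModularGroup.T * γ * ModularGroup.T⁻¹ : SL(2, ℤ)) 0 1 : ℤ)) : ZMod N) = 0 :=
    hS fun δ => by
      have := hj (δ * ModularGroup.T)
      rwa [show δ * (ModularGroup.T * γ * ModularGroup.T⁻¹) * δ⁻¹ =
        (δ * ModularGroup.T) * γ * (δ * ModularGroup.T)⁻¹ by group]
  have h3 : (ModularGroup.T * γ * ModularGroup.T⁻¹ : SL(2, ℤ)) 0 1 =
      -(γ 0 0 + γ 1 0) + (γ 0 1 + γ 1 1) := by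
    simp [Matrix.SpecialLinearGroup.coe_mul, Matrix.mul_apply, Fin.sum_univ_two,
      ModularGroup.T, Matrix.SpecialLinearGroup.coe_inv, Matrix.adjugate_fin_two,
      Matrix.vecMul, dotProduct]
  rw [h3] at h2
  push_cast at h2
  rw [h10, h01] at h2
  have h00 : ((γ 0 0 : ℤ) : ZMod N) = ((γ 1 1 : ℤ) : ZMod N) := by linear_combination -h2
  obtain ⟨hu, hmul⟩ := isUnit_of_det γ h10
  have key : ((γ 1 1 : ℤ) : ZMod N) = 1 ∨ ((γ 1 1 : ℤ) : ZMod N) = -1 := by
    by_cases h1 : (1 : ZMod N) = -1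
    · exact Or.inl (one_eq_neg_one_imp hu h1)
    · have hne : (1 : ZMod N) ≠ 0 := fun h0 => h1 (by
        have : ∀ x : ZMod N, x = 0 := fun x => by rw [← mul_one x, h0, mul_zero]
        exact (this 1).trans (this (-1)).symm)
      have hne' : ((γ 0 0 : ℤ) : ZMod N) ≠ 0 := fun h0 => by
        rw [h0, zero_mul] at hmul
        exact hne hmul.symm
      have h2 := hh hne
      rw [tr_hfun hg0, one_mul] at h2
      have h3 := isExp_hfun hne'
      rw [h2] at h3
      have h4 := h3.unique one_pos (isExp_hfun hne)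
      rw [h00] at h4
      rcases hS_injective ℂ (unit_ne_neg hu h1) h1 h4 with h5 | h5
      · exact Or.inl h5
      · exact Or.inr h5
  rcases key with h1 | h1
  · left
    rw [Gamma_mem]
    exact ⟨h00.trans h1, h01, h10, h1⟩
  · right
    rw [Gamma_mem]
    simp only [Matrix.SpecialLinearGroup.coe_neg, Matrix.neg_apply, Int.cast_neg]
    rw [h00, h01, h10, h1]
    simp

variable (A : ValuationSubring K)

variable (N) in
/-- elements whose expansions are fractions of integral series -/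
def frField : IntermediateField (RatFunc K) (MF K N) :=
  ((fracL A).comap (expM K N).toRingHom).toIntermediateField fun r => by
    have h1 : ((fracL A).comap (expM K N).toRingHom : Subfield (MF K N)) =
        ((((fracL A).comap (expM K N).toRingHom).toIntermediateField fun c => by
          show expM K N (algebraMap K (MF K N) c) ∈ fracL A
          rw [AlgHom.commutes, Q.algebraMap_eq_C]
          exact C_mem_fracL c : IntermediateField K (MF K N))).toSubfield := rfl
    rw [h1]
    apply algebraMap_ratFunc_mem K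
    show expM K N (jM K N) ∈ fracL A
    rw [jM, expM_algebraMap, expK_jF]
    exact intL_le_fracL ((qExpand_mem_intL_iff N).mpr jqModC_mem_intL)

theorem mem_frField {y : MF K N} : y ∈ frField N A ↔ expM K N y ∈ fracL A := Iff.rfl

variable [IsAlgClosed K]

variable (N) in
/-- `j_N` -/
def jNB : bigAlg K N := ⟨jN N, jN_mem_bigAlg dvd_rfl⟩

theorem coe_jNB_smul (δ : SL(2, ℤ)) : ((δ⁻¹ • jNB N : bigAlg K N) : ℍ → ℂ) = tr δ (jN N) := by
  have h : ((δ⁻¹ • jNB N : bigAlg K N) : ℍ → ℂ) = tr (δ⁻¹)⁻¹ (jN N) := rfl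
  rw [h, inv_inv]

/-- the conjugate expansions of `j_N` -/
theorem exists_exp_jNB (γ : SL(2, ℤ)) : ∃ (a e : ℕ) (_ : 0 < a) (_ : 0 < e) (u : Kˣ), a * e = N ∧
    u ^ N = 1 ∧ (γ⁻¹ ∈ Gamma0 N ↔ e = 1) ∧ ∀ (_ : NeZero (a * a)),
      expK K N (γ • jNB N) = qExpand K (a * a) (twist u (jqModC K)) := by
  obtain ⟨a, e, b, ha, he, hae, h1, h2⟩ := jN_smul (NeZero.pos N) γ⁻¹
  have : NeZero a := ⟨ha.ne'⟩
  have : NeZero e := ⟨he.ne'⟩
  obtain ⟨F, hF, hF2⟩ := exists_exp_aff (K := K) (a := a) (e := e) (n := a) b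
  refine ⟨a, e, ha, he, (exists_unit_zr (K := K) e).choose ^ b, hae, ?_, h2, fun _ => ?_⟩
  · have h3 : (exists_unit_zr (K := K) e).choose ^ e = 1 := by
      apply Units.ext
      apply (algebraMap K ℂ).injective
      rw [Units.val_pow_eq_pow_val, map_pow, (exists_unit_zr (K := K) e).choose_spec,
        (Igusa.zr_isPrimitiveRoot e).pow_eq_one]
      simp
    rw [← hae, mul_comm a e, ← zpow_natCast, ← zpow_mul, mul_comm b, zpow_mul, zpow_natCast,
      pow_mul, h3, one_pow, one_zpow]
  · have h4 : IsExp N (γ • jNB N : bigAlg K N) (theta K F) := by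
      rw [coe_smul]
      change IsExp N (tr γ⁻¹ (jN N)) (theta K F)
      rw [h1, ← hae, mul_comm a e]
      exact hF
    rw [expK_eq h4, hF2, ModularCurve.qExpand_qExpand]

theorem exp_jNB_mem (γ : SL(2, ℤ)) : expK K N (γ • jNB N) ∈ intL A := by
  obtain ⟨a, e, ha, he, u, hae, hu, -, h⟩ := exists_exp_jNB (K := K) (N := N) γ
  have hNz : NeZero (a * a) := ⟨(Nat.mul_pos ha ha).ne'⟩
  rw [h hNz, qExpand_mem_intL_iff]
  have hu1 : (u : K) ^ N = 1 := by rw [← Units.val_pow_eq_pow_val, hu, Units.val_one]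
  have hu2 : ((u⁻¹ : Kˣ) : K) ^ N = 1 := by
    rw [← Units.val_pow_eq_pow_val, inv_pow, hu, inv_one, Units.val_one]
  exact twist_mem_intL (mem_of_pow_eq_one (NeZero.pos N) hu1)
    (mem_of_pow_eq_one (NeZero.pos N) hu2) jqModC_mem_intL

/-- **All expansions are fractions of `A`-integral series.** -/
theorem expM_mem_fracL (y : MF K N) : expM K N y ∈ fracL A := by
  rw [← mem_frField]
  have h1 : (frField N A).fixingSubgroup = ⊥ := by
    rw [eq_bot_iff]
    intro σ hσ
    obtain ⟨γ, rfl⟩ := rho_surjective σ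
    rw [IntermediateField.mem_fixingSubgroup_iff] at hσ
    rw [Subgroup.mem_bot, rho_eq_one_iff]
    apply mem_pm_Gamma_of
    · intro δ
      have h2 := hσ (algebraMap (bigAlg K N) (MF K N) (δ⁻¹ • jNB N)) (by
        rw [mem_frField, expM_algebraMap]
        exact intL_le_fracL (exp_jNB_mem A _))
      have h3 := tr_eq_of_rho h2
      rw [coe_jNB_smul] at h3
      apply mem_Gamma0_of_tr_jN (NeZero.pos N)
      rw [← tr_tr, ← tr_tr, h3, tr_tr, mul_inv_cancel, tr_one]
    · intro hne
      have h2 := hσ (algebraMap (bigAlg K N) (MF K N) ⟨hfun N 1, hfun_mem_bigAlg hne⟩) (by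
        rw [mem_frField, expM_algebraMap]
        apply intL_le_fracL
        have h3 : IsExp N (hfun N 1) (theta K (qExpand K N (hS K N 1))) := by
          rw [theta_qExpand, coeffMap_hS]
          exact (Igusa.isExp_qExpand_iff N).mpr (isExp_hfun hne)
        rw [expK_eq (f := (⟨hfun N 1, hfun_mem_bigAlg hne⟩ : bigAlg K N)) h3, qExpand_mem_intL_iff]
        exact ⟨hS A N 1, coeffMap_hS A.subtype 1⟩)
      exact tr_eq_of_rho h2
  have h2 : frField N A = ⊤ := by
    rw [← IsGalois.fixedField_fixingSubgroup (frField N A), h1, IntermediateField.fixedField_bot]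
  rw [h2]
  exact IntermediateField.mem_top

theorem expK_mem_fracL (f : bigAlg K N) : expK K N f ∈ fracL A := by
  rw [← expM_algebraMap]; exact expM_mem_fracL A _

variable {A}

/-- integrality criterion -/
theorem mem_intB_of_integral [MulArchimedean A.ValueGroup] {f : bigAlg K N} {P : A[X][X]}
    (hP : P.Monic) (h : P.eval₂ ((intB A N).subtype.comp (evJ A N)) f = 0) : f ∈ intB A N := by
  intro γ
  apply mem_intL_of_integral' (expK_mem_fracL A _) hP
    (φ := (expK K N).toRingHom.comp ((intB A N).subtype.comp (evJ A N)))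
    (fun p => exp_memB (evJ A N p))
  have h1 : P.eval₂ ((intB A N).subtype.comp (evJ A N)) (γ • f) = 0 := by
    have h2 := Polynomial.hom_eval₂ P ((intB A N).subtype.comp (evJ A N))
      (MulSemiringAction.toRingHom SL(2, ℤ) (bigAlg K N) γ) f
    rw [h, map_zero] at h2
    have h3 : (MulSemiringAction.toRingHom SL(2, ℤ) (bigAlg K N) γ).comp
        ((intB A N).subtype.comp (evJ A N)) = (intB A N).subtype.comp (evJ A N) :=
      RingHom.ext fun p => congrArg Subtype.val (smul_evJ γ p)
    rw [h3] at h2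
    exact h2.symm
  have h2 := Polynomial.hom_eval₂ P ((intB A N).subtype.comp (evJ A N))
    (expK K N).toRingHom (γ • f)
  rw [h1, map_zero] at h2
  exact h2.symm

end Gen

end Fermat.Agent.H18J
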