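import Fermat.Agent.H18J.RatStr
import Fermat.Prelude.Thm_ModularCurve_coeffMap_qExpand
import Fermat.Agent.Q.Residue
import Fermat.Agent.H29.GaussExt

set_option autoImplicit false
set_option linter.unusedSectionVars false
set_option linter.all false

/-!
# Modular functions with `A`-integral expansions at all cusps

-/

noncomputable section

open UpperHalfPlane hiding I
open ModularForm EisensteinSeries Filter Complex Topology Function CongruenceSubgroup
open scoped MatrixGroups Manifold Real Polynomial
open IsLocalRing (residue ResidueField)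

namespace Fermat.Agent.H18J

open Fermat.Agent.H02
open Fermat.Agent.Q (intL mem_intL redL redL_coeff redL_eq_zero_iff C_mem_intL redL_C)
open Fermat.Agent.H18 (jfun theta theta_injective isExp_fun_unique isExp_jfun theta_jqModC
  theta_qExpand isExp_aeval jfun_surjective ratFuncAlgebra ratFuncAlgebra_tower ratFuncAlgebra_X)
open Fermat.Agent.Igusa (IsExp)
open ModularCurve (coeffMap qExpand jqModC coeffMap_qExpand)

section LaurentA

variable {K : Type*} [Field K] {A : ValuationSubring K}

/-- constants scaling -/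
theorem mem_of_C_mul_mem {c : K} {a : LaurentSeries K} (ha : a ∈ intL A)
    (h0 : redL A ⟨a, ha⟩ ≠ 0) (hc : HahnSeries.C c * a ∈ intL A) : c ∈ A := by
  obtain ⟨hcA, -⟩ := Q.Red.scale (Q.Red.of_intL ⟨_, hc⟩) (Q.Red.of_intL ⟨a, ha⟩) h0
  exact hcA

theorem redL_of_lift {y : LaurentSeries A} {x : LaurentSeries K} (h : coeffMap A.subtype y = x)
    (hx : x ∈ intL A) : redL A ⟨x, hx⟩ = coeffMap (residue A) y := by
  subst h
  exact Q.redL_coeffMap y hx

theorem redL_qExpand (n : ℕ) [NeZero n] {x : LaurentSeries K} (hx : x ∈ intL A)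
    (hx' : qExpand K n x ∈ intL A) :
    redL A ⟨qExpand K n x, hx'⟩ = qExpand (ResidueField A) n (redL A ⟨x, hx⟩) := by
  obtain ⟨y, hy⟩ := id hx
  rw [redL_of_lift hy, redL_of_lift (y := qExpand A n y) (by rw [← hy, coeffMap_qExpand]),
    coeffMap_qExpand]

theorem qExpand_mem_intL_iff (n : ℕ) [NeZero n] {x : LaurentSeries K} :
    qExpand K n x ∈ intL A ↔ x ∈ intL A := by
  rw [mem_intL, mem_intL]
  constructor
  · intro h k
    have := h (n * k)
    rwa [ModularCurve.qExpand_coeff_mul] at this
  · intro h k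
    by_cases hk : (n : ℤ) ∣ k
    · obtain ⟨m, rfl⟩ := hk
      rw [ModularCurve.qExpand_coeff_mul]
      exact h m
    · rw [ModularCurve.qExpand_coeff_of_not_dvd n _ hk]
      exact zero_mem A

theorem jqModC_mem_intL : jqModC K ∈ intL A :=
  ⟨jqModC A, ModularCurve.coeffMap_jqModC A.subtype⟩

theorem redL_jqModC : redL A ⟨jqModC K, jqModC_mem_intL⟩ = jqModC (ResidueField A) := by
  rw [redL_of_lift (ModularCurve.coeffMap_jqModC A.subtype), ModularCurve.coeffMap_jqModC]

end LaurentA

section Def

variable {K : Type*} [Field K] [Algebra K ℂ] (A : ValuationSubring K) (N : ℕ) [NeZero N]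

/-- Functions of level `Γ(N)` all of whose conjugates have `A`-integral expansions. -/
def intB : Subring (bigAlg K N) where
  carrier := {f | ∀ γ : SL(2, ℤ), expK K N (γ • f) ∈ intL A}
  one_mem' γ := by rw [smul_one, map_one]; exact one_mem _
  zero_mem' γ := by rw [smul_zero, map_zero]; exact zero_mem _
  add_mem' {a b} ha hb γ := by rw [smul_add, map_add]; exact add_mem (ha γ) (hb γ)
  mul_mem' {a b} ha hb γ := by rw [smul_mul', map_mul]; exact mul_mem (ha γ) (hb γ)
  neg_mem' {a} ha γ := by rw [smul_neg, map_neg]; exact neg_mem (ha γ)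

variable {A N}

theorem mem_intB {f : bigAlg K N} : f ∈ intB A N ↔ ∀ γ : SL(2, ℤ), expK K N (γ • f) ∈ intL A :=
  Iff.rfl

theorem smul_mem_intB {f : bigAlg K N} (hf : f ∈ intB A N) (γ : SL(2, ℤ)) : γ • f ∈ intB A N :=
  fun δ => by rw [← mul_smul]; exact hf _

instance actB : MulSemiringAction SL(2, ℤ) (intB A N) where
  smul γ f := ⟨γ • (f : bigAlg K N), smul_mem_intB f.2 γ⟩
  one_smul f := Subtype.ext (one_smul _ _)
  mul_smul γ δ f := Subtype.ext (mul_smul _ _ _)
  smul_zero γ := Subtype.ext (smul_zero _)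
  smul_add γ f g := Subtype.ext (smul_add _ _ _)
  smul_one γ := Subtype.ext (smul_one _)
  smul_mul γ f g := Subtype.ext (smul_mul' _ _ _)

theorem coe_smulB (γ : SL(2, ℤ)) (f : intB A N) : ((γ • f : intB A N) : bigAlg K N) =
    γ • (f : bigAlg K N) := rfl

theorem exp_memB (f : intB A N) : expK K N f ∈ intL A := by
  have := f.2 1
  rwa [one_smul] at this

variable (A N) in
/-- the reduction of the expansion -/
def thB : intB A N →+* LaurentSeries (ResidueField A) :=
  (redL A).comp (((expK K N).toRingHom.comp (intB A N).subtype).codRestrict (intL A) exp_memB)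

theorem thB_apply (f : intB A N) : thB A N f = redL A ⟨expK K N f, exp_memB f⟩ := rfl

variable (A N) in
/-- constants -/
def cB : A →+* intB A N :=
  ((algebraMap K (bigAlg K N)).comp A.subtype).codRestrict (intB A N) fun c γ => by
    have h1 : γ • (algebraMap K (bigAlg K N) (A.subtype c)) =
        algebraMap K (bigAlg K N) (A.subtype c) := rfl
    rw [RingHom.comp_apply, h1, AlgHom.commutes, Q.algebraMap_eq_C]
    exact C_mem_intL c.2

theorem coe_cB (c : A) : ((cB A N c : intB A N) : bigAlg K N) = algebraMap K _ (c : K) := rfl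

variable (A N) in
/-- `j` -/
def jBB : intB A N := ⟨jF K N, fun γ => by
  rw [smul_jF, expK_jF, qExpand_mem_intL_iff]
  exact jqModC_mem_intL⟩

theorem coe_jBB : ((jBB A N : intB A N) : bigAlg K N) = jF K N := rfl

variable (A N) in
/-- polynomials in `j` over `A` -/
def evJ : A[X] →+* intB A N := Polynomial.eval₂RingHom (cB A N) (jBB A N)

theorem evJ_C (c : A) : evJ A N (Polynomial.C c) = cB A N c := Polynomial.eval₂_C _ _

theorem evJ_X : evJ A N Polynomial.X = jBB A N := Polynomial.eval₂_X _ _

theorem coe_evJ (P : A[X]) : ((evJ A N P : intB A N) : bigAlg K N) =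
    Polynomial.aeval (jF K N) (P.map A.subtype) := by
  have h : (intB A N).subtype.comp (evJ A N) =
      (Polynomial.aeval (jF K N)).toRingHom.comp (Polynomial.mapRingHom A.subtype) := by
    apply Polynomial.ringHom_ext
    · intro c
      simp [evJ_C, coe_cB]
    · simp [evJ_X, coe_jBB]
  exact congrArg (fun f => f P) h

theorem smul_cB (γ : SL(2, ℤ)) (c : A) : γ • cB A N c = cB A N c := rfl

theorem smul_jBB (γ : SL(2, ℤ)) : γ • jBB A N = jBB A N := Subtype.ext (smul_jF γ)

theorem smul_evJ (γ : SL(2, ℤ)) (P : A[X]) : γ • evJ A N P = evJ A N P := by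
  have h : (MulSemiringAction.toRingHom SL(2, ℤ) (intB A N) γ).comp (evJ A N) = evJ A N := by
    apply Polynomial.ringHom_ext
    · intro c
      show γ • evJ A N (Polynomial.C c) = _
      rw [evJ_C, smul_cB]
    · show γ • evJ A N Polynomial.X = _
      rw [evJ_X, smul_jBB]
  exact congrArg (fun f => f P) h

theorem thB_cB (c : A) : thB A N (cB A N c) = algebraMap _ _ (residue A c) := by
  rw [thB_apply, Q.algebraMap_eq_C]
  have h1 : expK K N (cB A N c : intB A N) = HahnSeries.C (c : K) := by
    rw [coe_cB, AlgHom.commutes, Q.algebraMap_eq_C]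
  have h2 := redL_C (A := A) c.2
  rw [← h2]
  congr 1
  exact Subtype.ext h1

theorem thB_jBB : thB A N (jBB A N) = qExpand (ResidueField A) N (jqModC (ResidueField A)) := by
  rw [thB_apply, ← redL_jqModC, ← redL_qExpand N jqModC_mem_intL
    ((qExpand_mem_intL_iff N).mpr jqModC_mem_intL)]
  congr 1
  exact Subtype.ext expK_jF

theorem thB_evJ (P : A[X]) : thB A N (evJ A N P) =
    Polynomial.aeval (qExpand (ResidueField A) N (jqModC (ResidueField A)))
      (P.map (residue A)) := by
  have h : (thB A N).comp (evJ A N) = (Polynomial.aeval (R := ResidueField A)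
      (qExpand (ResidueField A) N (jqModC (ResidueField A)))).toRingHom.comp
        (Polynomial.mapRingHom (residue A)) := by
    apply Polynomial.ringHom_ext
    · intro c
      rw [RingHom.comp_apply, evJ_C, thB_cB]
      simp
    · rw [RingHom.comp_apply, evJ_X, thB_jBB]
      simp
  exact congrArg (fun f => f P) h

theorem transcendental_J (k : Type*) [Field k] (N : ℕ) [NeZero N] :
    Transcendental k (qExpand k N (jqModC k)) := by
  have h1 : Transcendental k (jqModC k) := H05.transcendental_j k
  rw [transcendental_iff] at h1 ⊢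
  intro P hP
  apply h1
  have h2 := Polynomial.aeval_algHom_apply (qX k N) (jqModC k) P
  change Polynomial.aeval (qExpand k N (jqModC k)) P = qExpand k N _ at h2
  rw [hP] at h2
  exact (map_eq_zero_iff _ (qExpand k N).injective).mp h2.symm

theorem thB_evJ_eq_zero {P : A[X]} : thB A N (evJ A N P) = 0 ↔ P.map (residue A) = 0 := by
  rw [thB_evJ]
  constructor
  · exact fun h => (transcendental_iff.mp (transcendental_J (ResidueField A) N)) _ h
  · intro h; rw [h, map_zero]

/-- invariants -/
theorem exists_evJ {f : intB A N} (hf : ∀ γ : SL(2, ℤ), γ • f = f) :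
    ∃ P : A[X], evJ A N P = f := by
  obtain ⟨P, hP⟩ := exists_poly (f := (f : bigAlg K N)) fun γ => congrArg Subtype.val (hf γ)
  by_cases hP0 : P = 0
  · refine ⟨0, Subtype.ext ?_⟩
    rw [hP, hP0, map_zero, map_zero]
    rfl
  obtain ⟨c, hc, R, hR, i, hR0⟩ := H29.exists_scale_poly (residue A) (fun _ : Unit => P)
    ⟨(), hP0⟩
  have hQ1 : P = Polynomial.C c * (R ()).map (algebraMap A K) := hR ()
  have hval : (f : bigAlg K N) = algebraMap K (bigAlg K N) c * (evJ A N (R ()) : intB A N) := by
    rw [hP, hQ1, map_mul, Polynomial.aeval_C, coe_evJ]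
    rfl
  have hcA : c ∈ A := by
    apply mem_of_C_mul_mem (exp_memB (evJ A N (R ())))
    · change thB A N (evJ A N (R ())) ≠ 0
      rw [Ne, thB_evJ_eq_zero]
      exact hR0
    · have := exp_memB f
      rwa [hval, map_mul, AlgHom.commutes, Q.algebraMap_eq_C] at this
  refine ⟨Polynomial.C ⟨c, hcA⟩ * R (), Subtype.ext ?_⟩
  rw [map_mul, evJ_C, hval]
  rfl

end Def

/-! ### Finite groups of automorphisms -/

section Grp

variable {K : Type*} [Field K] [Algebra K ℂ] {A : ValuationSubring K} {N : ℕ} [NeZero N]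

variable (A N) in
/-- the action as a homomorphism -/
def autB : SL(2, ℤ) →* RingAut (intB A N) := MulSemiringAction.toRingAut SL(2, ℤ) (intB A N)

theorem autB_apply (γ : SL(2, ℤ)) (f : intB A N) : autB A N γ f = γ • f := rfl

theorem autB_eq_one {γ : SL(2, ℤ)} (hγ : γ ∈ CongruenceSubgroup.Gamma N) : autB A N γ = 1 := by
  apply RingEquiv.ext
  intro f
  exact Subtype.ext (Subtype.ext (tr_eq_self_of_mem f.1.2 (inv_mem hγ)))

variable (A) in
/-- the image of a subgroup of `SL₂(ℤ)` -/
def GB (Γ : Subgroup SL(2, ℤ)) : Subgroup (RingAut (intB A N)) := Γ.map (autB A N)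

instance finite_range : Finite (autB A N).range := by
  have h1 : CongruenceSubgroup.Gamma N ≤ (autB A N).ker := fun γ hγ => autB_eq_one hγ
  have h2 : (autB A N).ker.FiniteIndex := Subgroup.finiteIndex_of_le h1
  exact Finite.of_equiv _ (QuotientGroup.quotientKerEquivRange (autB A N)).toEquiv

instance finite_GB (Γ : Subgroup SL(2, ℤ)) : Finite (GB A Γ : Subgroup (RingAut (intB A N))) := by
  have h : GB A Γ ≤ (autB A N).range := by
    rintro _ ⟨γ, -, rfl⟩; exact ⟨γ, rfl⟩
  exact Finite.of_injective (Subgroup.inclusion h) (Subgroup.inclusion_injective h)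

/-- polynomials acting on `intB` -/
@[reducible] def algPolyB : Algebra A[X] (intB A N) := (evJ A N).toAlgebra

theorem isInt_intB (f : intB A N) : (evJ A N).IsIntegralElem f := by
  letI : Algebra A[X] (intB A N) := algPolyB
  haveI : Algebra.IsInvariant A[X] (intB A N) (GB A (⊤ : Subgroup SL(2, ℤ)) :
      Subgroup (RingAut (intB A N))) := ⟨fun f hf => by
    obtain ⟨P, hP⟩ := exists_evJ (f := f) fun γ => hf ⟨_, γ, trivial, rfl⟩
    exact ⟨P, hP⟩⟩
  exact (Algebra.IsInvariant.isIntegral A[X] (intB A N)
    (GB A (⊤ : Subgroup SL(2, ℤ)) : Subgroup (RingAut (intB A N)))).isIntegral f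

end Grp

end Fermat.Agent.H18J
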