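import Fermat.Agent.H18J.FK
import Fermat.Agent.H02G.Pm

set_option autoImplicit false
set_option linter.unusedSectionVars false

/-!
# The kernel of `SL₂(ℤ) → Gal(MF K N / K(j))` is `±Γ(N)`; degrees of function fields

-/

noncomputable section

open UpperHalfPlane hiding I
open ModularForm EisensteinSeries Filter Complex Topology Function CongruenceSubgroup
open scoped MatrixGroups Manifold Real Polynomial IntermediateField

namespace Fermat.Agent.H18J

open Fermat.Agent.H02
open Fermat.Agent.H02G (pm mem_pm le_pm neg_mem_pm)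
open Fermat.Agent.H18 (jfun theta theta_injective isExp_fun_unique isExp_jfun theta_jqModC
  theta_qExpand isExp_aeval jfun_surjective ratFuncAlgebra ratFuncAlgebra_tower ratFuncAlgebra_X
  rhoPt)
open Fermat.Agent.Igusa (IsExp scl lin coe_scl coe_lin)
open ModularCurve (coeffMap qExpand jqModC)

theorem tr_neg_eq (γ : SL(2, ℤ)) (f : ℍ → ℂ) : tr (-γ) f = tr γ f := by
  ext z
  rw [tr_apply, tr_apply, ModularGroup.SL_neg_smul]

section Ker

variable {K : Type*} [Field K] [Algebra K ℂ] {N : ℕ} [NeZero N]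

theorem rho_neg (γ : SL(2, ℤ)) : rho K N (-γ) = rho K N γ := by
  ext x
  rw [rho_apply, rho_apply]
  congr 1
  apply Subtype.ext
  ext f : 1
  apply Subtype.ext
  show tr (-γ)⁻¹ (f : ℍ → ℂ) = tr γ⁻¹ f
  rw [inv_neg, tr_neg_eq]

theorem smul_eq_of_rho_eq_one {γ : SL(2, ℤ)} (h : rho K N γ = 1) (f : bigAlg K N) : γ • f = f := by
  have h1 := rho_algebraMap γ f
  rw [h] at h1
  exact (IsFractionRing.injective (bigAlg K N) (MF K N) h1).symm

theorem tr_eq_of_rho_eq_one {γ : SL(2, ℤ)} (h : rho K N γ = 1) (f : bigAlg K N) :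
    tr γ (f : ℍ → ℂ) = f := by
  have h1 : rho K N γ⁻¹ = 1 := by rw [map_inv, h, inv_one]
  have := congrArg Subtype.val (smul_eq_of_rho_eq_one h1 f)
  rwa [coe_smul, inv_inv] at this

variable [IsAlgClosed K]

theorem Gamma_le_Gamma0 : CongruenceSubgroup.Gamma N ≤ Gamma0 N := fun γ hγ => by
  rw [Gamma_mem] at hγ
  rw [Gamma0_mem]
  exact hγ.2.2.1

theorem jN_mem_bigAlg {d : ℕ} (hd : d ∣ N) : jN d ∈ bigAlg K N := by
  have : NeZero d := ⟨fun h => NeZero.ne N (by rwa [h, zero_dvd_iff] at hd)⟩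
  refine mem_bigAlg (modAlg_mono (Gamma_le_Gamma0.trans (Gamma0_le_of_dvd hd))
    (jN_mem_modAlg (NeZero.pos d))) (F := qExpand K N (qExpand K d (jqModC K))) ?_
  rw [theta_qExpand, theta_qExpand, theta_jqModC]
  exact (Igusa.isExp_qExpand_iff N).mpr H18.isExp_jN

theorem hfun_mem_bigAlg {m : ZMod N} (hm : m ≠ 0) : hfun N m ∈ bigAlg K N := by
  refine mem_bigAlg ⟨isSlow_hfun m, fun γ hγ => ?_⟩ (F := qExpand K N (hS K N m)) ?_
  · rw [tr_hfun (Gamma_le_Gamma0 hγ), (Gamma_mem.mp hγ).1, mul_one]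
  · rw [theta_qExpand, coeffMap_hS]
    exact (Igusa.isExp_qExpand_iff N).mpr (isExp_hfun hm)

theorem mem_Gamma0_of_rho_eq_one {γ : SL(2, ℤ)} (h : rho K N γ = 1) : γ ∈ Gamma0 N :=
  mem_Gamma0_of_tr_jN (NeZero.pos N) (tr_eq_of_rho_eq_one h ⟨jN N, jN_mem_bigAlg dvd_rfl⟩)

theorem conj_mem_Gamma0_of_rho_eq_one {γ : SL(2, ℤ)} (h : rho K N γ = 1) (δ : SL(2, ℤ)) :
    δ * γ * δ⁻¹ ∈ Gamma0 N := by
  apply mem_Gamma0_of_rho_eq_one (K := K)
  rw [map_mul, map_mul, h, mul_one, ← map_mul, mul_inv_cancel, map_one]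

theorem scalar_of_rho_eq_one {γ : SL(2, ℤ)} (h : rho K N γ = 1) :
    ((γ 1 0 : ℤ) : ZMod N) = 0 ∧ ((γ 0 1 : ℤ) : ZMod N) = 0 ∧
      ((γ 0 0 : ℤ) : ZMod N) = ((γ 1 1 : ℤ) : ZMod N) := by
  have hS : ∀ {γ : SL(2, ℤ)}, rho K N γ = 1 → ((γ 0 1 : ℤ) : ZMod N) = 0 := by
    intro γ h
    have h1 := conj_mem_Gamma0_of_rho_eq_one h ModularGroup.S
    rw [Gamma0_mem] at h1
    have h2 : (ModularGroup.S * γ * ModularGroup.S⁻¹ : SL(2, ℤ)) 1 0 = -γ 0 1 := by
      simp [Matrix.SpecialLinearGroup.coe_mul, Matrix.mul_apply, Fin.sum_univ_two,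
        ModularGroup.S, Matrix.SpecialLinearGroup.coe_inv, Matrix.adjugate_fin_two,
        Matrix.vecMul, dotProduct]
    rw [h2, Int.cast_neg, neg_eq_zero] at h1
    exact h1
  have h0 := Gamma0_mem.mp (mem_Gamma0_of_rho_eq_one h)
  refine ⟨h0, hS h, ?_⟩
  have h1 : rho K N (ModularGroup.T * γ * ModularGroup.T⁻¹) = 1 := by
    rw [map_mul, map_mul, h, mul_one, ← map_mul, mul_inv_cancel, map_one]
  have h2 := hS h1
  have h3 : (ModularGroup.T * γ * ModularGroup.T⁻¹ : SL(2, ℤ)) 0 1 =
      -(γ 0 0 + γ 1 0) + (γ 0 1 + γ 1 1) := by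
    simp [Matrix.SpecialLinearGroup.coe_mul, Matrix.mul_apply, Fin.sum_univ_two,
      ModularGroup.T, Matrix.SpecialLinearGroup.coe_inv, Matrix.adjugate_fin_two,
      Matrix.vecMul, dotProduct]
  rw [h3] at h2
  push_cast at h2
  rw [h0, hS h] at h2
  linear_combination -h2

theorem unit_ne_neg {d : ZMod N} (hd : IsUnit d) (h1 : (1 : ZMod N) ≠ -1) : d ≠ -d := by
  obtain ⟨u, rfl⟩ := hd
  intro h
  apply h1
  have := congrArg (fun x => ((u⁻¹ : (ZMod N)ˣ) : ZMod N) * x) h
  simpa using this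

theorem one_eq_neg_one_imp {d : ZMod N} (hd : IsUnit d) (h1 : (1 : ZMod N) = -1) : d = 1 := by
  have h2 : ((2 : ℕ) : ZMod N) = 0 := by
    push_cast
    linear_combination h1
  rw [ZMod.natCast_eq_zero_iff] at h2
  have h3 : N = 1 ∨ N = 2 := (Nat.dvd_prime Nat.prime_two).mp h2
  rcases h3 with h3 | h3 <;> subst h3
  · exact Subsingleton.elim _ _
  · revert hd
    revert d
    decide

theorem isUnit_of_det (γ : SL(2, ℤ)) (h : ((γ 1 0 : ℤ) : ZMod N) = 0) :
    IsUnit ((γ 1 1 : ℤ) : ZMod N) ∧ ((γ 0 0 : ℤ) : ZMod N) * ((γ 1 1 : ℤ) : ZMod N) = 1 := by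
  have hdet : γ 0 0 * γ 1 1 - γ 0 1 * γ 1 0 = 1 := by
    have := γ.2
    rwa [Matrix.det_fin_two] at this
  have h2 := congrArg (fun n : ℤ => (n : ZMod N)) hdet
  push_cast at h2
  rw [h, mul_zero, sub_zero] at h2
  exact ⟨IsUnit.of_mul_eq_one _ (by rw [mul_comm]; exact h2), h2⟩

/-- **The kernel of `ρ` is `±Γ(N)`.** -/
theorem rho_eq_one_iff {γ : SL(2, ℤ)} :
    rho K N γ = 1 ↔ γ ∈ pm (CongruenceSubgroup.Gamma N) := by
  constructor
  · intro h
    obtain ⟨h10, h01, h00⟩ := scalar_of_rho_eq_one h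
    obtain ⟨hu, hmul⟩ := isUnit_of_det γ h10
    have key : ((γ 1 1 : ℤ) : ZMod N) = 1 ∨ ((γ 1 1 : ℤ) : ZMod N) = -1 := by
      by_cases h1 : (1 : ZMod N) = -1
      · exact Or.inl (one_eq_neg_one_imp hu h1)
      · have hne : (1 : ZMod N) ≠ 0 := fun h0 => h1 (by
          have : ∀ x : ZMod N, x = 0 := fun x => by rw [← mul_one x, h0, mul_zero]
          exact (this 1).trans (this (-1)).symm)
        have hne' : ((γ 0 0 : ℤ) : ZMod N) ≠ 0 := fun h0 => by
          rw [h0, zero_mul] at hmul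
          exact hne hmul.symm
        have h2 := tr_eq_of_rho_eq_one h ⟨hfun N 1, hfun_mem_bigAlg hne⟩
        change tr γ (hfun N 1) = hfun N 1 at h2
        rw [tr_hfun (mem_Gamma0_of_rho_eq_one h), one_mul] at h2
        have h3 := isExp_hfun hne'
        rw [h2] at h3
        have h4 := h3.unique one_pos (isExp_hfun hne)
        rw [h00] at h4
        rcases hS_injective ℂ (unit_ne_neg hu h1) h1 h4 with h5 | h5
        · exact Or.inl h5
        · exact Or.inr h5
    rcases key with h1 | h1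
    · left
      rw [Gamma_mem]
      exact ⟨h00.trans h1, h01, h10, h1⟩
    · right
      rw [Gamma_mem]
      simp only [Matrix.SpecialLinearGroup.coe_neg, Matrix.neg_apply, Int.cast_neg]
      rw [h00, h01, h10, h1]
      simp
  · rintro (h | h)
    · exact rho_eq_one_of_mem h
    · rw [← rho_neg]
      exact rho_eq_one_of_mem h

variable {Γ : Subgroup SL(2, ℤ)} [IsLevel N Γ]

/-- The stabiliser of the function field. -/
theorem mem_pm_iff {γ : SL(2, ℤ)} :
    γ ∈ pm Γ ↔ ∀ x : FK K Γ, rho K N γ (embF K N Γ x) = embF K N Γ x := by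
  constructor
  · rintro (h | h) x
    · exact rho_embF_of_mem h x
    · rw [← rho_neg]
      exact rho_embF_of_mem h x
  · intro h
    have hfix : IntermediateField.fixedField (Γ.map (rho K N)) ≤
        IntermediateField.fixedField (Subgroup.zpowers (rho K N γ)) := by
      intro y hy
      rw [IntermediateField.mem_fixedField_iff] at hy ⊢
      obtain ⟨x, rfl⟩ := exists_embF_eq (Γ := Γ) y fun δ hδ => hy _ ⟨δ, hδ, rfl⟩
      intro g hg
      have h1 : Subgroup.zpowers (rho K N γ) ≤ MulAction.stabilizer _ (embF K N Γ x) := by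
        rw [Subgroup.zpowers_le]
        exact h x
      exact h1 hg
    have h2 := (IntermediateField.le_iff_le (Subgroup.zpowers (rho K N γ))
      (IntermediateField.fixedField (Γ.map (rho K N)))).mp hfix
    rw [IntermediateField.fixingSubgroup_fixedField, Subgroup.zpowers_le] at h2
    obtain ⟨δ, hδ, h3⟩ := h2
    have h4 : rho K N (δ⁻¹ * γ) = 1 := by
      rw [map_mul, map_inv, h3, inv_mul_cancel]
    rw [rho_eq_one_iff] at h4
    have h5 : γ = δ * (δ⁻¹ * γ) := by group
    rw [h5]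
    refine mul_mem (le_pm hδ) ?_
    rcases h4 with h4 | h4
    · exact Or.inl (IsLevel.gamma_le h4)
    · exact Or.inr (IsLevel.gamma_le h4)

end Ker

/-! ### Degree -/

section Trans

variable (K : Type*) [Field K] [Algebra K ℂ]

theorem transcendental_jqModC : Transcendental K (jqModC K) := by
  have h1 := transcendental_jF (K := K) (N := 1)
  intro h
  apply h1
  have h2 : expK K 1 (jF K 1) = jqModC K := by
    rw [expK_jF, ModularCurve.qExpand_one_apply]
  rw [← h2] at h
  obtain ⟨P, hP, hPj⟩ := h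
  refine ⟨P, hP, expK_injective ?_⟩
  rw [map_zero, ← hPj]
  exact (Polynomial.aeval_algHom_apply (expK K 1) (jF K 1) P).symm

variable (Γ : Subgroup SL(2, ℤ))

theorem transcendental_jK : Transcendental K (jK K Γ) := by
  have h1 := transcendental_jqModC K
  intro h
  exact h1 (h.algHom (FK K Γ).val)

@[reducible] def algFK : Algebra (RatFunc K) (FK K Γ) := ratFuncAlgebra (jK K Γ) (transcendental_jK K Γ)

attribute [local instance] algFK

instance tower_FK : IsScalarTower K (RatFunc K) (FK K Γ) :=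
  ratFuncAlgebra_tower _ (transcendental_jK K Γ)

@[simp] theorem algebraMap_X_FK : algebraMap (RatFunc K) (FK K Γ) RatFunc.X = jK K Γ :=
  ratFuncAlgebra_X _ (transcendental_jK K Γ)

end Trans

section Deg

attribute [local instance] algFK

variable (K : Type*) [Field K] [Algebra K ℂ] [IsAlgClosed K] (N : ℕ) [NeZero N]
  (Γ : Subgroup SL(2, ℤ)) [IsLevel N Γ]

/-- The algebra structure of the field of level `Γ(N)` over the function field. -/
@[reducible] def algFM : Algebra (FK K Γ) (MF K N) := (embF K N Γ).toRingHom.toAlgebra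

attribute [local instance] algFM

theorem towerKFM : IsScalarTower K (FK K Γ) (MF K N) :=
  IsScalarTower.of_algebraMap_eq fun c => ((embF K N Γ).commutes c).symm

theorem algebraMap_FM_apply (x : FK K Γ) : algebraMap (FK K Γ) (MF K N) x = embF K N Γ x := rfl

theorem towerRFM : IsScalarTower (RatFunc K) (FK K Γ) (MF K N) := by
  have := towerKFM K N Γ
  refine IsScalarTower.of_algebraMap_eq' ?_
  apply IsLocalization.ringHom_ext (nonZeroDivisors K[X])
  apply Polynomial.ringHom_ext
  · intro c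
    rw [RingHom.comp_apply, RingHom.comp_apply, RingHom.comp_apply, RatFunc.algebraMap_C,
      ← RatFunc.algebraMap_eq_C, ← IsScalarTower.algebraMap_apply K (RatFunc K) (MF K N),
      ← IsScalarTower.algebraMap_apply K (RatFunc K) (FK K Γ),
      ← IsScalarTower.algebraMap_apply K (FK K Γ) (MF K N)]
  · rw [RingHom.comp_apply, RingHom.comp_apply, RingHom.comp_apply, RatFunc.algebraMap_X,
      algebraMap_X_MF, algebraMap_X_FK, algebraMap_FM_apply, embF_jK]

include N in
theorem finite_FK : FiniteDimensional (RatFunc K) (FK K Γ) := by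
  have := towerRFM K N Γ
  exact FiniteDimensional.of_injective
    (IsScalarTower.toAlgHom (RatFunc K) (FK K Γ) (MF K N)).toLinearMap
    (IsScalarTower.toAlgHom (RatFunc K) (FK K Γ) (MF K N)).injective

theorem finite_FM : FiniteDimensional (FK K Γ) (MF K N) := by
  have := towerRFM K N Γ
  exact FiniteDimensional.right (RatFunc K) (FK K Γ) (MF K N)

include N in
theorem separable_FK : Algebra.IsSeparable (RatFunc K) (FK K Γ) := by
  have : CharZero K := (algebraMap K ℂ).charZero
  have : CharZero (RatFunc K) := charZero_of_injective_algebraMap (algebraMap K (RatFunc K)).injective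
  have := finite_FK K N Γ
  infer_instance

include N in
/-- **Degree of the function field over `K(j)`.** -/
theorem finrank_FK : Module.finrank (RatFunc K) (FK K Γ) = (pm Γ).index := by
  have := towerRFM K N Γ
  have := towerKFM K N Γ
  have := finite_FK K N Γ
  have := finite_FM K N Γ
  exact H18.finrank_eq_index (ρ := rho K N) rho_surjective
    (fun γ => mem_pm_iff (K := K) (N := N) (Γ := Γ) (γ := γ))

include N in
theorem finite_adjoin_jK : FiniteDimensional K⟮jK K Γ⟯ (FK K Γ) := by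
  have := finite_FK K N Γ
  let _ : Algebra (RatFunc K) K⟮jK K Γ⟯ :=
    (RatFunc.algEquivOfTranscendental (jK K Γ) (transcendental_jK K Γ)).toRingEquiv.toRingHom.toAlgebra
  have : IsScalarTower (RatFunc K) K⟮jK K Γ⟯ (FK K Γ) := IsScalarTower.of_algebraMap_eq fun _ => rfl
  exact FiniteDimensional.right (RatFunc K) K⟮jK K Γ⟯ (FK K Γ)

include N in
theorem finrank_adjoin_jK : Module.finrank K⟮jK K Γ⟯ (FK K Γ) = (pm Γ).index := by
  rw [← H18.ratFuncAlgebra_finrank (jK K Γ) (transcendental_jK K Γ)]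
  exact finrank_FK K N Γ

end Deg

end Fermat.Agent.H18J
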