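import Fermat.Agent.H18J.Exp
import Fermat.Agent.H18_ModEmb

set_option autoImplicit false
set_option linter.unusedSectionVars false

/-!
# The field of modular functions of level `Γ(N)` with expansions over `K`

-/

noncomputable section

open UpperHalfPlane hiding I
open ModularForm EisensteinSeries Filter Complex Topology Function CongruenceSubgroup
open scoped MatrixGroups Manifold Real Polynomial

namespace Fermat.Agent.H18J

open Fermat.Agent.H02
open Fermat.Agent.H18 (jfun theta theta_injective isExp_fun_unique isExp_jfun theta_jqModC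
  theta_qExpand isExp_aeval jfun_surjective ratFuncAlgebra ratFuncAlgebra_tower ratFuncAlgebra_X)
open Fermat.Agent.Igusa (IsExp scl lin coe_scl coe_lin)
open ModularCurve (coeffMap qExpand jqModC)

section FunAlg

variable (K : Type*) [Field K] [Algebra K ℂ] (N : ℕ) [NeZero N]

/-- Holomorphic functions on `ℍ` of moderate growth, invariant under `Γ(N)`, all of whose
conjugates have `q^{1/N}`-expansions over `K`. -/
def bigAlg : Subalgebra K (ℍ → ℂ) where
  carrier := {f | f ∈ modAlg (CongruenceSubgroup.Gamma N) ∧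
    ∀ γ : SL(2, ℤ), ∃ F : LaurentSeries K, IsExp N (tr γ f) (theta K F)}
  mul_mem' := by
    rintro f g ⟨hf, hf'⟩ ⟨hg, hg'⟩
    refine ⟨mul_mem hf hg, fun γ => ?_⟩
    obtain ⟨F, hF⟩ := hf' γ
    obtain ⟨G, hG⟩ := hg' γ
    exact ⟨F * G, by rw [map_mul]; exact hF.mul hG⟩
  add_mem' := by
    rintro f g ⟨hf, hf'⟩ ⟨hg, hg'⟩
    refine ⟨add_mem hf hg, fun γ => ?_⟩
    obtain ⟨F, hF⟩ := hf' γ
    obtain ⟨G, hG⟩ := hg' γ
    exact ⟨F + G, by rw [map_add]; exact hF.add hG⟩
  algebraMap_mem' := by
    intro r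
    refine ⟨(modAlg _).algebraMap_mem (algebraMap K ℂ r), fun γ => ⟨HahnSeries.C r, ?_⟩⟩
    have : theta K (HahnSeries.C r) = HahnSeries.C (algebraMap K ℂ r) :=
      ModularCurve.coeffMap_single _ _ _
    rw [this]
    exact IsExp.const _

variable {K N}

theorem isSlow_of_mem {f : ℍ → ℂ} (hf : f ∈ bigAlg K N) : IsSlow f := hf.1.1

theorem mdiff_of_mem {f : ℍ → ℂ} (hf : f ∈ bigAlg K N) : MDiff f := (isSlow_of_mem hf).holo

theorem tr_mem {f : ℍ → ℂ} (hf : f ∈ bigAlg K N) (γ : SL(2, ℤ)) : tr γ f ∈ bigAlg K N := by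
  refine ⟨⟨hf.1.1.tr γ, fun δ hδ => ?_⟩, fun δ => ?_⟩
  · have h1 : γ * δ * γ⁻¹ ∈ CongruenceSubgroup.Gamma N := (Gamma_normal N).conj_mem δ hδ γ
    rw [tr_tr, show γ * δ = (γ * δ * γ⁻¹) * γ by group, ← tr_tr, hf.1.2 _ h1]
  · rw [tr_tr]; exact hf.2 _

theorem tr_eq_self_of_mem {f : ℍ → ℂ} (hf : f ∈ bigAlg K N) {γ : SL(2, ℤ)}
    (hγ : γ ∈ CongruenceSubgroup.Gamma N) : tr γ f = f := hf.1.2 γ hγ

theorem mem_bigAlg_C {f : ℍ → ℂ} (hf : f ∈ modAlg (CongruenceSubgroup.Gamma N)) :
    f ∈ bigAlg ℂ N := by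
  refine ⟨hf, fun γ => ?_⟩
  have h1 : tr γ f ∈ modAlg (CongruenceSubgroup.Gamma N) := by
    refine ⟨hf.1.tr γ, fun δ hδ => ?_⟩
    have h1 : γ * δ * γ⁻¹ ∈ CongruenceSubgroup.Gamma N := (Gamma_normal N).conj_mem δ hδ γ
    rw [tr_tr, show γ * δ = (γ * δ * γ⁻¹) * γ by group, ← tr_tr, hf.2 _ h1]
  obtain ⟨F, hF⟩ := exists_isExp_of_mem h1
  refine ⟨F, ?_⟩
  have : theta ℂ F = F := by
    ext n
    rw [ModularCurve.coeffMap_coeff]
    rfl
  rwa [this]

theorem jfun_mem : jfun ∈ bigAlg K N := by
  refine ⟨jfun_mem_modAlg _, fun γ => ⟨qExpand K N (jqModC K), ?_⟩⟩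
  rw [tr_jfun, theta_qExpand, theta_jqModC]
  exact (Igusa.isExp_qExpand_iff N).mpr isExp_jfun

instance : IsDomain (bigAlg K N) := by
  have : Nontrivial (bigAlg K N) := inferInstance
  have : NoZeroDivisors (bigAlg K N) := ⟨by
    rintro ⟨f, hf⟩ ⟨g, hg⟩ h
    have h1 : f * g = 0 := congrArg Subtype.val h
    rcases (UpperHalfPlane.mul_eq_zero_iff (mdiff_of_mem hf) (mdiff_of_mem hg)).mp h1 with h | h
    · exact Or.inl (Subtype.ext h)
    · exact Or.inr (Subtype.ext h)⟩
  exact NoZeroDivisors.to_isDomain _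

theorem exists_exp {f : ℍ → ℂ} (hf : f ∈ bigAlg K N) :
    ∃ F : LaurentSeries K, IsExp N f (theta K F) := by
  have := hf.2 1
  rwa [tr_one] at this

variable (K N)

/-- The Laurent expansion in `q^{1/N}`. -/
def expK : bigAlg K N →ₐ[K] LaurentSeries K where
  toFun f := (exists_exp f.2).choose
  map_one' := theta_injective ((exists_exp (1 : bigAlg K N).2).choose_spec.unique (NeZero.pos N)
    (by rw [map_one]; exact IsExp.one))
  map_mul' f g := theta_injective ((exists_exp (f * g).2).choose_spec.unique (NeZero.pos N)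
    (by rw [map_mul]; exact (exists_exp f.2).choose_spec.mul (exists_exp g.2).choose_spec))
  map_zero' := theta_injective ((exists_exp (0 : bigAlg K N).2).choose_spec.unique (NeZero.pos N)
    (by rw [map_zero]; exact IsExp.zero))
  map_add' f g := theta_injective ((exists_exp (f + g).2).choose_spec.unique (NeZero.pos N)
    (by rw [map_add]; exact (exists_exp f.2).choose_spec.add (exists_exp g.2).choose_spec))
  commutes' r := theta_injective ((exists_exp
    (algebraMap K (bigAlg K N) r).2).choose_spec.unique (NeZero.pos N) (by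
      rw [ModularCurve.algebraMap_laurentSeries_eq_single]
      have : theta K (HahnSeries.single 0 r) = HahnSeries.C (algebraMap K ℂ r) :=
        ModularCurve.coeffMap_single _ _ _
      rw [this]
      exact IsExp.const _))

variable {K N}

theorem isExp_expK (f : bigAlg K N) : IsExp N f (theta K (expK K N f)) :=
  (exists_exp f.2).choose_spec

theorem expK_eq {f : bigAlg K N} {F : LaurentSeries K}
    (h : IsExp N f (theta K F)) : expK K N f = F :=
  theta_injective ((isExp_expK f).unique (NeZero.pos N) h)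

theorem expK_injective : Function.Injective (expK K N) := fun f g h => by
  have h1 := isExp_expK f
  rw [h] at h1
  exact Subtype.ext (isExp_fun_unique h1 (isExp_expK g))

/-! ### The action of `SL₂(ℤ)` -/

instance : MulSemiringAction SL(2, ℤ) (bigAlg K N) where
  smul γ f := ⟨tr γ⁻¹ f, tr_mem f.2 _⟩
  one_smul f := Subtype.ext (by show tr 1⁻¹ (f : ℍ → ℂ) = f; rw [inv_one, tr_one])
  mul_smul γ δ f := Subtype.ext (by
    show tr (γ * δ)⁻¹ (f : ℍ → ℂ) = tr γ⁻¹ (tr δ⁻¹ f)
    rw [tr_tr, mul_inv_rev])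
  smul_zero γ := rfl
  smul_add γ f g := rfl
  smul_one γ := rfl
  smul_mul γ f g := rfl

theorem coe_smul (γ : SL(2, ℤ)) (f : bigAlg K N) : ((γ • f : bigAlg K N) : ℍ → ℂ) = tr γ⁻¹ f := rfl

instance : SMulCommClass SL(2, ℤ) K (bigAlg K N) := ⟨fun _ _ _ => rfl⟩

variable (K N) in
/-- `j` as an element of the algebra. -/
def jF : bigAlg K N := ⟨jfun, jfun_mem⟩

@[simp] theorem coe_jF : (jF K N : ℍ → ℂ) = jfun := rfl

theorem smul_jF (γ : SL(2, ℤ)) : γ • jF K N = jF K N := Subtype.ext (tr_jfun _)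

theorem expK_jF : expK K N (jF K N) = qExpand K N (jqModC K) := by
  apply expK_eq
  rw [theta_qExpand, theta_jqModC]
  exact (Igusa.isExp_qExpand_iff N).mpr isExp_jfun

theorem coe_aeval_jF (P : K[X]) : ((Polynomial.aeval (jF K N) P : bigAlg K N) : ℍ → ℂ) =
    Polynomial.aeval jfun P :=
  (Polynomial.aeval_algHom_apply (bigAlg K N).val (jF K N) P).symm

/-- an element of `ℂ[j]` with expansion over `K` is in `K[j]` -/
theorem eq_aeval_retP {P : ℂ[X]} {F : LaurentSeries K}
    (hF : IsExp N (Polynomial.aeval jfun P) (theta K F)) :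
    Polynomial.aeval jfun P = Polynomial.aeval jfun (retP K P) := by
  have h1 : IsExp N (Polynomial.aeval jfun P) (qExpand ℂ N (Polynomial.aeval (jqModC ℂ) P)) :=
    (Igusa.isExp_qExpand_iff N).mpr (isExp_aeval P)
  have h2 := hF.unique (NeZero.pos N) h1
  have h3 : qExpand ℂ N (Polynomial.aeval (jqModC ℂ) P) =
      Polynomial.aeval (theta K (qExpand K N (jqModC K))) P := by
    rw [theta_qExpand, theta_jqModC]
    exact (Polynomial.aeval_algHom_apply (H18.qExpandK (K := ℂ) N) (jqModC ℂ) P).symm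
  have h4 := retL_aeval_mul K P (qExpand K N (jqModC K)) 1
  rw [map_one, mul_one, mul_one, ← h3, ← h2, retL_theta] at h4
  have h5 : IsExp N (Polynomial.aeval jfun (retP K P))
      (theta K (Polynomial.aeval (qExpand K N (jqModC K)) (retP K P))) := by
    have := isExp_expK (K := K) (N := N) (Polynomial.aeval (jF K N) (retP K P))
    rwa [← Polynomial.aeval_algHom_apply, expK_jF, coe_aeval_jF] at this
  rw [← h4] at h5
  exact isExp_fun_unique hF h5

theorem exists_poly {f : bigAlg K N} (hf : ∀ γ : SL(2, ℤ), γ • f = f) :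
    ∃ P : K[X], f = Polynomial.aeval (jF K N) P := by
  have hinv : ∀ γ : SL(2, ℤ), tr γ (f : ℍ → ℂ) = f := fun γ => by
    have := congrArg Subtype.val (hf γ⁻¹)
    rwa [coe_smul, inv_inv] at this
  obtain ⟨P, hP⟩ := H02.exists_poly_of_mem_top (f := f) ⟨isSlow_of_mem f.2, fun γ _ => hinv γ⟩
  have h1 := isExp_expK f
  refine ⟨retP K P, Subtype.ext ?_⟩
  rw [coe_aeval_jF]
  have h2 : (f : ℍ → ℂ) = Polynomial.aeval jfun P := hP
  rw [h2] at h1
  rw [h2]
  exact eq_aeval_retP h1

theorem transcendental_jF : Transcendental K (jF K N) := by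
  rw [transcendental_iff]
  intro P hP
  have h7 : Polynomial.aeval jfun P = 0 := by
    rw [← coe_aeval_jF (N := N), hP]
    rfl
  have h8 : P.map (algebraMap K ℂ) = 0 := by
    apply Polynomial.funext
    intro c
    obtain ⟨z, hz⟩ := jfun_surjective c
    have h9 := congrFun h7 z
    have h10 : Polynomial.aeval jfun P z = Polynomial.aeval (jfun z) P := by
      have := Polynomial.aeval_algHom_apply (Pi.evalAlgHom K (fun _ : ℍ => ℂ) z) jfun P
      exact this.symm
    rw [h10, hz] at h9
    rw [Polynomial.eval_map_algebraMap, h9]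
    simp
  exact (Polynomial.map_eq_zero _).mp h8

/-! ### The Galois group on the level of rings -/

variable (K N) in
/-- The image of `SL₂(ℤ)` in the automorphism group of the algebra. -/
def Gfin : Subgroup (bigAlg K N ≃ₐ[K] bigAlg K N) :=
  (MulSemiringAction.toAlgAut SL(2, ℤ) K (bigAlg K N)).range

theorem toAlgAut_eq_one {γ : SL(2, ℤ)} (hγ : γ ∈ CongruenceSubgroup.Gamma N) :
    MulSemiringAction.toAlgAut SL(2, ℤ) K (bigAlg K N) γ = 1 := by
  ext f : 1
  exact Subtype.ext (tr_eq_self_of_mem f.2 (inv_mem hγ))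

instance : Finite (Gfin K N) := by
  have h1 : CongruenceSubgroup.Gamma N ≤
      (MulSemiringAction.toAlgAut SL(2, ℤ) K (bigAlg K N)).ker := fun γ hγ =>
    toAlgAut_eq_one hγ
  have h2 : (MulSemiringAction.toAlgAut SL(2, ℤ) K (bigAlg K N)).ker.FiniteIndex :=
    Subgroup.finiteIndex_of_le h1
  exact Finite.of_equiv _
    (QuotientGroup.quotientKerEquivRange (MulSemiringAction.toAlgAut SL(2, ℤ) K (bigAlg K N))).toEquiv

instance instAlgPoly : Algebra K[X] (bigAlg K N) :=
  (Polynomial.aeval (jF K N)).toRingHom.toAlgebra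

theorem algebraMap_poly (P : K[X]) :
    algebraMap K[X] (bigAlg K N) P = Polynomial.aeval (jF K N) P := rfl

instance instIsGaloisGroup_fin : IsGaloisGroup (Gfin K N) K[X] (bigAlg K N) where
  faithful := inferInstance
  commutes := ⟨by
    rintro ⟨_, γ, rfl⟩ P f
    rw [Algebra.smul_def, Algebra.smul_def, smul_mul']
    congr 1
    rw [algebraMap_poly]
    show (MulSemiringAction.toAlgAut SL(2, ℤ) K (bigAlg K N) γ) _ = _
    have := Polynomial.aeval_algHom_apply
      (MulSemiringAction.toAlgAut SL(2, ℤ) K (bigAlg K N) γ).toAlgHom (jF K N) P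
    rw [show (MulSemiringAction.toAlgAut SL(2, ℤ) K (bigAlg K N) γ).toAlgHom (jF K N) = jF K N
      from smul_jF γ] at this
    exact this.symm⟩
  isInvariant := ⟨fun f hf => by
    obtain ⟨P, hP⟩ := exists_poly (f := f) fun γ => hf ⟨_, γ, rfl⟩
    exact ⟨P, hP.symm⟩⟩

/-! ### The field -/

variable (K N) in
/-- The field of modular functions of level `Γ(N)` with expansions over `K`. -/
def MF : Type _ := FractionRing (bigAlg K N)

instance : Field (MF K N) := inferInstanceAs (Field (FractionRing (bigAlg K N)))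
instance : Algebra (bigAlg K N) (MF K N) :=
  inferInstanceAs (Algebra (bigAlg K N) (FractionRing (bigAlg K N)))
instance : IsFractionRing (bigAlg K N) (MF K N) :=
  inferInstanceAs (IsFractionRing (bigAlg K N) (FractionRing (bigAlg K N)))
instance : Algebra K (MF K N) :=
  inferInstanceAs (Algebra K (FractionRing (bigAlg K N)))
instance : IsScalarTower K (bigAlg K N) (MF K N) :=
  inferInstanceAs (IsScalarTower K (bigAlg K N) (FractionRing (bigAlg K N)))

instance : Algebra K[X] (MF K N) :=
  ((algebraMap (bigAlg K N) (MF K N)).comp (algebraMap K[X] (bigAlg K N))).toAlgebra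

instance : IsScalarTower K[X] (bigAlg K N) (MF K N) :=
  IsScalarTower.of_algebraMap_eq fun _ => rfl

variable (K N) in
/-- `j` as an element of the field. -/
def jM : MF K N := algebraMap (bigAlg K N) (MF K N) (jF K N)

theorem transcendental_jM : Transcendental K (jM K N) := by
  have := transcendental_jF (K := K) (N := N)
  rwa [jM, transcendental_algebraMap_iff (IsFractionRing.injective (bigAlg K N) (MF K N))]

instance : Algebra (RatFunc K) (MF K N) := ratFuncAlgebra (jM K N) transcendental_jM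

instance : IsScalarTower K (RatFunc K) (MF K N) := ratFuncAlgebra_tower _ transcendental_jM

@[simp] theorem algebraMap_X_MF : algebraMap (RatFunc K) (MF K N) RatFunc.X = jM K N :=
  ratFuncAlgebra_X _ transcendental_jM

instance : IsScalarTower K[X] (RatFunc K) (MF K N) := by
  refine IsScalarTower.of_algebraMap_eq fun P => ?_
  have h1 : algebraMap K[X] (MF K N) P = Polynomial.aeval (jM K N) P := by
    rw [IsScalarTower.algebraMap_apply K[X] (bigAlg K N) (MF K N), algebraMap_poly, jM]
    exact (Polynomial.aeval_algebraMap_apply (MF K N) (jF K N) P).symm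
  rw [h1, ← algebraMap_X_MF, Polynomial.aeval_algebraMap_apply]
  congr 1
  rw [← RatFunc.algebraMap_X, Polynomial.aeval_algebraMap_apply, Polynomial.aeval_X_left_apply]

instance : MulSemiringAction (Gfin K N) (MF K N) :=
  IsFractionRing.mulSemiringAction (Gfin K N) (bigAlg K N) (MF K N)

instance : SMulDistribClass (Gfin K N) (bigAlg K N) (MF K N) :=
  IsFractionRing.smulDistribClass (Gfin K N) (bigAlg K N) (MF K N)

instance : IsGaloisGroup (Gfin K N) (RatFunc K) (MF K N) :=
  IsGaloisGroup.to_isFractionRing (Gfin K N) K[X] (bigAlg K N) (RatFunc K) (MF K N)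

instance : FiniteDimensional (RatFunc K) (MF K N) :=
  IsGaloisGroup.finiteDimensional (Gfin K N) (RatFunc K) (MF K N)

instance : IsGalois (RatFunc K) (MF K N) :=
  IsGaloisGroup.isGalois (Gfin K N) (RatFunc K) (MF K N)

variable (K N) in
/-- The surjection from `SL₂(ℤ)` onto the finite group. -/
def toGfin : SL(2, ℤ) →* Gfin K N :=
  (MulSemiringAction.toAlgAut SL(2, ℤ) K (bigAlg K N)).rangeRestrict

theorem toGfin_surjective : Function.Surjective (toGfin K N) :=
  MonoidHom.rangeRestrict_surjective _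

theorem toGfin_smul (γ : SL(2, ℤ)) (f : bigAlg K N) : toGfin K N γ • f = γ • f := rfl

theorem toGfin_eq_one {γ : SL(2, ℤ)} (hγ : γ ∈ CongruenceSubgroup.Gamma N) :
    toGfin K N γ = 1 := Subtype.ext (toAlgAut_eq_one hγ)

variable (K N) in
/-- The surjection from `SL₂(ℤ)` onto the Galois group. -/
def rho : SL(2, ℤ) →* (MF K N ≃ₐ[RatFunc K] MF K N) :=
  (IsGaloisGroup.mulEquivAlgEquiv (Gfin K N) (RatFunc K) (MF K N)).toMonoidHom.comp
    (toGfin K N)

theorem rho_apply (γ : SL(2, ℤ)) (x : MF K N) :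
    rho K N γ x = toGfin K N γ • x := rfl

theorem rho_surjective : Function.Surjective (rho K N) :=
  (IsGaloisGroup.mulEquivAlgEquiv (Gfin K N) (RatFunc K) (MF K N)).surjective.comp
    toGfin_surjective

theorem rho_algebraMap (γ : SL(2, ℤ)) (f : bigAlg K N) :
    rho K N γ (algebraMap (bigAlg K N) (MF K N) f) =
      algebraMap (bigAlg K N) (MF K N) (γ • f) := by
  rw [rho_apply, ← algebraMap.coe_smul', toGfin_smul]

theorem rho_eq_one_of_mem {γ : SL(2, ℤ)} (hγ : γ ∈ CongruenceSubgroup.Gamma N) :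
    rho K N γ = 1 := by
  ext x
  rw [rho_apply, toGfin_eq_one hγ, one_smul]
  rfl

/-- Every element of the algebra is integral over `K[j]`. -/
theorem exists_monic (f : bigAlg K N) : ∃ P : K[X][X], P.Monic ∧
    Polynomial.eval₂ (Polynomial.aeval (jF K N)).toRingHom f P = 0 :=
  Algebra.IsInvariant.isIntegral K[X] (bigAlg K N) (Gfin K N) |>.isIntegral f

variable (K N) in
/-- The `q^{1/N}`-expansion on the field. -/
def expM : MF K N →ₐ[K] LaurentSeries K :=
  IsFractionRing.liftAlgHom (K := MF K N) (g := expK K N) expK_injective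

@[simp] theorem expM_algebraMap (f : bigAlg K N) :
    expM K N (algebraMap (bigAlg K N) (MF K N) f) = expK K N f :=
  IsFractionRing.lift_algebraMap (K := MF K N) (g := (expK K N).toRingHom) expK_injective f

end FunAlg

end Fermat.Agent.H18J
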