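import Fermat.Agent.H18J.Kernel
import Fermat.Agent.H18_ModDeg

set_option autoImplicit false
set_option linter.unusedSectionVars false

/-!
# The places of the field of level `Γ(N)` attached to points of `ℍ` and to `i∞`

-/

noncomputable section

open UpperHalfPlane hiding I
open ModularForm EisensteinSeries Filter Complex Topology Function CongruenceSubgroup
open scoped MatrixGroups Manifold Real Polynomial

namespace Fermat.Agent.H18J

open Fermat.Agent.H02 (tr tr_apply tr_mul tr_add tr_pow tr_tr tr_one IsSlow isSlow_const jN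
  jN_smul isSlow_jN tr_jN_of_mem tr_jfun Gamma0_le_of_dvd isSlow_jfun)
open Fermat.Agent.H18 (jfun theta theta_injective isExp_fun_unique isExp_jfun theta_jqModC
  theta_qExpand isExp_aeval jfun_surjective ratFuncAlgebra ratFuncAlgebra_tower ratFuncAlgebra_X
  DomOrd OrdData ordAt_tr place_eq_of_sign order_eq_of order_jqModC jqModC_ne_zero order_qExpand
  jfun_sub_ne_zero mdiff_jfun_sub mem_iff ord_gal' decomp mem_decomp ord_toPlace_nonneg_iff
  ordAt_pos_of_zero)
open Fermat.Agent.Igusa (IsExp jf isExp_jf scl lin coe_scl coe_lin twist zr)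
open ModularCurve (coeffMap qExpand jqModC coeffEmb jq laurentBaseChange modularFunctionFieldFull
  coeffEmb_mem_laurentBaseChange jqd_mem_full)
open Fermat.Agent.H01 (ordAt)
open AlgebraicCurve IntermediateField

/-! ### Places of `MF` -/

variable {K : Type*} [Field K] [Algebra K ℂ] [IsAlgClosed K] {N : ℕ} [NeZero N]

theorem coe_ne_zero {f : bigAlg K N} (hf : f ≠ 0) : (f : ℍ → ℂ) ≠ 0 :=
  fun h => hf (Subtype.ext h)

variable (K N) in
/-- The order at a point. -/
def ptDomOrd (τ : ℍ) : DomOrd K (bigAlg K N) where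
  g f := (ordAt τ (f : ℍ → ℂ) : ℤ)
  mul f g hf hg := by
    have := H01.ordAt_mul (mdiff_of_mem f.2) (mdiff_of_mem g.2) (coe_ne_zero hf)
      (coe_ne_zero hg) τ
    show (ordAt τ ((f : ℍ → ℂ) * g) : ℤ) = _
    rw [this]
    push_cast
    rfl
  add f g hf hg hfg := by
    have := H01.ordAt_add (mdiff_of_mem f.2) (mdiff_of_mem g.2) (coe_ne_zero hf)
      (coe_ne_zero hg) (coe_ne_zero hfg) τ
    show min (ordAt τ (f : ℍ → ℂ) : ℤ) (ordAt τ (g : ℍ → ℂ) : ℤ) ≤
      (ordAt τ ((f : ℍ → ℂ) + g) : ℤ)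
    exact_mod_cast this
  const a ha := by positivity

theorem ptDomOrd_smul (γ : SL(2, ℤ)) (τ : ℍ) (f : bigAlg K N) :
    (ptDomOrd K N τ).g (γ • f) = (ptDomOrd K N (γ⁻¹ • τ)).g f := by
  show (ordAt τ (tr γ⁻¹ f) : ℤ) = _
  rw [ordAt_tr]
  rfl

/-- `j - c` -/
def jc (K : Type*) [Field K] [Algebra K ℂ] (N : ℕ) [NeZero N] (c : K) : bigAlg K N :=
  jF K N - algebraMap K _ c

theorem coe_jc (c : K) : (jc K N c : ℍ → ℂ) = jfun - fun _ => algebraMap K ℂ c := rfl

theorem jc_ne_zero (c : K) : jc K N c ≠ 0 := fun h =>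
  jfun_sub_ne_zero (algebraMap K ℂ c) (congrArg Subtype.val h)

theorem ptDomOrd_nontriv {τ : ℍ} {c : K} (hc : jfun τ = algebraMap K ℂ c) :
    ∃ x : MF K N, x ≠ 0 ∧ (ptDomOrd K N τ).gF (MF K N) x ≠ 0 := by
  refine ⟨algebraMap (bigAlg K N) (MF K N) (jc K N c), ?_, ?_⟩
  · exact (map_ne_zero_iff _ (IsFractionRing.injective (bigAlg K N) (MF K N))).mpr
      (jc_ne_zero c)
  · rw [(ptDomOrd K N τ).gF_algebraMap (jc_ne_zero c)]
    have := ordAt_pos_of_zero (mdiff_jfun_sub (algebraMap K ℂ c)) (jfun_sub_ne_zero _) (τ := τ)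
      (by simp [hc])
    show (ordAt τ (jc K N c : ℍ → ℂ) : ℤ) ≠ 0
    rw [coe_jc]
    omega

variable (N) in
/-- The order data at a point. -/
def ptOrd {τ : ℍ} {c : K} (hc : jfun τ = algebraMap K ℂ c) : OrdData K (MF K N) :=
  (ptDomOrd K N τ).toOrdData (MF K N) (ptDomOrd_nontriv hc)

theorem ptOrd_g {τ : ℍ} {c : K} (hc : jfun τ = algebraMap K ℂ c) (x : MF K N) :
    (ptOrd N hc).g x = (ptDomOrd K N τ).gF (MF K N) x := rfl

/-- The place attached to a point. -/
def ptPlace {τ : ℍ} {c : K} (hc : jfun τ = algebraMap K ℂ c) : Place K (MF K N) :=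
  (ptOrd N hc).toPlace

theorem ord_ptPlace_nonneg_iff {τ : ℍ} {c : K} (hc : jfun τ = algebraMap K ℂ c)
    {x : MF K N} (hx : x ≠ 0) :
    0 ≤ (ptPlace hc).ord x ↔ 0 ≤ (ptDomOrd K N τ).gF (MF K N) x := by
  rw [← ptOrd_g hc, (ptOrd N hc).g_eq_idx_mul_ord hx]
  have := (ptOrd N hc).idx_pos
  constructor
  · intro h; positivity
  · intro h
    by_contra hneg
    push Not at hneg
    have h2 := mul_neg_of_pos_of_neg (by exact_mod_cast this : (0 : ℤ) < (ptOrd N hc).idx) hneg
    exact absurd h (not_le.mpr h2)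

theorem gF_rho (γ : SL(2, ℤ)) (τ : ℍ) {x : MF K N} (hx : x ≠ 0) :
    (ptDomOrd K N τ).gF (MF K N) (rho K N γ x) =
      (ptDomOrd K N (γ⁻¹ • τ)).gF (MF K N) x := by
  obtain ⟨a, b, ha, hb, rfl⟩ := DomOrd.exists_rep' (B := bigAlg K N) hx
  have ha' : γ • a ≠ 0 := fun h => ha (by simpa using congrArg (fun y => γ⁻¹ • y) h)
  have hb' : γ • b ≠ 0 := fun h => hb (by simpa using congrArg (fun y => γ⁻¹ • y) h)
  rw [map_div₀, rho_algebraMap, rho_algebraMap, DomOrd.gF_div _ ha' hb', DomOrd.gF_div _ ha hb,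
    ptDomOrd_smul, ptDomOrd_smul]

theorem smul_ptPlace (γ : SL(2, ℤ)) {τ : ℍ} {c : K} (hc : jfun τ = algebraMap K ℂ c)
    (hc' : jfun (γ • τ) = algebraMap K ℂ c) :
    (rho K N γ).restrictScalars K • ptPlace (N := N) hc = ptPlace hc' := by
  apply place_eq_of_sign
  intro x hx
  have hx' : (rho K N γ)⁻¹ x ≠ 0 := (map_ne_zero _).mpr hx
  rw [ord_gal', ord_ptPlace_nonneg_iff hc hx', ord_ptPlace_nonneg_iff hc' hx, ← map_inv]
  rw [gF_rho _ _ hx, inv_inv]

theorem rho_mem_decomp {γ : SL(2, ℤ)} {τ : ℍ} {c : K} (hc : jfun τ = algebraMap K ℂ c)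
    (hγ : γ • τ = τ) : rho K N γ ∈ decomp (E := RatFunc K) (ptPlace (N := N) hc) := by
  rw [mem_decomp, smul_ptPlace γ hc (by rw [hγ, hc])]
  simp only [hγ]

/-! ### The place at infinity -/

variable (K N) in
/-- The order at `i∞`, with respect to `q^{1/N}`. -/
def infDomOrd : DomOrd K (bigAlg K N) where
  g f := (expK K N f).order
  mul f g hf hg := by
    rw [map_mul, HahnSeries.order_mul]
    · exact (map_ne_zero_iff _ expK_injective).mpr hf
    · exact (map_ne_zero_iff _ expK_injective).mpr hg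
  add f g hf hg hfg := by
    rw [map_add]
    refine HahnSeries.min_order_le_order_add ?_
    rw [← map_add]
    exact (map_ne_zero_iff _ expK_injective).mpr hfg
  const a ha := by
    rw [AlgHom.commutes, ModularCurve.algebraMap_laurentSeries_eq_single,
      HahnSeries.order_single ha]

theorem order_expK_smul_T (f : bigAlg K N) :
    (expK K N (ModularGroup.T • f)).order = (expK K N f).order := by
  have h1 := isExp_expK f
  have h2 : IsExp N ((ModularGroup.T • f : bigAlg K N) : ℍ → ℂ)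
      (twist (zr N ^ (-1 : ℤ)) (theta K (expK K N f))) := by
    intro τ
    have h3 := h1 (ModularGroup.T⁻¹ • τ)
    have h4 : Function.Periodic.qParam (N : ℝ) ((ModularGroup.T⁻¹ • τ : ℍ) : ℂ) =
        ((zr N ^ (-1 : ℤ) : ℂˣ) : ℂ) * Function.Periodic.qParam (N : ℝ) (τ : ℂ) := by
      have h5 : ((ModularGroup.T⁻¹ • τ : ℍ) : ℂ) = τ + (-1 : ℤ) := by
        rw [← zpow_neg_one, UpperHalfPlane.modular_T_zpow_smul]
        simp [add_comm]
      have h6 : (N : ℂ) ≠ 0 := by exact_mod_cast NeZero.ne N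
      rw [h5, Function.Periodic.qParam, Function.Periodic.qParam, Units.val_zpow_eq_zpow_val, zr,
        Units.val_mk0, ← Complex.exp_int_mul, ← Complex.exp_add]
      congr 1
      push_cast
      ring
    simp only [h4, mul_zpow] at h3
    have h7 : ((ModularGroup.T • f : bigAlg K N) : ℍ → ℂ) τ =
        (f : ℍ → ℂ) (ModularGroup.T⁻¹ • τ) := rfl
    have h8 : (fun n : ℤ => (twist (zr N ^ (-1 : ℤ)) (theta K (expK K N f))).coeff n *
        Function.Periodic.qParam (N : ℝ) (τ : ℂ) ^ n) = fun n : ℤ =>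
        (theta K (expK K N f)).coeff n * (((zr N ^ (-1 : ℤ) : ℂˣ) : ℂ) ^ n *
          Function.Periodic.qParam (N : ℝ) (τ : ℂ) ^ n) := by
      funext n
      rw [Igusa.twist_coeff, Units.val_zpow_eq_zpow_val (zr N ^ (-1 : ℤ)) n]
      ring
    rw [h7, h8]
    exact h3
  have h3 := (isExp_expK (ModularGroup.T • f)).unique (NeZero.pos N) h2
  have h4 : ∀ n, (expK K N (ModularGroup.T • f)).coeff n = 0 ↔ (expK K N f).coeff n = 0 := by
    intro n
    have h5 := congrArg (fun F => HahnSeries.coeff F n) h3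
    simp only [Igusa.twist_coeff, ModularCurve.coeffMap_coeff] at h5
    rw [← map_eq_zero (algebraMap K ℂ), h5, mul_eq_zero, map_eq_zero,
      or_iff_left (Units.ne_zero _)]
  rcases eq_or_ne (expK K N f) 0 with h0 | h0
  · have h6 : expK K N (ModularGroup.T • f) = 0 := by
      ext n
      rw [HahnSeries.coeff_zero, h4, h0, HahnSeries.coeff_zero]
    rw [h0, h6]
  · have h6 : expK K N (ModularGroup.T • f) ≠ 0 := by
      intro h7
      apply h0
      ext n
      rw [HahnSeries.coeff_zero, ← h4, h7, HahnSeries.coeff_zero]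
    apply le_antisymm
    · apply HahnSeries.order_le_of_coeff_ne_zero
      rw [Ne, h4]
      exact fun h => (HahnSeries.coeff_order_eq_zero.not.mpr h0) h
    · apply HahnSeries.order_le_of_coeff_ne_zero
      rw [Ne, ← h4]
      exact fun h => (HahnSeries.coeff_order_eq_zero.not.mpr h6) h

theorem jF_ne_zero : jF K N ≠ 0 := fun h => by
  have h1 := expK_jF (K := K) (N := N)
  rw [h, map_zero] at h1
  have h2 := ModularCurve.qExpand_injective N (h1.symm.trans (map_zero _).symm)
  exact jqModC_ne_zero h2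

theorem infDomOrd_jF : (infDomOrd K N).g (jF K N) = -N := by
  show (expK K N (jF K N)).order = -N
  rw [expK_jF, order_qExpand N jqModC_ne_zero, order_jqModC]
  ring

variable (K N) in
/-- The order data at `i∞`. -/
def infOrd : OrdData K (MF K N) :=
  (infDomOrd K N).toOrdData (MF K N) ⟨jM K N, by
    rw [jM]
    exact (map_ne_zero_iff _ (IsFractionRing.injective (bigAlg K N) (MF K N))).mpr
      jF_ne_zero, by
    rw [jM, DomOrd.gF_algebraMap _ jF_ne_zero, infDomOrd_jF]
    have := NeZero.pos N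
    omega⟩

variable (K N) in
/-- The place at `i∞`. -/
def infPl : Place K (MF K N) := (infOrd K N).toPlace

theorem g_infOrd_jM : (infOrd K N).g (jM K N) = -N := by
  show (infDomOrd K N).gF (MF K N) (jM K N) = _
  rw [jM, DomOrd.gF_algebraMap _ jF_ne_zero, infDomOrd_jF]

theorem gF_inf_rho_T {x : MF K N} (hx : x ≠ 0) :
    (infDomOrd K N).gF (MF K N) (rho K N ModularGroup.T x) =
      (infDomOrd K N).gF (MF K N) x := by
  obtain ⟨a, b, ha, hb, rfl⟩ := DomOrd.exists_rep' (B := bigAlg K N) hx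
  have ha' : ModularGroup.T • a ≠ 0 := fun h =>
    ha (by simpa using congrArg (fun y => ModularGroup.T⁻¹ • y) h)
  have hb' : ModularGroup.T • b ≠ 0 := fun h =>
    hb (by simpa using congrArg (fun y => ModularGroup.T⁻¹ • y) h)
  rw [map_div₀, rho_algebraMap, rho_algebraMap, DomOrd.gF_div _ ha' hb', DomOrd.gF_div _ ha hb]
  show (expK K N (ModularGroup.T • a)).order - (expK K N (ModularGroup.T • b)).order = _
  rw [order_expK_smul_T, order_expK_smul_T]
  rfl

theorem rho_T_mem_decomp :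
    rho K N ModularGroup.T ∈ decomp (E := RatFunc K) (infPl K N) := by
  have h1 : (rho K N ModularGroup.T)⁻¹ ∈ decomp (E := RatFunc K) (infPl K N) → 
      rho K N ModularGroup.T ∈ decomp (E := RatFunc K) (infPl K N) := fun h => by
    simpa using inv_mem h
  apply h1
  rw [mem_decomp]
  apply place_eq_of_sign
  intro x hx
  rw [ord_gal', inv_inv]
  have hx' : (rho K N ModularGroup.T) x ≠ 0 := (map_ne_zero _).mpr hx
  rw [infPl, ord_toPlace_nonneg_iff _ hx, ord_toPlace_nonneg_iff _ hx']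
  show 0 ≤ (infDomOrd K N).gF (MF K N) _ ↔ 0 ≤ (infDomOrd K N).gF (MF K N) _
  rw [gF_inf_rho_T hx]

end Fermat.Agent.H18J
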