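import Fermat.Agent.H18J.ModF
import Fermat.Agent.Descent.Inj

set_option autoImplicit false
set_option linter.unusedSectionVars false

/-!
# Conjugates of modular functions with coefficients in an algebraically closed field

-/

noncomputable section

open UpperHalfPlane hiding I
open ModularForm EisensteinSeries Filter Complex Topology Function CongruenceSubgroup
open scoped MatrixGroups Manifold Real Polynomial

namespace Fermat.Agent.H18J

open Fermat.Agent.H02
open Fermat.Agent.H18 (jfun theta theta_injective isExp_fun_unique isExp_jfun theta_jqModC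
  theta_qExpand isExp_aeval jfun_surjective ratFuncAlgebra ratFuncAlgebra_tower ratFuncAlgebra_X)
open Fermat.Agent.Igusa (IsExp scl lin coe_scl coe_lin)
open ModularCurve (coeffMap qExpand jqModC)

variable {K : Type*} [Field K] [Algebra K ℂ] {N : ℕ} [NeZero N]

variable (K) in
/-- retraction of polynomials in two variables -/
def retPP (P : ℂ[X][X]) : K[X][X] := ∑ k ∈ Finset.range (P.natDegree + 1),
  Polynomial.monomial k (retP K (P.coeff k))

theorem retPP_coeff (P : ℂ[X][X]) (i : ℕ) : (retPP K P).coeff i = retP K (P.coeff i) := by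
  rw [retPP, Polynomial.finsetSum_coeff]
  simp only [Polynomial.coeff_monomial]
  rw [Finset.sum_ite_eq' (Finset.range (P.natDegree + 1)) i]
  split_ifs with h
  · rfl
  · rw [Finset.mem_range, not_lt] at h
    rw [Polynomial.coeff_eq_zero_of_natDegree_lt (by omega)]
    ext j
    rw [retP_coeff, Polynomial.coeff_zero, Polynomial.coeff_zero, map_zero]

theorem retPP_natDegree_le (P : ℂ[X][X]) : (retPP K P).natDegree ≤ P.natDegree := by
  rw [Polynomial.natDegree_le_iff_coeff_eq_zero]
  intro k hk
  rw [retPP_coeff, Polynomial.coeff_eq_zero_of_natDegree_lt (by omega)]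
  ext j
  rw [retP_coeff, Polynomial.coeff_zero, map_zero, Polynomial.coeff_zero]

theorem retPP_monic {P : ℂ[X][X]} (hP : P.Monic) : (retPP K P).Monic :=
  Polynomial.monic_of_natDegree_le_of_coeff_eq_one _ (retPP_natDegree_le P) (by
    rw [retPP_coeff, hP.coeff_natDegree, retP_one])

theorem coe_jC (P : ℂ[X]) : IsExp N (Polynomial.aeval jfun P)
    (Polynomial.aeval (theta K (qExpand K N (jqModC K))) P) := by
  have h1 : IsExp N (Polynomial.aeval jfun P) (qExpand ℂ N (Polynomial.aeval (jqModC ℂ) P)) :=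
    (Igusa.isExp_qExpand_iff N).mpr (isExp_aeval P)
  have h3 : qExpand ℂ N (Polynomial.aeval (jqModC ℂ) P) =
      Polynomial.aeval (theta K (qExpand K N (jqModC K))) P := by
    rw [theta_qExpand, theta_jqModC]
    exact (Polynomial.aeval_algHom_apply (H18.qExpandK (K := ℂ) N) (jqModC ℂ) P).symm
  rwa [← h3]

theorem isExp_aeval_K (P : K[X]) : IsExp N (Polynomial.aeval jfun P)
    (theta K (Polynomial.aeval (qExpand K N (jqModC K)) P)) := by
  have := isExp_expK (K := K) (N := N) (Polynomial.aeval (jF K N) P)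
  rwa [← Polynomial.aeval_algHom_apply, expK_jF, coe_aeval_jF] at this

theorem isExp_finset_sum {ι : Type*} (s : Finset ι) {f : ι → ℍ → ℂ} {F : ι → LaurentSeries ℂ}
    (hf : ∀ i ∈ s, IsExp N (f i) (F i)) : IsExp N (∑ i ∈ s, f i) (∑ i ∈ s, F i) := by
  have := IsExp.sum s hf
  refine this.congr fun τ => ?_
  rw [Finset.sum_apply]

/-- A function of level `Γ(N)` with expansion over `K` satisfies a monic equation over `K[j]`. -/
theorem exists_monic_rel {f : ℍ → ℂ} (hf : f ∈ modAlg (CongruenceSubgroup.Gamma N))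
    {F : LaurentSeries K} (hF : IsExp N f (theta K F)) :
    ∃ Q : K[X][X], Q.Monic ∧
      ∑ k ∈ Finset.range (Q.natDegree + 1), Polynomial.aeval jfun (Q.coeff k) * f ^ k = 0 := by
  obtain ⟨P, hP, hP0⟩ := exists_monic (K := ℂ) (N := N) ⟨f, mem_bigAlg_C hf⟩
  have h1 : ∑ k ∈ Finset.range (P.natDegree + 1), Polynomial.aeval jfun (P.coeff k) * f ^ k = 0 := by
    rw [Polynomial.eval₂_eq_sum_range] at hP0
    have h2 := congrArg (bigAlg ℂ N).val hP0
    rw [map_sum, map_zero] at h2
    rw [← h2]
    refine Finset.sum_congr rfl fun k _ => ?_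
    rw [map_mul, map_pow]
    congr 1
    exact (coe_aeval_jF (P.coeff k)).symm
  have h2 : IsExp N (∑ k ∈ Finset.range (P.natDegree + 1),
      Polynomial.aeval jfun (P.coeff k) * f ^ k)
      (∑ k ∈ Finset.range (P.natDegree + 1),
        Polynomial.aeval (theta K (qExpand K N (jqModC K))) (P.coeff k) * theta K (F ^ k)) :=
    isExp_finset_sum _ fun k _ => (coe_jC (P.coeff k)).mul (by rw [map_pow]; exact hF.pow k)
  rw [h1] at h2
  have h3 := h2.unique (NeZero.pos N) IsExp.zero
  have h4 := congrArg (retL K) h3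
  rw [retL_sum, retL_zero] at h4
  simp only [retL_aeval_mul] at h4
  refine ⟨retPP K P, retPP_monic hP, ?_⟩
  have hdeg : (retPP K P).natDegree = P.natDegree := by
    refine le_antisymm (retPP_natDegree_le P) ?_
    by_contra hlt
    have := Polynomial.coeff_eq_zero_of_natDegree_lt (not_le.mp hlt)
    rw [retPP_coeff, hP.coeff_natDegree, retP_one] at this
    exact one_ne_zero this
  rw [hdeg]
  simp only [retPP_coeff]
  have h5 : IsExp N (∑ k ∈ Finset.range (P.natDegree + 1),
      Polynomial.aeval jfun (retP K (P.coeff k)) * f ^ k)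
      (∑ k ∈ Finset.range (P.natDegree + 1),
        theta K (Polynomial.aeval (qExpand K N (jqModC K)) (retP K (P.coeff k))) *
          theta K (F ^ k)) :=
    isExp_finset_sum _ fun k _ =>
      (isExp_aeval_K (retP K (P.coeff k))).mul (by rw [map_pow]; exact hF.pow k)
  simp only [← map_mul, ← map_sum, h4, map_zero] at h5
  exact isExp_fun_unique h5 IsExp.zero

/-- the series with coefficients in `K` are in the image of `theta` -/
theorem exists_theta_eq {z : LaurentSeries ℂ} (hc : ∀ n, z.coeff n ∈ (algebraMap K ℂ).range) :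
    ∃ z₀ : LaurentSeries K, theta K z₀ = z := by
  choose c hc using hc
  refine ⟨HahnSeries.mk c (z.isPWO_support.mono fun n hn => ?_), ?_⟩
  · rw [HahnSeries.mem_support, ← hc n]
    exact fun h => hn ((map_eq_zero _).mp h)
  · ext n
    exact hc n

/-- **The conjugates of a modular function of level `Γ(N)` with expansion over the algebraically
closed field `K` have expansions over `K`.** -/
theorem mem_bigAlg [IsAlgClosed K] {f : ℍ → ℂ} (hf : f ∈ modAlg (CongruenceSubgroup.Gamma N))
    {F : LaurentSeries K} (hF : IsExp N f (theta K F)) : f ∈ bigAlg K N := by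
  classical
  refine ⟨hf, fun γ => ?_⟩
  obtain ⟨Q, hQ, hQ0⟩ := exists_monic_rel hf hF
  obtain ⟨G, hG⟩ := exists_isExp_of_mem (N := N) (f := tr γ f) (by
    refine ⟨hf.1.tr γ, fun δ hδ => ?_⟩
    have h1 : γ * δ * γ⁻¹ ∈ CongruenceSubgroup.Gamma N := (Gamma_normal N).conj_mem δ hδ γ
    rw [tr_tr, show γ * δ = (γ * δ * γ⁻¹) * γ by group, ← tr_tr, hf.2 _ h1])
  -- the relation for the conjugate
  have h1 : ∑ k ∈ Finset.range (Q.natDegree + 1),
      Polynomial.aeval jfun (Q.coeff k) * (tr γ f) ^ k = 0 := by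
    ext z
    have h2 := congrFun hQ0 (γ • z)
    simp only [Finset.sum_apply, Pi.mul_apply, Pi.pow_apply, Pi.zero_apply] at h2 ⊢
    rw [← h2]
    refine Finset.sum_congr rfl fun k _ => ?_
    congr 1
    have h3 : ∀ w : ℍ, Polynomial.aeval jfun (Q.coeff k) w =
        Polynomial.aeval (jfun w) (Q.coeff k) := fun w =>
      (Polynomial.aeval_algHom_apply (Pi.evalAlgHom K (fun _ : ℍ => ℂ) w) jfun (Q.coeff k)).symm
    rw [h3, h3, show jfun (γ • z) = jfun z from congrFun (tr_jfun γ) z]
  set φ : K[X] →+* LaurentSeries ℂ :=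
    (theta K).comp (Polynomial.aeval (qExpand K N (jqModC K))).toRingHom with hφ
  have h2 : Polynomial.eval₂ φ G Q = 0 := by
    rw [Polynomial.eval₂_eq_sum_range]
    have h3 : IsExp N (∑ k ∈ Finset.range (Q.natDegree + 1),
      Polynomial.aeval jfun (Q.coeff k) * (tr γ f) ^ k)
      (∑ k ∈ Finset.range (Q.natDegree + 1), φ (Q.coeff k) * G ^ k) :=
      isExp_finset_sum _ fun k _ => (isExp_aeval_K (Q.coeff k)).mul (hG.pow k)
    rw [h1] at h3
    exact h3.unique (NeZero.pos N) IsExp.zero
  set R := Q.map φ with hR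
  have hR0 : R ≠ 0 := (hQ.map φ).ne_zero
  have hroot : ∀ σ : ℂ ≃ₐ[K] ℂ, coeffMap (σ : ℂ →+* ℂ) G ∈ R.roots.toFinset := by
    intro σ
    rw [Multiset.mem_toFinset, Polynomial.mem_roots hR0, Polynomial.IsRoot.def,
      Polynomial.eval_map]
    have h3 : (coeffMap (σ : ℂ →+* ℂ)).comp φ = φ := by
      refine RingHom.ext fun P => ?_
      simp only [hφ, RingHom.comp_apply]
      ext n
      rw [ModularCurve.coeffMap_coeff, ModularCurve.coeffMap_coeff]
      exact σ.commutes _
    have h4 := Polynomial.hom_eval₂ Q φ (coeffMap (σ : ℂ →+* ℂ)) G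
    rw [h2, map_zero, h3] at h4
    exact h4.symm
  have hK : CharZero K := (algebraMap K ℂ).charZero
  have hcoef : ∀ n, G.coeff n ∈ (algebraMap K ℂ).range := by
    intro n
    by_contra hn
    have htr : Transcendental K (G.coeff n) := H26.transcendental_of_notMem_range hn
    choose σ hσ using fun a : K => H26.exists_algEquiv_add htr a
    have hinj : Function.Injective fun a : K => (⟨coeffMap (σ a : ℂ →+* ℂ) G, hroot (σ a)⟩ :
        R.roots.toFinset) := by
      intro a b hab
      have h3 := congrArg (fun z : LaurentSeries ℂ => z.coeff n) (congrArg Subtype.val hab)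
      simp only [ModularCurve.coeffMap_coeff] at h3
      have h4 : σ a (G.coeff n) = σ b (G.coeff n) := h3
      rw [hσ, hσ, add_right_inj] at h4
      exact (algebraMap K ℂ).injective h4
    exact (Finite.of_injective _ hinj).false
  obtain ⟨F', hF'⟩ := exists_theta_eq hcoef
  exact ⟨F', hF'.symm ▸ hG⟩

end Fermat.Agent.H18J
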