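import Fermat.Agent.H18J.Kernel
import Fermat.Agent.H22.GamH
import Fermat.Agent.Descent.LinDisj
import Fermat.Agent.H18_ModPlace

set_option autoImplicit false
set_option linter.unusedSectionVars false

/-!
# Generators and the rational structure of the function field of `Γ_H(N)`

-/

noncomputable section

open UpperHalfPlane hiding I
open ModularForm EisensteinSeries Filter Complex Topology Function CongruenceSubgroup
open scoped MatrixGroups Manifold Real Polynomial IntermediateField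

namespace Fermat.Agent.H18J

open Fermat.Agent.H02
open Fermat.Agent.H22 (GamH dChar mem_GamH' mem_GamH GamH_le_Gamma0 dChar_val GamH_mono)
open Fermat.Agent.H26 (cEmb cEmb_mem_extend mem_of_cEmb_mem_extend)
open Fermat.Agent.H02G (pm mem_pm le_pm neg_mem_pm)
open Fermat.Agent.H18 (jfun theta theta_injective isExp_fun_unique isExp_jfun theta_jqModC
  theta_qExpand isExp_aeval jfun_surjective ratFuncAlgebra ratFuncAlgebra_tower ratFuncAlgebra_X)
open Fermat.Agent.Igusa (IsExp scl lin coe_scl coe_lin)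
open ModularCurve (coeffMap qExpand jqModC laurentBaseChange coeffEmb)

variable {N : ℕ} {H : Subgroup (ZMod N)ˣ}

instance isLevel_GamH : IsLevel N (GamH N H) where
  gamma_le γ hγ := by
    obtain ⟨-, -, h1, h2⟩ := Gamma_mem.mp hγ
    exact mem_GamH'.mpr ⟨(ZMod.intCast_zmod_eq_zero_iff_dvd _ _).mp h1, 1, one_mem _, by
      rw [h2, Units.val_one]⟩
  T_mem := mem_GamH'.mpr ⟨by simp [ModularGroup.T], 1, one_mem _, by simp [ModularGroup.T]⟩

instance isLevel_GamH' [NeZero N] : H02G.IsLevel (GamH N H) where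
  exists_level := ⟨N, NeZero.ne N, IsLevel.gamma_le⟩
  T_mem := IsLevel.T_mem N

/-! ### The norms -/

section Nrm

variable [NeZero N] (H)

/-- The elements of `H`. -/
def hFin : Finset (ZMod N)ˣ := (Set.toFinite (H : Set (ZMod N)ˣ)).toFinset

variable {H}

@[simp] theorem mem_hFin {u : (ZMod N)ˣ} : u ∈ hFin H ↔ u ∈ H := by
  simp [hFin]

variable (H)

/-- The series `∏_{u ∈ H} (j^c - h_u)`. -/
def nrm (R : Type*) [CommRing R] (c : ℕ) : LaurentSeries R :=
  ∏ u ∈ hFin H, (jqModC R ^ c - hS R N (u : ZMod N))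

/-- The function `∏_{u ∈ H} (j^c - h_u)`. -/
def nrmFun (c : ℕ) : ℍ → ℂ := ∏ u ∈ hFin H, (jfun ^ c - hfun N (u : ZMod N))

/-- Generators of the function field of `Γ_H(N)`. -/
def gens (R : Type*) [CommRing R] : Set (LaurentSeries R) :=
  {jqModC R, qExpand R N (jqModC R)} ∪ {x | N ≠ 1 ∧ ∃ c : ℕ, x = nrm H R c}

variable {H}

theorem coeffMap_nrm {R S : Type*} [CommRing R] [CommRing S] (f : R →+* S) (c : ℕ) :
    coeffMap f (nrm H R c) = nrm H S c := by
  rw [nrm, map_prod, nrm]
  refine Finset.prod_congr rfl fun u _ => ?_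
  rw [map_sub, coeffMap_hS, map_pow, ModularCurve.coeffMap_jqModC]

theorem coeffMap_gens {R S : Type*} [CommRing R] [CommRing S] (f : R →+* S) :
    coeffMap f '' gens H R = gens H S := by
  have h1 : coeffMap f (jqModC R) = jqModC S := ModularCurve.coeffMap_jqModC f
  have h2 : coeffMap f (qExpand R N (jqModC R)) = qExpand S N (jqModC S) := by
    rw [ModularCurve.coeffMap_qExpand, h1]
  apply Set.Subset.antisymm
  · rintro _ ⟨x, (rfl | rfl) | ⟨hN, c, rfl⟩, rfl⟩
    · exact Or.inl (Or.inl h1)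
    · exact Or.inl (Or.inr h2)
    · exact Or.inr ⟨hN, c, coeffMap_nrm f c⟩
  · rintro x ((rfl | rfl) | ⟨hN, c, rfl⟩)
    · exact ⟨_, Or.inl (Or.inl rfl), h1⟩
    · exact ⟨_, Or.inl (Or.inr rfl), h2⟩
    · exact ⟨_, Or.inr ⟨hN, c, rfl⟩, coeffMap_nrm f c⟩

theorem unit_ne_zero (hN : N ≠ 1) (u : (ZMod N)ˣ) : (u : ZMod N) ≠ 0 := by
  have h1 := NeZero.pos N
  have : Fact (1 < N) := ⟨by omega⟩
  exact u.ne_zero

theorem tr_prod {ι : Type*} (s : Finset ι) (γ : SL(2, ℤ)) (f : ι → ℍ → ℂ) :
    tr γ (∏ i ∈ s, f i) = ∏ i ∈ s, tr γ (f i) := by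
  ext z
  rw [tr_apply, Finset.prod_apply, Finset.prod_apply]
  rfl

theorem isSlow_prod {ι : Type*} (s : Finset ι) {f : ι → ℍ → ℂ} (hf : ∀ i ∈ s, IsSlow (f i)) :
    IsSlow (∏ i ∈ s, f i) := by
  classical
  induction s using Finset.induction_on with
  | empty =>
    rw [Finset.prod_empty]
    exact isSlow_const 1
  | insert i s hi ih =>
    rw [Finset.prod_insert hi]
    exact (hf i (Finset.mem_insert_self _ _)).mul
      (ih fun j hj => hf j (Finset.mem_insert_of_mem hj))

theorem isExp_prod {ι : Type*} (s : Finset ι) {n : ℕ} {f : ι → ℍ → ℂ} {F : ι → LaurentSeries ℂ}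
    (hf : ∀ i ∈ s, IsExp n (f i) (F i)) : IsExp n (∏ i ∈ s, f i) (∏ i ∈ s, F i) := by
  classical
  induction s using Finset.induction_on with
  | empty =>
    rw [Finset.prod_empty, Finset.prod_empty]
    exact IsExp.one
  | insert i s hi ih =>
    rw [Finset.prod_insert hi, Finset.prod_insert hi]
    exact (hf i (Finset.mem_insert_self _ _)).mul
      (ih fun j hj => hf j (Finset.mem_insert_of_mem hj))

theorem tr_factor (γ : SL(2, ℤ)) (c : ℕ) (m : ZMod N) :
    tr γ (jfun ^ c - hfun N m) = jfun ^ c - tr γ (hfun N m) := by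
  have h5 : tr γ (jfun ^ c) = jfun ^ c := by rw [tr_pow, tr_jfun]
  have h4 : tr γ (jfun ^ c - hfun N m) = tr γ (jfun ^ c) - tr γ (hfun N m) := rfl
  rw [h4, h5]

theorem tr_nrmFun {γ : SL(2, ℤ)} (hγ : γ ∈ GamH N H) (c : ℕ) : tr γ (nrmFun H c) = nrmFun H c := by
  rw [nrmFun, tr_prod]
  obtain ⟨h1, h2⟩ := mem_GamH.mp (inv_mem hγ)
  have h3 : ((dChar N ⟨γ⁻¹, h1⟩ : (ZMod N)ˣ) : ZMod N) = ((γ 0 0 : ℤ) : ZMod N) := by
    rw [dChar_val]
    simp [Matrix.SpecialLinearGroup.coe_inv, Matrix.adjugate_fin_two]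
  set δ := dChar N ⟨γ⁻¹, h1⟩ with hδ
  refine Finset.prod_bij (fun u _ => u * δ) (fun u hu => ?_) (fun u _ v _ h => ?_)
    (fun u hu => ?_) (fun u hu => ?_)
  · rw [mem_hFin] at hu ⊢
    exact mul_mem hu h2
  · exact mul_right_cancel h
  · refine ⟨u * δ⁻¹, ?_, by rw [inv_mul_cancel_right]⟩
    rw [mem_hFin] at hu ⊢
    exact mul_mem hu (inv_mem h2)
  · rw [tr_factor, tr_hfun (GamH_le_Gamma0 hγ), Units.val_mul, h3]

theorem isSlow_jfun_pow (c : ℕ) : IsSlow (jfun ^ c) :=
  (pow_mem (jfun_mem_modAlg (⊤ : Subgroup SL(2, ℤ))) c).1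

theorem nrmFun_mem (c : ℕ) : nrmFun H c ∈ modAlg (GamH N H) := by
  refine ⟨isSlow_prod _ fun u _ => ?_, fun γ hγ => tr_nrmFun hγ c⟩
  have h1 : jfun ^ c - hfun N (u : ZMod N) =
      jfun ^ c + (fun _ => (-1 : ℂ)) * hfun N (u : ZMod N) := by
    ext z
    simp [sub_eq_add_neg]
  rw [h1]
  exact (isSlow_jfun_pow c).add ((isSlow_const _).mul (isSlow_hfun _))

theorem isExp_nrmFun (hN : N ≠ 1) (c : ℕ) : IsExp 1 (nrmFun H c) (nrm H ℂ c) := by
  refine isExp_prod _ fun u _ => ?_
  exact IsExp.sub (isExp_jfun.pow c) (isExp_hfun (unit_ne_zero hN u))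

end Nrm

/-! ### Generation -/

section Gen

variable (K : Type*) [Field K] [Algebra K ℂ] [NeZero N]

theorem nrm_mem_ringS (hN : N ≠ 1) (c : ℕ) : nrm H K c ∈ ringS K (GamH N H) :=
  ⟨nrmFun H c, nrmFun_mem c, by
    have : theta K (nrm H K c) = nrm H ℂ c := coeffMap_nrm _ c
    rw [this]
    exact isExp_nrmFun hN c⟩

theorem gens_subset : gens H K ⊆ ringS K (GamH N H) := by
  rintro x ((rfl | rfl) | ⟨hN, c, rfl⟩)
  · exact jq_mem_ringS
  · exact jqd_mem_ringS GamH_le_Gamma0
  · exact nrm_mem_ringS K hN c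

theorem gens_le_FK : IntermediateField.adjoin K (gens H K) ≤ FK K (GamH N H) :=
  IntermediateField.adjoin_le_iff.mpr fun _ hx => mem_FK_of_mem (gens_subset K hx)

theorem algebraMap_ratFunc_mem {S : IntermediateField K (MF K N)} (hS : jM K N ∈ S)
    (r : RatFunc K) : algebraMap (RatFunc K) (MF K N) r ∈ S := by
  have h1 : K⟮jM K N⟯ ≤ S := IntermediateField.adjoin_simple_le_iff.mpr hS
  apply h1
  show ((RatFunc.algEquivOfTranscendental (jM K N) transcendental_jM r : K⟮jM K N⟯) : MF K N) ∈ _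
  exact SetLike.coe_mem _

/-- The preimage in the field of level `Γ(N)` of a field of Laurent series in `q`. -/
def preF (G : IntermediateField K (LaurentSeries K)) (hG : jqModC K ∈ G) :
    IntermediateField (RatFunc K) (MF K N) :=
  ((G.map (qX K N)).comap (expM K N)).toSubfield.toIntermediateField
    (algebraMap_ratFunc_mem K (S := (G.map (qX K N)).comap (expM K N)) (by
      show expM K N (jM K N) ∈ G.map (qX K N)
      rw [jM, expM_algebraMap, expK_jF]
      exact ⟨_, hG, rfl⟩))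

variable {K}

theorem mem_preF {G : IntermediateField K (LaurentSeries K)} {hG : jqModC K ∈ G} {y : MF K N} :
    y ∈ preF K G hG ↔ ∃ x ∈ G, qExpand K N x = expM K N y := Iff.rfl

variable [IsAlgClosed K]

theorem mem_preF_of_ringS {G : IntermediateField K (LaurentSeries K)} {hG : jqModC K ∈ G}
    {Γ : Subgroup SL(2, ℤ)} [IsLevel N Γ] {f : ℍ → ℂ} (hf : f ∈ modAlg Γ) {F : LaurentSeries K}
    (hF : IsExp 1 f (theta K F)) (hFG : F ∈ G) :
    algebraMap (bigAlg K N) (MF K N) ⟨f, mem_bigAlg_of_ringS (N := N) hf hF⟩ ∈ preF K G hG :=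
  mem_preF.mpr ⟨F, hFG, (expM_of_ringS hf hF).symm⟩

/-- If `γ` fixes an element of the ring then `f ∘ γ = f`. -/
theorem tr_eq_of_rho {γ : SL(2, ℤ)} {f : bigAlg K N}
    (h : rho K N γ (algebraMap (bigAlg K N) (MF K N) f) = algebraMap (bigAlg K N) (MF K N) f) :
    tr γ (f : ℍ → ℂ) = f := by
  rw [rho_algebraMap, (IsFractionRing.injective (bigAlg K N) (MF K N)).eq_iff] at h
  have h1 : γ⁻¹ • f = f := by
    conv_lhs => rw [← h]
    rw [inv_smul_smul]
  have := congrArg Subtype.val h1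
  rwa [coe_smul, inv_inv] at this

theorem pow_jqModC_injective (K : Type*) [Field K] :
    Function.Injective (fun c : ℕ => jqModC K ^ c) := by
  intro a b h
  have h1 := congrArg HahnSeries.order h
  simp only [HahnSeries.order_pow, H18.order_jqModC] at h1
  simpa using h1

/-- The norms determine the coset; any field of coefficients. -/
theorem exists_unit_of_nrm_eq {K : Type*} [Field K] {d : (ZMod N)ˣ}
    (h : ∀ c : ℕ, (∏ u ∈ hFin H, (jqModC K ^ c - hS K N ((u * d : (ZMod N)ˣ) : ZMod N))) =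
      nrm H K c) : ∃ u ∈ H, (d : ZMod N) = u ∨ (d : ZMod N) = -u := by
  set P : (LaurentSeries K)[X] := ∏ u ∈ hFin H,
    (Polynomial.X - Polynomial.C (hS K N ((u * d : (ZMod N)ˣ) : ZMod N))) with hP
  set Q : (LaurentSeries K)[X] := ∏ u ∈ hFin H,
    (Polynomial.X - Polynomial.C (hS K N (u : ZMod N))) with hQ
  have hPQ : P = Q := by
    apply Polynomial.eq_of_infinite_eval_eq
    refine Set.Infinite.mono (s := Set.range (fun c : ℕ => jqModC K ^ c)) ?_
      (Set.infinite_range_of_injective (pow_jqModC_injective K))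
    rintro _ ⟨c, rfl⟩
    show P.eval _ = Q.eval _
    rw [hP, hQ, Polynomial.eval_prod, Polynomial.eval_prod]
    simp only [Polynomial.eval_sub, Polynomial.eval_X, Polynomial.eval_C]
    exact h c
  have h1 : P.eval (hS K N (d : ZMod N)) = 0 := by
    rw [hP, Polynomial.eval_prod]
    refine Finset.prod_eq_zero (mem_hFin.mpr (one_mem H)) ?_
    simp
  rw [hPQ, hQ, Polynomial.eval_prod, Finset.prod_eq_zero_iff] at h1
  obtain ⟨u, hu, h2⟩ := h1
  rw [mem_hFin] at hu
  rw [Polynomial.eval_sub, Polynomial.eval_X, Polynomial.eval_C, sub_eq_zero] at h2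
  refine ⟨u, hu, ?_⟩
  by_cases h1 : (1 : ZMod N) = -1
  · left
    rw [one_eq_neg_one_imp d.isUnit h1, one_eq_neg_one_imp u.isUnit h1]
  · exact hS_injective K (unit_ne_neg d.isUnit h1) (unit_ne_neg u.isUnit h1) h2

theorem mem_pm_GamH_of_fix {γ : SL(2, ℤ)} {G : IntermediateField K (LaurentSeries K)}
    (hG : gens H K ⊆ G)
    (h : ∀ y ∈ preF (N := N) K G (hG (Or.inl (Or.inl rfl))), rho K N γ y = y) :
    γ ∈ pm (GamH N H) := by
  have h0 : γ ∈ Gamma0 N := by
    have h1 := h _ (mem_preF_of_ringS (N := N) (Γ := GamH N H)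
      (modAlg_mono GamH_le_Gamma0 (jN_mem_modAlg (NeZero.pos N)))
      (F := qExpand K N (jqModC K)) (by rw [theta_qExpand, theta_jqModC]; exact H18.isExp_jN)
      (hG (Or.inl (Or.inr rfl))))
    exact mem_Gamma0_of_tr_jN (NeZero.pos N) (tr_eq_of_rho h1)
  by_cases hN : N = 1
  · left
    rw [mem_GamH]
    refine ⟨h0, ?_⟩
    have : dChar N ⟨γ, h0⟩ = 1 := by
      subst hN
      exact Subsingleton.elim _ _
    rw [this]
    exact one_mem _
  set d := dChar N ⟨γ⁻¹, inv_mem h0⟩ with hd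
  have hd' : (d : ZMod N) = ((γ 0 0 : ℤ) : ZMod N) := by
    rw [hd, dChar_val]
    simp [Matrix.SpecialLinearGroup.coe_inv, Matrix.adjugate_fin_two]
  obtain ⟨u, hu, h1⟩ := exists_unit_of_nrm_eq (K := ℂ) (H := H) (d := d) fun c => by
    have h1 := tr_eq_of_rho (h _ (mem_preF_of_ringS (N := N) (Γ := GamH N H) (nrmFun_mem c)
      (F := nrm H K c) (by
        have : theta K (nrm H K c) = nrm H ℂ c := coeffMap_nrm _ c
        rw [this]
        exact isExp_nrmFun hN c) (hG (Or.inr ⟨hN, c, rfl⟩))))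
    have h2 : IsExp 1 (tr γ (nrmFun H c))
        (∏ u ∈ hFin H, (jqModC ℂ ^ c - hS ℂ N ((u * d : (ZMod N)ˣ) : ZMod N))) := by
      rw [nrmFun, tr_prod]
      refine isExp_prod _ fun u _ => ?_
      have h3 : tr γ (jfun ^ c - hfun N (u : ZMod N)) =
        jfun ^ c - hfun N ((u * d : (ZMod N)ˣ) : ZMod N) := by
        rw [Units.val_mul, hd', ← tr_hfun h0, tr_factor]
      rw [h3]
      exact IsExp.sub (isExp_jfun.pow c) (isExp_hfun (unit_ne_zero hN _))
    change tr γ (nrmFun H c) = nrmFun H c at h1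
    rw [h1] at h2
    exact h2.unique one_pos (isExp_nrmFun hN c)
  have h4 : d⁻¹ = dChar N ⟨γ, h0⟩ := by
    rw [hd, ← map_inv]
    congr 1
    exact Subtype.ext (inv_inv γ)
  rcases h1 with h1 | h1
  · left
    rw [mem_GamH]
    refine ⟨h0, ?_⟩
    rw [← h4, Units.ext h1]
    exact inv_mem hu
  · right
    have h0' : -γ ∈ Gamma0 N := by
      rw [Gamma0_mem] at h0 ⊢
      simp [h0]
    rw [mem_GamH]
    refine ⟨h0', ?_⟩
    have h5 : dChar N ⟨-γ, h0'⟩ = u⁻¹ := by
      have h6 : d = -u := Units.ext (by rw [h1, Units.val_neg])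
      have h7 : dChar N ⟨-γ, h0'⟩ = -dChar N ⟨γ, h0⟩ := by
        apply Units.ext
        rw [dChar_val, Units.val_neg, dChar_val]
        simp
      rw [h7, ← h4, h6]
      simp
    rw [h5]
    exact inv_mem hu

/-- **Generators, algebraically closed case.** -/
theorem FK_eq_adjoin_of_isAlgClosed : FK K (GamH N H) = IntermediateField.adjoin K (gens H K) := by
  apply le_antisymm _ (gens_le_FK K)
  intro x hx
  set G := IntermediateField.adjoin K (gens H K) with hG
  have hGs : gens H K ⊆ G := IntermediateField.subset_adjoin _ _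
  set E := preF (N := N) K G (hGs (Or.inl (Or.inl rfl))) with hE
  have h1 : embF K N (GamH N H) ⟨x, hx⟩ ∈ E := by
    rw [← IsGalois.fixedField_fixingSubgroup E, IntermediateField.mem_fixedField_iff]
    intro g hg
    obtain ⟨γ, rfl⟩ := rho_surjective g
    have h2 : γ ∈ pm (GamH N H) := mem_pm_GamH_of_fix hGs fun y hy => by
      have := (IntermediateField.mem_fixingSubgroup_iff _ _).mp hg y hy
      exact this
    exact (mem_pm_iff (K := K) (N := N)).mp h2 _
  obtain ⟨y, hy, h2⟩ := mem_preF.mp h1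
  rw [expM_embF] at h2
  have h3 : y = x := ModularCurve.qExpand_injective N h2
  rwa [← h3]

end Gen

section Gen2

variable (K : Type*) [Field K] [Algebra K ℂ] [NeZero N]

/-- The function field over a larger field is the compositum. -/
theorem cEmb_mem_FK {Γ : Subgroup SL(2, ℤ)} {L : Type*} [Field L] [Algebra L ℂ] [Algebra K L]
    [IsScalarTower K L ℂ] {x : LaurentSeries K} (hx : x ∈ FK K Γ) : cEmb K L x ∈ FK L Γ := by
  obtain ⟨F, ⟨f, hf, hF⟩, G, ⟨g, hg, hG⟩, rfl⟩ := mem_FK_iff.mp hx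
  have h1 : ∀ F : LaurentSeries K, theta L (cEmb K L F) = theta K F := fun F => by
    ext n
    simp only [ModularCurve.coeffMap_coeff]
    exact (IsScalarTower.algebraMap_apply K L ℂ _).symm
  rw [map_div₀]
  exact div_mem (mem_FK_of_mem ⟨f, hf, by rw [h1]; exact hF⟩)
    (mem_FK_of_mem ⟨g, hg, by rw [h1]; exact hG⟩)

theorem extend_adjoin_gens (L : Type*) [Field L] [Algebra K L] :
    H26.extend L (IntermediateField.adjoin K (gens H K)) = IntermediateField.adjoin L (gens H L) := by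
  apply le_antisymm
  · rw [H26.extend, IntermediateField.adjoin_le_iff]
    rintro _ ⟨x, hx, rfl⟩
    let S : IntermediateField K (LaurentSeries K) :=
      ((IntermediateField.adjoin L (gens H L)).toSubfield.comap (cEmb K L)).toIntermediateField
        fun c => by
          show cEmb K L (algebraMap K _ c) ∈ IntermediateField.adjoin L (gens H L)
          rw [H26.coeffMap_algebraMap']
          exact (IntermediateField.adjoin L (gens H L)).algebraMap_mem _
    have h1 : IntermediateField.adjoin K (gens H K) ≤ S := by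
      rw [IntermediateField.adjoin_le_iff]
      intro y hy
      show cEmb K L y ∈ IntermediateField.adjoin L (gens H L)
      apply IntermediateField.subset_adjoin
      rw [← coeffMap_gens (algebraMap K L)]
      exact ⟨y, hy, rfl⟩
    exact h1 hx
  · rw [IntermediateField.adjoin_le_iff, ← coeffMap_gens (algebraMap K L)]
    rintro _ ⟨x, hx, rfl⟩
    exact cEmb_mem_extend (IntermediateField.subset_adjoin _ _ hx)

/-- **Generators of the function field of `Γ_H(N)` over any field of constants.** -/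
theorem FK_eq_adjoin : FK K (GamH N H) = IntermediateField.adjoin K (gens H K) := by
  apply le_antisymm _ (gens_le_FK K)
  intro x hx
  apply mem_of_cEmb_mem_extend (L := ℂ)
  rw [extend_adjoin_gens, ← FK_eq_adjoin_of_isAlgClosed]
  exact cEmb_mem_FK K hx

/-- Base change for function fields. -/
theorem extend_FK (L : Type*) [Field L] [Algebra L ℂ] [Algebra K L] :
    H26.extend L (FK K (GamH N H)) = FK L (GamH N H) := by
  rw [FK_eq_adjoin, FK_eq_adjoin, extend_adjoin_gens]

end Gen2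

section Rat

variable [NeZero N] (H)

/-- **The function field of `X_H(N)` over `ℚ`.** -/
def F0 : IntermediateField ℚ (LaurentSeries ℚ) := FK ℚ (GamH N H)

variable {H}

theorem F0_eq_adjoin : F0 H = IntermediateField.adjoin ℚ (gens H ℚ) := FK_eq_adjoin ℚ

/-- **Base change from `ℚ`.** -/
theorem laurentBaseChange_F0 (L : Type*) [Field L] [Algebra L ℂ] [Algebra ℚ L] :
    laurentBaseChange L (F0 H) = FK L (GamH N H) := by
  rw [← extend_FK ℚ L]
  rfl

end Rat

end Fermat.Agent.H18J
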