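import Fermat.Agent.H18J.Full
import Fermat.Agent.H18J.PlaceDeg

set_option autoImplicit false
set_option linter.unusedSectionVars false

/-!
# The maps `F(Γ) → F(Γ')`: inclusion and `q ↦ q^ℓ`

-/

noncomputable section

open UpperHalfPlane hiding I
open ModularForm EisensteinSeries Filter Complex Topology Function CongruenceSubgroup
open scoped MatrixGroups Manifold Real Polynomial IntermediateField

namespace Fermat.Agent.H18J

open Fermat.Agent.H02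
open Fermat.Agent.H22 (GamH dChar mem_GamH' mem_GamH GamH_le_Gamma0 dChar_val GamH_mono GamH_top
  degSL degSL_mem_GamH GamHl dvd_of_mem)
open Fermat.Agent.H26 (cEmb cEmb_mem_extend mem_of_cEmb_mem_extend)
open Fermat.Agent.H02G (pm mem_pm le_pm neg_mem_pm mfq)
open Fermat.Agent.H18 (jfun theta theta_injective isExp_fun_unique isExp_jfun theta_jqModC
  theta_qExpand isExp_aeval jfun_surjective ratFuncAlgebra ratFuncAlgebra_tower ratFuncAlgebra_X)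
open Fermat.Agent.Igusa (IsExp scl lin coe_scl coe_lin)
open Fermat.Agent.IntStr (aff coe_aff Hc)
open ModularCurve (coeffMap qExpand jqModC laurentBaseChange coeffEmb modularFunctionFieldFull)

local notation "Δ" => ModularForm.discriminant

/-! ### Growth of `f(ℓ τ)` -/

theorem isSlow_comp_scl {ℓ : ℕ} [NeZero ℓ] {f : ℍ → ℂ} (hf : IsSlow f) :
    IsSlow (fun z => f (scl ℓ z)) := by
  refine ⟨?_, fun γ => ?_⟩
  · have := Fermat.Agent.IntStr.mdiff_comp_aff hf.holo (NeZero.pos ℓ) one_pos 0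
    simpa only [scl_eq_aff] using this
  · obtain ⟨a, d, b, δ, ha, hd, had, h1, -⟩ := exists_aff (NeZero.pos ℓ) γ
    obtain ⟨n, hn⟩ := hf.bdd δ
    refine ⟨ℓ * n, ?_⟩
    have h2 : tr γ (fun z => f (scl ℓ z)) = fun z => tr δ f (aff a d b z) := by
      ext z
      rw [tr_apply, scl_eq_aff, h1, tr_apply]
    have h3 : tr γ (fun z => f (scl ℓ z)) * Δ ^ (ℓ * n) =
        (fun z => (tr δ f * Δ ^ n) (aff a d b z)) *
          ((fun _ => (((d : ℂ) ^ 12)⁻¹) ^ n) * (Hc ℓ a d b) ^ n) := by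
      rw [h2]
      ext z
      have hD := discriminant_ne_zero (aff a d b z)
      have hd0 : (d : ℂ) ≠ 0 := by exact_mod_cast hd.ne'
      simp only [Pi.mul_apply, Pi.pow_apply, Hc]
      have hd1 : (d : ℂ) ^ 12 ≠ 0 := pow_ne_zero _ hd0
      rw [div_pow, mul_pow, inv_pow, pow_mul]
      field_simp
    have h4 := Fermat.Agent.IntStr.isBounded_Hc ha hd b had
    have h5 : ∀ k : ℕ, IsBoundedAtImInfty ((Hc ℓ a d b) ^ k) := by
      intro k
      induction k with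
      | zero => rw [pow_zero]; exact Filter.const_boundedAtFilter _ (1 : ℂ)
      | succ k ih => rw [pow_succ]; exact ih.mul h4
    rw [h3]
    exact Filter.BoundedAtFilter.mul
      (hn.comp_tendsto (Fermat.Agent.IntStr.tendsto_aff ha hd b))
      ((Filter.const_boundedAtFilter _ _).mul (h5 n))

theorem scl_smul {ℓ : ℕ} [NeZero ℓ] (γ : SL(2, ℤ)) (h : (ℓ : ℤ) ∣ γ 1 0) (z : ℍ) :
    scl ℓ (γ • z) = degSL ℓ γ h • scl ℓ z := by
  have hℓ : (ℓ : ℂ) ≠ 0 := by exact_mod_cast NeZero.ne ℓ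
  obtain ⟨c, hc⟩ := h
  have hq : γ 1 0 / (ℓ : ℤ) = c := by
    rw [hc, Int.mul_ediv_cancel_left _ (by exact_mod_cast NeZero.ne ℓ)]
  have e : ((γ 1 0 : ℤ) : ℂ) = ℓ * c := by rw [hc]; push_cast; ring
  have n1 : (γ 1 0 : ℂ) * z + γ 1 1 ≠ 0 := by
    have := denom_ne_zero γ z
    rwa [ModularGroup.denom_apply] at this
  apply UpperHalfPlane.ext
  rw [coe_scl, coe_specialLinearGroup_apply, coe_specialLinearGroup_apply]
  simp only [algebraMap_int_eq, eq_intCast, Complex.ofReal_intCast, H22.degSL_zero_zero,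
    H22.degSL_zero_one, H22.degSL_one_zero, H22.degSL_one_one]
  rw [coe_scl, hq, e]
  rw [e] at n1
  push_cast
  rw [show (c : ℂ) * (ℓ * z) + γ 1 1 = ℓ * c * z + γ 1 1 by ring, mul_div_assoc']
  congr 1
  ring

/-! ### Pairs of groups for the map `q ↦ q^ℓ` -/

/-- `Γ'` is contained in `diag(ℓ,1)⁻¹ Γ diag(ℓ,1)`. -/
def ScaleLe (ℓ : ℕ) [NeZero ℓ] (Γ Γ' : Subgroup SL(2, ℤ)) : Prop :=
  ∀ γ ∈ Γ', ∃ h : (ℓ : ℤ) ∣ γ 1 0, degSL ℓ γ h ∈ Γ

theorem comp_scl_mem {ℓ : ℕ} [NeZero ℓ] {Γ Γ' : Subgroup SL(2, ℤ)} (h : ScaleLe ℓ Γ Γ')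
    {f : ℍ → ℂ} (hf : f ∈ modAlg Γ) : (fun z => f (scl ℓ z)) ∈ modAlg Γ' := by
  refine ⟨isSlow_comp_scl hf.1, fun γ hγ => ?_⟩
  obtain ⟨h1, h2⟩ := h γ hγ
  ext z
  rw [tr_apply, scl_smul γ h1]
  exact congrFun (hf.2 _ h2) _

section Maps

variable (K : Type*) [Field K] [Algebra K ℂ] {Γ Γ' Γ'' : Subgroup SL(2, ℤ)}

theorem qExpand_mem_FK {ℓ : ℕ} [NeZero ℓ] (h : ScaleLe ℓ Γ Γ') {x : LaurentSeries K}
    (hx : x ∈ FK K Γ) : qExpand K ℓ x ∈ FK K Γ' := by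
  obtain ⟨F, ⟨f, hf, hF⟩, G, ⟨g, hg, hG⟩, rfl⟩ := mem_FK_iff.mp hx
  rw [map_div₀]
  refine div_mem (mem_FK_of_mem ⟨_, comp_scl_mem h hf, ?_⟩)
    (mem_FK_of_mem ⟨_, comp_scl_mem h hg, ?_⟩)
  · rw [theta_qExpand]; exact hF.comp_scl ℓ
  · rw [theta_qExpand]; exact hG.comp_scl ℓ

/-- The inclusion of function fields. -/
def incF (h : Γ' ≤ Γ) : FK K Γ →ₐ[K] FK K Γ' := IntermediateField.inclusion (FK_mono h)

@[simp] theorem coe_incF (h : Γ' ≤ Γ) (x : FK K Γ) :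
    (incF K h x : LaurentSeries K) = (x : LaurentSeries K) := IntermediateField.coe_inclusion _ x

/-- The map `q ↦ q^ℓ` of function fields. -/
def qeF (ℓ : ℕ) [NeZero ℓ] (h : ScaleLe ℓ Γ Γ') : FK K Γ →ₐ[K] FK K Γ' :=
  ((qX K ℓ).comp (FK K Γ).val).codRestrict (FK K Γ').toSubalgebra fun x => qExpand_mem_FK K h x.2

@[simp] theorem coe_qeF (ℓ : ℕ) [NeZero ℓ] (h : ScaleLe ℓ Γ Γ') (x : FK K Γ) :
    (qeF K ℓ h x : LaurentSeries K) = qExpand K ℓ (x : LaurentSeries K) := rfl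

end Maps

/-! ### The groups `Γ_H(N)` -/

section GamH

variable {N : ℕ} {H : Subgroup (ZMod N)ˣ} {ℓ : ℕ} [NeZero ℓ]

theorem scaleLe_GamHl : ScaleLe ℓ (GamH N H) (GamHl N H ℓ) := fun _ hγ =>
  ⟨dvd_of_mem hγ.2, degSL_mem_GamH N H ℓ hγ⟩

theorem isLevel_Gamma0' (M : ℕ) : ModularGroup.T ∈ Gamma0 M := by
  rw [Gamma0_mem]; simp [ModularGroup.T]

instance isLevel_GamHl : IsLevel (N * ℓ) (GamHl N H ℓ) where
  gamma_le γ hγ := by
    have h1 : γ ∈ Gamma0 (N * ℓ) := by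
      rw [Gamma_mem] at hγ
      rw [Gamma0_mem]
      exact hγ.2.2.1
    refine ⟨IsLevel.gamma_le (N := N) ?_, h1⟩
    rw [Gamma_mem] at hγ ⊢
    have hd : N ∣ N * ℓ := dvd_mul_right _ _
    have hc := fun a : ℤ => ZMod.cast_intCast (R := ZMod N) hd a
    obtain ⟨h1, h2, h3, h4⟩ := hγ
    refine ⟨?_, ?_, ?_, ?_⟩
    · rw [← hc, h1]; exact ZMod.cast_one hd
    · rw [← hc, h2]; exact ZMod.cast_zero
    · rw [← hc, h3]; exact ZMod.cast_zero
    · rw [← hc, h4]; exact ZMod.cast_one hd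
  T_mem := ⟨IsLevel.T_mem N, (isLevel_Gamma0' (N * ℓ))⟩

instance isLevel_GamHl' [NeZero N] : H02G.IsLevel (GamHl N H ℓ) where
  exists_level := ⟨N * ℓ, mul_ne_zero (NeZero.ne N) (NeZero.ne ℓ), IsLevel.gamma_le⟩
  T_mem := IsLevel.T_mem (N * ℓ)

end GamH

end Fermat.Agent.H18J
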